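/-
GATE-B / GB-PNEW / (ANN) step (ii) FLATNESS (helper81; helper32 6127 §2).

A parabolic homomorphism `f : Γ → K` (`K` a field of characteristic zero) killed by two
coset-system operators (`cores`, `cores_δ`) is a `K`-linear combination of INTEGRAL parabolic
homomorphisms killed by the same two operators (elements of `Λnew`).

* `exists_int_kernel_combination` (Mathlib only): the kernel over `K` of an integer matrix is
  spanned by integer kernel vectors (`ℚ`-basis of `K` + clearing denominators; = flatness of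
  `K` over `ℤ`);
* `exists_new_expansion_gen` : generic f.g. group `Γ₁ ≤ H`, set `Ps` of "parabolic" elements
  (`ZStructGen`), two coset systems `S₁ : CosetSys emb Γ₁ Γ₂`, `S₂ : CosetSys emb Γ₁ Γ₃`;
* `exists_new_expansion` : `Γ₁ = Γ₀(N)`, `IsParabolicHom`, in the vocabulary of `GJ/J2/Lattice.Lam`.
-/
import Mathlib
import Fermat.Agent.GJ.J2.ZStructGen
import Fermat.Agent.GJ.J2.ZStruct
import Fermat.Agent.GJ.J2.Lattice
import Fermat.Agent.GM.B.System

set_option autoImplicit false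

noncomputable section

namespace Fermat.Agent.GB.B10.L.NewExpansion

open Finset

/-! ### integer matrices over a field of characteristic zero -/

/-- clearing the denominators of a finite family of rationals -/
theorem exists_common_den {I : Type*} [Fintype I] (r : I → ℚ) :
    ∃ d : ℕ, d ≠ 0 ∧ ∃ z : I → ℤ, ∀ i, r i * (d : ℚ) = (z i : ℚ) := by
  classical
  refine ⟨∏ i, (r i).den, ?_, fun i => (r i).num * ((∏ i' ∈ univ.erase i, (r i').den : ℕ) : ℤ),
    fun i => ?_⟩
  · exact Finset.prod_ne_zero_iff.mpr fun i _ => (r i).den_ne_zero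
  · have h1 : (∏ i', (r i').den) = (r i).den * ∏ i' ∈ univ.erase i, (r i').den :=
      (Finset.mul_prod_erase univ (fun i' => (r i').den) (Finset.mem_univ i)).symm
    rw [h1]
    push_cast
    rw [← mul_assoc, Rat.mul_den_eq_num]

/-- **The kernel of an integer matrix over a field of characteristic zero is spanned by integer
kernel vectors.** -/
theorem exists_int_kernel_combination {I J : Type*} [Fintype I] (M : J → I → ℤ)
    {K : Type*} [Field K] [CharZero K] (a : I → K)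
    (ha : ∀ j, ∑ i, (M j i : K) * a i = 0) :
    ∃ (n : ℕ) (c : Fin n → K) (z : Fin n → I → ℤ),
      (∀ b j, ∑ i, M j i * z b i = 0) ∧ ∀ i, a i = ∑ b, c b * (z b i : K) := by
  classical
  let B := Module.Basis.ofVectorSpace ℚ K
  let s : Finset (Module.Basis.ofVectorSpaceIndex ℚ K) :=
    Finset.univ.biUnion fun i => (B.repr (a i)).support
  -- the rational coordinate vectors
  let r : Module.Basis.ofVectorSpaceIndex ℚ K → I → ℚ := fun b i => B.repr (a i) b
  have hr : ∀ b j, ∑ i, (M j i : ℚ) * r b i = 0 := by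
    intro b j
    have h1 : B.repr (∑ i, (M j i : K) * a i) b = 0 := by rw [ha j, map_zero]; rfl
    rw [map_sum, Finsupp.finsetSum_apply] at h1
    rw [← h1]
    refine Finset.sum_congr rfl fun i _ => ?_
    have h2 : (M j i : K) * a i = (M j i : ℚ) • a i := by
      rw [Algebra.smul_def]
      congr 1
      simp
    rw [h2, map_smul, Finsupp.smul_apply, smul_eq_mul]
  have hsum : ∀ i, a i = ∑ b ∈ s, r b i • B b := by
    intro i
    have h1 : a i = ∑ b ∈ (B.repr (a i)).support, B.repr (a i) b • B b := by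
      conv_lhs => rw [← B.linearCombination_repr (a i)]
      rw [Finsupp.linearCombination_apply, Finsupp.sum]
    rw [h1]
    refine Finset.sum_subset ?_ ?_
    · intro b hb
      exact Finset.mem_biUnion.mpr ⟨i, Finset.mem_univ i, hb⟩
    · intro b _ hb
      rw [Finsupp.notMem_support_iff.mp hb, zero_smul]
  choose d hd0 z hz using fun b => exists_common_den (r b)
  have hzker : ∀ b j, ∑ i, M j i * z b i = 0 := by
    intro b j
    have h1 : ((∑ i, M j i * z b i : ℤ) : ℚ) = 0 := by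
      push_cast
      have h2 : ∑ i, (M j i : ℚ) * (z b i : ℚ) = (∑ i, (M j i : ℚ) * r b i) * (d b : ℚ) := by
        rw [Finset.sum_mul]
        refine Finset.sum_congr rfl fun i _ => ?_
        rw [← hz b i, mul_assoc]
      rw [h2, hr b j, zero_mul]
    exact_mod_cast h1
  -- reindex by `Fin n`
  let e := s.equivFin
  refine ⟨s.card, fun k => B (e.symm k) * ((d (e.symm k) : ℕ) : K)⁻¹, fun k => z (e.symm k),
    fun k j => hzker _ j, fun i => ?_⟩
  rw [hsum i, ← Finset.sum_coe_sort s, ← Equiv.sum_comp e.symm]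
  refine Finset.sum_congr rfl fun k _ => ?_
  set b := (e.symm k : Module.Basis.ofVectorSpaceIndex ℚ K) with hb
  have hdK : ((d b : ℕ) : K) ≠ 0 := Nat.cast_ne_zero.mpr (hd0 b)
  have h3 : r b i = (z b i : ℚ) / (d b : ℚ) := by
    rw [← hz b i, mul_div_assoc, div_self (Nat.cast_ne_zero.mpr (hd0 b)), mul_one]
  rw [h3, Algebra.smul_def]
  have h4 : algebraMap ℚ K ((z b i : ℚ) / (d b : ℚ)) = (z b i : K) / ((d b : ℕ) : K) := by
    simp
  rw [h4]
  show (z b i : K) / ((d b : ℕ) : K) * B b = B b * ((d b : ℕ) : K)⁻¹ * (z b i : K)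
  rw [div_eq_mul_inv]
  ring


/-! ### the generic expansion -/

section Gen

open Fermat.Agent.GJ.J2.ZStruct Fermat.Agent.GM.B

variable {H G : Type*} [Group H] [Group G] {emb : H →* G} {Γ₁ Γ₂ Γ₃ : Subgroup H}
  (Ps : Set Γ₁) [Group.FG Γ₁] (S₁ : CosetSys emb Γ₁ Γ₂) (S₂ : CosetSys emb Γ₁ Γ₃)
  {K : Type*} [Field K] [CharZero K]

/-- the operator of a coset system on an expansion `∑ i, Φ i • a i` -/
theorem op_expansion {Γ' : Subgroup H} (S : CosetSys emb Γ₁ Γ')
    (f : Additive Γ₁ →+ K) (hf : KillsOn Ps f) (g : Γ') :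
    S.op K f (Additive.ofMul g) =
      ∑ i, ((S.op ℤ (PhiB Ps i) (Additive.ofMul g) : ℤ) : K) * f (betaB Ps i) := by
  have hA : ∀ (n : ℤ) (a : K), n ≠ 0 → n • a = 0 → a = 0 := by
    intro n a hn h
    rw [zsmul_eq_mul] at h
    rcases mul_eq_zero.mp h with h | h
    · exact absurd (by exact_mod_cast h) hn
    · exact h
  rw [CosetSys.op_apply]
  have h1 : ∀ x : S.ι, f (Additive.ofMul (S.c g x)) =
      ∑ i, ((PhiB Ps i (Additive.ofMul (S.c g x)) : ℤ) : K) * f (betaB Ps i) := by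
    intro x
    rw [expansion Ps hA f hf (Additive.ofMul (S.c g x))]
    refine Finset.sum_congr rfl fun i _ => ?_
    rw [zsmul_eq_mul]
  simp_rw [h1]
  rw [Finset.sum_comm]
  refine Finset.sum_congr rfl fun i _ => ?_
  rw [CosetSys.op_apply, ← Finset.sum_mul]
  push_cast
  rfl

/-- **(ii) FLATNESS, generic form**: `f : Γ₁ → K` killing `Ps` with `S₁.op f = 0 = S₂.op f` is a
`K`-combination of integral homs killing `Ps` and killed by `S₁.op`, `S₂.op`. -/
theorem exists_new_expansion_gen (f : Additive Γ₁ →+ K) (hf : KillsOn Ps f)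
    (h1 : S₁.op K f = 0) (h2 : S₂.op K f = 0) :
    ∃ (n : ℕ) (c : Fin n → K) (Ψ : Fin n → Additive Γ₁ →+ ℤ),
      (∀ b, KillsOn Ps (Ψ b)) ∧ (∀ b, S₁.op ℤ (Ψ b) = 0) ∧ (∀ b, S₂.op ℤ (Ψ b) = 0) ∧
        ∀ γ, f γ = ∑ b, c b * ((Ψ b γ : ℤ) : K) := by
  classical
  have hA : ∀ (n : ℤ) (a : K), n ≠ 0 → n • a = 0 → a = 0 := by
    intro n a hn h
    rw [zsmul_eq_mul] at h
    rcases mul_eq_zero.mp h with h | h
    · exact absurd (by exact_mod_cast h) hn
    · exact h
  -- the integer matrix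
  let M : Γ₂ ⊕ Γ₃ → Idx Ps → ℤ := fun j i =>
    Sum.elim (fun g => S₁.op ℤ (PhiB Ps i) (Additive.ofMul g))
      (fun g => S₂.op ℤ (PhiB Ps i) (Additive.ofMul g)) j
  have ha : ∀ j, ∑ i, (M j i : K) * f (betaB Ps i) = 0 := by
    rintro (g | g)
    · have h := op_expansion Ps S₁ f hf g
      rw [h1] at h
      exact h.symm
    · have h := op_expansion Ps S₂ f hf g
      rw [h2] at h
      exact h.symm
  obtain ⟨n, c, z, hz, hexp⟩ := exists_int_kernel_combination M (fun i => f (betaB Ps i)) ha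
  refine ⟨n, c, fun b => ∑ i, z b i • PhiB Ps i, fun b => ?_, fun b => ?_, fun b => ?_,
    fun γ => ?_⟩
  · intro γ hγ
    rw [AddMonoidHom.finsetSum_apply]
    refine Finset.sum_eq_zero fun i _ => ?_
    rw [AddMonoidHom.smul_apply, PhiB_kills Ps i γ hγ, smul_zero]
  · refine AddMonoidHom.ext fun g => ?_
    obtain ⟨g, rfl⟩ : ∃ g' : Γ₂, Additive.ofMul g' = g := ⟨Additive.toMul g, rfl⟩
    rw [map_sum, AddMonoidHom.finsetSum_apply]
    have := hz b (Sum.inl g)
    rw [AddMonoidHom.zero_apply, ← this]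
    refine Finset.sum_congr rfl fun i _ => ?_
    rw [map_zsmul, AddMonoidHom.smul_apply, smul_eq_mul, mul_comm]
    rfl
  · refine AddMonoidHom.ext fun g => ?_
    obtain ⟨g, rfl⟩ : ∃ g' : Γ₃, Additive.ofMul g' = g := ⟨Additive.toMul g, rfl⟩
    rw [map_sum, AddMonoidHom.finsetSum_apply]
    have := hz b (Sum.inr g)
    rw [AddMonoidHom.zero_apply, ← this]
    refine Finset.sum_congr rfl fun i _ => ?_
    rw [map_zsmul, AddMonoidHom.smul_apply, smul_eq_mul, mul_comm]
    rfl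
  · rw [expansion Ps hA f hf γ]
    have h3 : ∀ b, (((∑ i, z b i • PhiB Ps i : Additive Γ₁ →+ ℤ) γ : ℤ) : K) =
        ∑ i, (z b i : K) * ((PhiB Ps i γ : ℤ) : K) := by
      intro b
      rw [AddMonoidHom.finsetSum_apply, Int.cast_sum]
      refine Finset.sum_congr rfl fun i _ => ?_
      rw [AddMonoidHom.smul_apply, smul_eq_mul, Int.cast_mul]
    simp_rw [h3, Finset.mul_sum]
    rw [Finset.sum_comm]
    refine Finset.sum_congr rfl fun i _ => ?_
    rw [zsmul_eq_mul, hexp i, Finset.mul_sum]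
    refine Finset.sum_congr rfl fun b _ => ?_
    ring

end Gen

/-! ### `Γ₀(N)` -/

section Gamma0

open CongruenceSubgroup ModularCurve ModularCurve.Period
open Fermat.Agent.GJ.J2.ZStruct Fermat.Agent.GM.B
open scoped MatrixGroups

variable (N : ℕ) [NeZero N] {G : Type*} [Group G] {emb : SL(2, ℤ) →* G}
  {Γ₂ Γ₃ : Subgroup SL(2, ℤ)} (S₁ : CosetSys emb (Gamma0 N) Γ₂) (S₂ : CosetSys emb (Gamma0 N) Γ₃)
  {K : Type*} [Field K] [CharZero K]

/-- **(ii) FLATNESS at `Γ₀(N)`**: a parabolic hom `f : Γ₀(N) → K` with `S₁.op f = 0 = S₂.op f`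
(e.g. `cores f = 0 = cores_δ f`) is a `K`-combination of elements `Ψ b` of the lattice
`Λ = Lam N = Hom_par(Γ₀(N), ℤ)` with `S₁.op (Ψ b) = 0 = S₂.op (Ψ b)` (elements of `Λnew`). -/
theorem exists_new_expansion (f : Additive (Gamma0 N) →+ K) (hf : IsParabolicHom (Gamma0 N) f)
    (h1 : S₁.op K f = 0) (h2 : S₂.op K f = 0) :
    ∃ (n : ℕ) (c : Fin n → K) (Ψ : Fin n → Fermat.Agent.GJ.J2.Lat.Lam N),
      (∀ b, S₁.op ℤ (Ψ b : Additive (Gamma0 N) →+ ℤ) = 0) ∧
      (∀ b, S₂.op ℤ (Ψ b : Additive (Gamma0 N) →+ ℤ) = 0) ∧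
        ∀ γ, f γ = ∑ b, c b * (((Ψ b : Additive (Gamma0 N) →+ ℤ) γ : ℤ) : K) := by
  obtain ⟨n, c, Ψ, hΨ, hS1, hS2, hexp⟩ :=
    exists_new_expansion_gen (parSet N) S₁ S₂ f ((killsOn_iff N f).2 hf) h1 h2
  exact ⟨n, c, fun b => ⟨Ψ b, (killsOn_iff N (Ψ b)).1 (hΨ b)⟩, hS1, hS2, hexp⟩

end Gamma0

end Fermat.Agent.GB.B10.L.NewExpansion
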