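/-
GATE-B / GB-PNEW, seam (ANN) ⟶ (hann) (helper32): **from "`twO t₀` kills the module" to
"`φ (piT H t₀) = 0`"**, for the image ring `T_Q = ImageRing.TQ 𝒪 θ tw` and any `𝒪`-algebra hom
`φ : T → T_Q` with `φ ∘ H.π = chi`.

* `phi_piT_eq_mkQ` : `φ (piT H t₀) = mkQ t₀` for every `t₀ ∈ 𝒪 ⊗ 𝕋`;
* `phi_piT_eq_zero_of_twO` : `twO tw t₀ = 0 ⟹ φ (piT H t₀) = 0`;
* `hann_of_twO` : the binder `hann` of `ShiftSub.exists_hker` / `StrictQ.isStrictOrdinaryAt_pushRep_of_ann`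
  from the module-level statement (ANN) (`GB/B10/L/Ann`, helper44).
-/
import Fermat.Agent.GH.S32.Inst
import Fermat.Agent.GB.B4.Datum.ImageRing

set_option autoImplicit false
set_option linter.unusedSectionVars false

noncomputable section

namespace Fermat.Agent.GB.B10.L.AnnChi

open TensorProduct CuspForm IsLocalRing
open Fermat.Agent.GJ.Tate Fermat.Agent.GH.S32.Inst Fermat.Agent.GB.B4.Datum.ImageRing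

variable {p : ℕ} {N : ℕ} [NeZero N] {S : Finset ℕ}
  {𝒪 : Type} [CommRing 𝒪] [IsDomain 𝒪] [IsDiscreteValuationRing 𝒪]
  [IsAdicComplete (IsLocalRing.maximalIdeal 𝒪) 𝒪]
  {θ : CuspForm.heckeAlgebra N 2 (↑S : Set ℕ) →+* IsLocalRing.ResidueField 𝒪}
  {T : Type} [CommRing T] [IsLocalRing T] [IsNoetherianRing T]
  [IsAdicComplete (IsLocalRing.maximalIdeal T) T] [Algebra 𝒪 T] [IsLocalHom (algebraMap 𝒪 T)]
  [Module.Finite 𝒪 T] [Module.Free 𝒪 T]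
  {M : Type} [AddCommGroup M] [Module 𝒪 M]
  {tw : heckeAlgebra N 2 (↑S : Set ℕ) →+* Module.End 𝒪 M}

/-- `φ ∘ piT H = mkQ` on `𝒪 ⊗ 𝕋`, for an `𝒪`-algebra hom `φ` with `φ ∘ H.π = chi`. -/
theorem phi_piT_eq_mkQ (H : CuspForm.HeckeGaloisRepDatum N (↑S : Set ℕ) 𝒪 θ T)
    (φ : T →ₐ[𝒪] TQ 𝒪 θ tw) (hφ : ∀ t, φ (H.π t) = chi 𝒪 θ tw t)
    (t₀ : 𝒪 ⊗[ℤ] heckeAlgebra N 2 (↑S : Set ℕ)) :
    φ (piT H t₀) = mkQ 𝒪 θ tw t₀ := by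
  induction t₀ using TensorProduct.induction_on with
  | zero => rw [map_zero, map_zero, map_zero]
  | add a b ha hb => rw [map_add, map_add, map_add, ha, hb]
  | tmul r t =>
    rw [piT_tmul, map_mul, AlgHom.commutes, hφ, mkQ_tmul, Algebra.smul_def]

/-- if `twO tw t₀` is the zero endomorphism then `φ (piT H t₀) = 0`. -/
theorem phi_piT_eq_zero_of_twO (H : CuspForm.HeckeGaloisRepDatum N (↑S : Set ℕ) 𝒪 θ T)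
    (φ : T →ₐ[𝒪] TQ 𝒪 θ tw) (hφ : ∀ t, φ (H.π t) = chi 𝒪 θ tw t)
    (t₀ : 𝒪 ⊗[ℤ] heckeAlgebra N 2 (↑S : Set ℕ)) (h0 : twO 𝒪 tw t₀ = 0) :
    φ (piT H t₀) = 0 := by
  rw [phi_piT_eq_mkQ H φ hφ t₀]
  exact (mkQ_eq_zero_iff 𝒪 θ tw t₀).mpr h0

/-- **(ANN) ⟹ (hann)**: the binder of `ShiftSub.exists_hker` from the module-level statement. -/
theorem hann_of_twO (D : KumLevelData N S p)
    (H : CuspForm.HeckeGaloisRepDatum N (↑S : Set ℕ) 𝒪 θ T)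
    (φ : T →ₐ[𝒪] TQ 𝒪 θ tw) (hφ : ∀ t, φ (H.π t) = chi 𝒪 θ tw t) (Λ' : AddSubgroup D.Λ)
    (hAnn : ∀ t₀ : 𝒪 ⊗[ℤ] heckeAlgebra N 2 (↑S : Set ℕ),
      (∀ (a : 𝒪), ∀ x ∈ Λ', D.heckeTensor 𝒪 t₀ (a ⊗ₜ[ℤ] x) = 0) → ∀ m : M, twO 𝒪 tw t₀ m = 0) :
    ∀ t₀ : 𝒪 ⊗[ℤ] heckeAlgebra N 2 (↑S : Set ℕ),
      (∀ (a : 𝒪), ∀ x ∈ Λ', D.heckeTensor 𝒪 t₀ (a ⊗ₜ[ℤ] x) = 0) →
        φ.toRingHom (piT H t₀) = 0 := fun t₀ h =>
  phi_piT_eq_zero_of_twO H φ hφ t₀ (LinearMap.ext fun m => hAnn t₀ h m)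

end Fermat.Agent.GB.B10.L.AnnChi
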