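/-
GATE-B / GB-PNEW, seam (ANN) → `M_Q` (helper32): **the annihilator statement travels along
intertwiners**.

`ImageRing.twO 𝒪 tw : 𝒪 ⊗[ℤ] A →ₐ[𝒪] End_𝒪 M` is the `𝒪`-linear extension of an `End`-valued ring
hom.  For an `𝒪`-linear `f : P → V` intertwining `σ : A →+* End_𝒪 P` and `τ : A →+* End_𝒪 V`
(`f (σ t y) = τ t (f y)`) one has `f (twO σ t₀ y) = twO τ t₀ (f y)` for EVERY `t₀ ∈ 𝒪 ⊗ A`; hence

* `twO_eq_zero_of_injective`  : `f` injective, `twO τ t₀` kills `f y` for all `y` ⟹ `twO σ t₀ = 0` on `P`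
  (restriction of helper44's `tw` to the `𝔪`-primary part: `f := UqOne.upL`, `σ := UqOne.twLoc`);
* `twO_eq_zero_of_surjective` : `f` surjective, `twO σ t₀ = 0` on `P` ⟹ `twO τ t₀ = 0` on `V`
  (descent to the coinvariant quotients `M¹_Q`, `M^χ_Q`: `f := fmk ∘ equivLocSub⁻¹`,
  `τ := DescendPlug.a₁Plug / a₂Plug`);
* `hAnn_of_chain` : the composite `V ⊇ P ↠ M`, which turns helper44's `Ann.ann` (conclusion on the
  big module `V`) into the MODULE-level binder `(hAnn)` of `GalPkgSOImg.exists_galRep_TQ_strict` /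
  `ProviderNew.G3.exists_psi_TQ_strict` on `M`.
-/
import Fermat.Agent.GB.B4.Datum.ImageRing

set_option autoImplicit false
set_option linter.unusedSectionVars false

namespace Fermat.Agent.GB.B10.L.AnnDescend

open TensorProduct Fermat.Agent.GB.B4.Datum.ImageRing

variable {𝒪 : Type} [CommRing 𝒪] [IsLocalRing 𝒪] {A : Type} [CommRing A]
  {P V M : Type} [AddCommGroup P] [Module 𝒪 P] [AddCommGroup V] [Module 𝒪 V]
  [AddCommGroup M] [Module 𝒪 M]

/-- **`twO` commutes with intertwiners.** -/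
theorem map_twO (σ : A →+* Module.End 𝒪 P) (τ : A →+* Module.End 𝒪 V) (f : P →ₗ[𝒪] V)
    (hf : ∀ t y, f (σ t y) = τ t (f y)) (t₀ : 𝒪 ⊗[ℤ] A) (y : P) :
    f (twO 𝒪 σ t₀ y) = twO 𝒪 τ t₀ (f y) := by
  induction t₀ using TensorProduct.induction_on with
  | zero => rw [map_zero, map_zero, LinearMap.zero_apply, LinearMap.zero_apply, map_zero]
  | tmul x t =>
    rw [twO_tmul, twO_tmul, LinearMap.smul_apply, LinearMap.smul_apply, map_smul, hf]
  | add a b ha hb =>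
    rw [map_add, map_add, LinearMap.add_apply, LinearMap.add_apply, map_add, ha, hb]

/-- vanishing pulls back along an injective intertwiner. -/
theorem twO_eq_zero_of_injective (σ : A →+* Module.End 𝒪 P) (τ : A →+* Module.End 𝒪 V)
    (f : P →ₗ[𝒪] V) (hf : ∀ t y, f (σ t y) = τ t (f y)) (hinj : Function.Injective f)
    (t₀ : 𝒪 ⊗[ℤ] A) (h : ∀ y : P, twO 𝒪 τ t₀ (f y) = 0) (y : P) : twO 𝒪 σ t₀ y = 0 := by
  apply hinj
  rw [map_twO σ τ f hf, h, map_zero]

/-- vanishing pushes forward along a surjective intertwiner. -/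
theorem twO_eq_zero_of_surjective (σ : A →+* Module.End 𝒪 P) (τ : A →+* Module.End 𝒪 V)
    (f : P →ₗ[𝒪] V) (hf : ∀ t y, f (σ t y) = τ t (f y)) (hsurj : Function.Surjective f)
    (t₀ : 𝒪 ⊗[ℤ] A) (h : ∀ y : P, twO 𝒪 σ t₀ y = 0) (m : V) : twO 𝒪 τ t₀ m = 0 := by
  obtain ⟨y, rfl⟩ := hsurj m
  rw [← map_twO σ τ f hf, h, map_zero]

/-- **the chain `V ⊇ P ↠ M`**: `tw` on the big module `V`, `σ` its restriction to `P` along the
injective `ι`, `a` the action induced on the quotient `M` along the surjective `π`.  If `twO tw t₀`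
kills `ι y` for every `y : P` then `twO a t₀` kills `M`. -/
theorem hAnn_of_chain (tw : A →+* Module.End 𝒪 V) (σ : A →+* Module.End 𝒪 P)
    (a : A →+* Module.End 𝒪 M) (ι : P →ₗ[𝒪] V) (hι : ∀ t y, ι (σ t y) = tw t (ι y))
    (hinj : Function.Injective ι) (π : P →ₗ[𝒪] M) (hπ : ∀ t y, π (σ t y) = a t (π y))
    (hsurj : Function.Surjective π) (t₀ : 𝒪 ⊗[ℤ] A)
    (h : ∀ y : P, twO 𝒪 tw t₀ (ι y) = 0) (m : M) : twO 𝒪 a t₀ m = 0 :=
  twO_eq_zero_of_surjective σ a π hπ hsurj t₀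
    (twO_eq_zero_of_injective σ tw ι hι hinj t₀ h) m

end Fermat.Agent.GB.B10.L.AnnDescend
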