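/-
GATE-B / B10′ ROUTE L (helper32), file 1: **the level theorem on an arbitrary stable family**.

`Core.exists_package_sq_level` (helper39) runs `isSubquotPow_of_hecke` on the Fitting part of an
old-killer `t₀` (`H.π t₀` a unit).  At the twisted level `N = M r²` of the Taylor–Wiles datum such a
UNIT killer need not exist (board 5850/5940).  Here the Fitting part is replaced by ANY Galois- and
Hecke-stable subgroup `Y ≤ D.K n` (e.g. the `p`-new part `ker α_* ∩ ker β_*`) on which the PLAIN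
square relation `τ (τ y) - y ∈ W` holds, at the price of ONE hypothesis:

  `hker` : a Hecke operator killing `𝒪 ⊗ Y` maps into `I` under `piT H`

(for `I = φ⁻¹(𝔪_Qⁿ)`, `φ : T ↠ T_Q`, this says that `𝒪 ⊗ Y` is faithful enough for `T_Q`).

* `isSubquotPow_of_hecke_sub`   : `LocTop.isSubquotPow_of_hecke` on a stable subgroup;
* `exists_package_sq_level_sub` : the level theorem.
-/
import Fermat.Agent.GH.S32.Inst
import Fermat.Agent.GB.B10.Fitting
import Fermat.Agent.GB.B10.Core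

set_option autoImplicit false

noncomputable section

namespace Fermat.Agent.GB.B10.L.CoreSub

open TensorProduct CuspForm Function IsLocalRing
open Fermat.Agent.Common_helper32 Fermat.Agent.GJ.Tate Fermat.Agent.GH.S32
  Fermat.Agent.GH.S32.InstCore Fermat.Agent.GH.S32.InstAux47 Fermat.Agent.GH.S32.Inst
  Fermat.Agent.GS.Alg.Transfer Fermat.Agent.GB.B10.TransferSq Fermat.Agent.GB.B10.Fitting
  Fermat.Agent.GB.B10.Core

/-! ### `isSubquotPow_of_hecke` on a stable subgroup -/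

section Sub

variable {X : Type*} [AddCommGroup X] [Finite X]
  {G : Type*} [Group G] {𝒯 : Type*} [CommRing 𝒯] {C : Type*} [CommRing C] [IsLocalRing C]

/-- **LOC on a stable subgroup**: in the situation of `isSubquotPow_of_hecke`, for a Galois- and
Hecke-stable subgroup `X'` which is faithful for `π` (`hker'`), `(C², ρ)` is an equivariant
subquotient of a power of `X'`. -/
theorem isSubquotPow_of_hecke_sub (hecke : 𝒯 →+* AddMonoid.End X) (gal : G →* AddMonoid.End X)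
    (hcomm : ∀ t g, Commute (hecke t) (gal g)) (h2 : IsUnit (2 : C)) (π : 𝒯 →+* C)
    (hπ : Surjective π)
    (ρ : G →* Matrix (Fin 2) (Fin 2) C) (hspan : Submodule.span C (Set.range ρ) = ⊤)
    {m : ℕ} (hm : (m : AddMonoid.End X) = 0) (δ : G →* (ZMod m)ˣ)
    (hCH : ∀ g, ∃ (t : 𝒯) (c : ℕ), (c : ZMod m) = δ g ∧
      hecke t = gal g + (c : AddMonoid.End X) * gal g⁻¹ ∧ π t = (ρ g).trace)
    (X' : AddSubgroup X) (hstG : ∀ g : G, ∀ x ∈ X', gal g x ∈ X')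
    (hstT : ∀ t : 𝒯, ∀ x ∈ X', hecke t x ∈ X')
    (hker' : ∀ t, (∀ x ∈ X', hecke t x = 0) → π t = 0) :
    IsSubquotPow (actOn (act := fun (g : G) (x : X) => gal g x) X' hstG)
      (fun g (v : Fin 2 → C) => (ρ g).mulVec v) := by
  -- the restricted actions
  let hecke' : 𝒯 →+* AddMonoid.End X' :=
    { toFun := fun t => resEnd X' (hecke t) (hstT t)
      map_one' := by
        refine DFunLike.ext _ _ fun x => Subtype.ext ?_
        rw [coe_resEnd, map_one]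
        rfl
      map_mul' := fun s t => by
        refine DFunLike.ext _ _ fun x => Subtype.ext ?_
        rw [coe_resEnd, map_mul]
        rfl
      map_zero' := by
        refine DFunLike.ext _ _ fun x => Subtype.ext ?_
        rw [coe_resEnd, map_zero]
        rfl
      map_add' := fun s t => by
        refine DFunLike.ext _ _ fun x => Subtype.ext ?_
        rw [coe_resEnd, map_add]
        rfl }
  let gal' : G →* AddMonoid.End X' :=
    { toFun := fun g => resEnd X' (gal g) (hstG g)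
      map_one' := by
        refine DFunLike.ext _ _ fun x => Subtype.ext ?_
        rw [coe_resEnd, map_one]
        rfl
      map_mul' := fun s t => by
        refine DFunLike.ext _ _ fun x => Subtype.ext ?_
        rw [coe_resEnd, map_mul]
        rfl }
  have hh' : ∀ t (x : X'), ((hecke' t x : X') : X) = hecke t x.1 := fun _ _ => rfl
  have hg' : ∀ g (x : X'), ((gal' g x : X') : X) = gal g x.1 := fun _ _ => rfl
  have key := isSubquotPow_of_hecke hecke' gal' ?_ h2 π hπ ?_ ρ hspan (m := m) ?_ δ ?_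
  · exact key
  · -- commutation
    intro t g
    refine DFunLike.ext _ _ fun x => Subtype.ext ?_
    show hecke t (gal g x.1) = gal g (hecke t x.1)
    exact DFunLike.congr_fun (hcomm t g).eq x.1
  · -- `hker` on the subgroup
    intro t ht
    refine hker' t fun x hx => ?_
    have h1 := congrArg (fun e : AddMonoid.End X' => ((e ⟨x, hx⟩ : X') : X)) ht
    exact h1
  · -- torsion
    refine DFunLike.ext _ _ fun x => Subtype.ext ?_
    have h1 := DFunLike.congr_fun hm x.1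
    rw [AddMonoid.End.natCast_apply] at h1 ⊢
    rw [AddSubgroup.coe_nsmul]
    exact h1
  · -- Cayley–Hamilton
    intro g
    obtain ⟨t, c, hc, ht, htr⟩ := hCH g
    refine ⟨t, c, hc, ?_, htr⟩
    refine DFunLike.ext _ _ fun x => Subtype.ext ?_
    have h1 : hecke t x.1 = gal g x.1 + (c : AddMonoid.End X) (gal g⁻¹ x.1) :=
      DFunLike.congr_fun ht x.1
    rw [AddMonoid.End.natCast_apply] at h1
    show ((hecke' t x : X') : X) =
      ((gal' g x + (c : AddMonoid.End X') (gal' g⁻¹ x) : X') : X)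
    rw [AddMonoid.End.natCast_apply, AddSubgroup.coe_add, AddSubgroup.coe_nsmul, hh', hg', hg']
    exact h1

end Sub

/-! ### the level theorem -/

variable {p : ℕ} {N : ℕ} [NeZero N] {S : Finset ℕ}
  {𝒪 : Type} [CommRing 𝒪] [IsDomain 𝒪] [IsDiscreteValuationRing 𝒪]
  [IsAdicComplete (IsLocalRing.maximalIdeal 𝒪) 𝒪]
  {θ : CuspForm.heckeAlgebra N 2 (↑S : Set ℕ) →+* IsLocalRing.ResidueField 𝒪}
  {T : Type} [CommRing T] [IsLocalRing T] [IsNoetherianRing T]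
  [IsAdicComplete (IsLocalRing.maximalIdeal T) T] [Algebra 𝒪 T] [IsLocalHom (algebraMap 𝒪 T)]
  [Module.Finite 𝒪 T] [Module.Free 𝒪 T]

/-- **THE LEVEL THEOREM on a stable family.**  `Y ≤ D.K n` Galois- and Hecke-stable with the plain
square relation into a connected package `W`, and `𝒪 ⊗ Y` faithful for `T ⧸ I` (`hker`). -/
theorem exists_package_sq_level_sub (D : KumLevelData N S p) (hm : D.Comm)
    [Finite (IsLocalRing.ResidueField 𝒪)] [CharZero 𝒪]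
    (hp : p.Prime) (hp2 : p ≠ 2) (hp𝒪 : (p : 𝒪) ∈ maximalIdeal 𝒪)
    (hpS : p ∈ S) (hNS : ∀ q : ℕ, q.Prime → q ∣ N → q ∈ S)
    (H : CuspForm.HeckeGaloisRepDatum N (↑S : Set ℕ) 𝒪 θ T) (I : Ideal T) [Finite (T ⧸ I)]
    {Ip Dp Fr : Set GQ} (hID : Ip ⊆ Dp) (hDinv : ∀ σ ∈ Dp, σ⁻¹ ∈ Dp)
    (n : ℕ) (W Y : AddSubgroup (D.K n))
    (hW : ConnPackage Ip Dp (fun (σ : GQ) (x : D.K n) => D.gal n σ x) W)
    (hYg : ∀ (g : GQ), ∀ y ∈ Y, D.gal n g y ∈ Y)
    (hYt : ∀ (t : heckeAlgebra N 2 (↑S : Set ℕ)), ∀ y ∈ Y, D.heckeHom n t y ∈ Y)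
    (hsq : ∀ τ ∈ Fr, ∀ y ∈ Y, D.gal n τ (D.gal n τ y) - y ∈ W)
    (hker : ∀ t' : 𝒪 ⊗[ℤ] heckeAlgebra N 2 (↑S : Set ℕ),
      (∀ (a : 𝒪) (y : D.K n), y ∈ Y → heckeX D 𝒪 n t' (a ⊗ₜ[ℤ] y) = 0) → piT H t' ∈ I) :
    ∃ W' : AddSubgroup (H.ρ.V ⧸ (I • (⊤ : Submodule T H.ρ.V))),
      ConnPackage Ip Dp (fun (σ : GQ) => H.ρ.levelAction I σ) W' ∧
      ∀ τ ∈ Fr, ∀ v, H.ρ.levelAction I τ (H.ρ.levelAction I τ v) - v ∈ W' := by
  classical
  have : Fact p.Prime := ⟨hp⟩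
  by_cases hI : I = ⊤
  · -- the trivial case
    have : Subsingleton (H.ρ.V ⧸ (I • (⊤ : Submodule T H.ρ.V))) := by
      rw [hI, Submodule.top_smul]
      exact Submodule.Quotient.subsingleton_iff.mpr rfl
    exact ⟨⊤, connPackage_of_subsingleton _ _ _, fun _ _ _ => AddSubgroup.mem_top _⟩
  have hpT : (p : T) ∈ maximalIdeal T := by
    have h := map_nonunit (algebraMap 𝒪 T) (p : 𝒪) hp𝒪
    rwa [map_natCast] at h
  have hnt : Nontrivial (T ⧸ I) := Ideal.Quotient.nontrivial_iff.mpr hI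
  have hloc : IsLocalRing (T ⧸ I) :=
    IsLocalRing.of_surjective' (Ideal.Quotient.mk I) Ideal.Quotient.mk_surjective
  have h2 : IsUnit (2 : T ⧸ I) := by
    have := (isUnit_two hp hp2 hpT).map (Ideal.Quotient.mk I)
    rwa [map_ofNat] at this
  obtain ⟨k, hk⟩ := exists_pow_le_of_finite_quotient I hI
  -- the matrix form of `ρ mod I`
  let b : Module.Basis (Fin 2) T H.ρ.V := Module.finBasisOfFinrankEq T H.ρ.V H.ρ.finrank_eq
  have hspan := RhoC.span_rhoC b I H.ρ.ρ (span_range_eq_top_of_residual_absIrr H.ρ H.residual_absIrr)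
  -- finiteness
  have hp0 : ((p ^ n : ℕ) : 𝒪) ≠ 0 := by
    rw [Nat.cast_ne_zero]
    exact pow_ne_zero n hp.ne_zero
  have hfinι : Finite (𝒪 ⧸ Ideal.span {((p ^ n : ℕ) : 𝒪)}) := finite_quotient_span hp0
  let _ : Fintype (𝒪 ⧸ Ideal.span {((p ^ n : ℕ) : 𝒪)}) := Fintype.ofFinite _
  let e₀ : (𝒪 ⧸ Ideal.span {((p ^ n : ℕ) : 𝒪)}) ≃
      Fin (Fintype.card (𝒪 ⧸ Ideal.span {((p ^ n : ℕ) : 𝒪)})) := Fintype.equivFin _
  set r := Fintype.card (𝒪 ⧸ Ideal.span {((p ^ n : ℕ) : 𝒪)}) with hr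
  let s : Fin r → 𝒪 := fun i => Quotient.out (e₀.symm i)
  have hs : ∀ a : 𝒪, ∃ (i : Fin r) (a' : 𝒪), a = s i + ((p ^ n : ℕ) : 𝒪) * a' := by
    intro a
    refine ⟨e₀ (Ideal.Quotient.mk _ a), ?_⟩
    have h1 : Ideal.Quotient.mk (Ideal.span {((p ^ n : ℕ) : 𝒪)})
        (a - s (e₀ (Ideal.Quotient.mk _ a))) = 0 := by
      rw [map_sub, sub_eq_zero]
      show _ = Ideal.Quotient.mk _ (Quotient.out (e₀.symm (e₀ (Ideal.Quotient.mk _ a))))
      rw [Equiv.symm_apply_apply]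
      exact (Quotient.out_eq _).symm
    rw [Ideal.Quotient.eq_zero_iff_mem, Ideal.mem_span_singleton'] at h1
    obtain ⟨a', ha'⟩ := h1
    exact ⟨a', by rw [mul_comm, ha']; ring⟩
  have hKfin : Finite (D.K n) := finite_K D hp.ne_zero n
  have hXfin : Finite (𝒪 ⊗[ℤ] D.K n) :=
    Finite.of_surjective _ (sumMap_surjective D 𝒪 s n hs)
  -- STEP 1: the package on `X = 𝒪 ⊗ K n`
  let X₁ : AddSubgroup (Fin r → D.K n) := ⊤
  let f : X₁ →+ 𝒪 ⊗[ℤ] D.K n := (sumMap D 𝒪 s n).comp X₁.subtype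
  have hf : Surjective f := by
    intro y
    obtain ⟨x, rfl⟩ := sumMap_surjective D 𝒪 s n hs y
    exact ⟨⟨x, AddSubgroup.mem_top _⟩, rfl⟩
  have hst : ∀ (g : GQ), ∀ x ∈ X₁, (fun i => D.gal n g (x i)) ∈ X₁ :=
    fun _ _ _ => AddSubgroup.mem_top _
  have heq : ∀ (g : GQ) (x : X₁), f ⟨fun i => D.gal n g (x.1 i), hst g x.1 x.2⟩ =
      galX D 𝒪 n g (f x) := fun g x => (galX_sumMap D 𝒪 s n g x.1).symm
  have hinvX : ∀ σ ∈ Dp, ∃ τ ∈ Dp, ∀ w : 𝒪 ⊗[ℤ] D.K n,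
      galX D 𝒪 n τ (galX D 𝒪 n σ w) = w := by
    intro σ hσ
    refine ⟨σ⁻¹, hDinv σ hσ, fun w => ?_⟩
    have h1 : galX D 𝒪 n σ⁻¹ * galX D 𝒪 n σ = 1 := by rw [← map_mul, inv_mul_cancel, map_one]
    exact DFunLike.congr_fun h1 w
  set WX : AddSubgroup (𝒪 ⊗[ℤ] D.K n) := transferW X₁ f W with hWX
  have hpackX : ConnPackage Ip Dp (fun (σ : GQ) (x : 𝒪 ⊗[ℤ] D.K n) => galX D 𝒪 n σ x) WX :=
    connPackage_transferW (fun σ x y => map_add (D.gal n σ) x y) hID hinvX hW hf hst heq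
  -- the subgroup `X' = image of 𝒪 ⊗ Y`
  set X' : AddSubgroup (𝒪 ⊗[ℤ] D.K n) := (powW r Y).map (sumMap D 𝒪 s n) with hX'
  have hpn : ∀ (a' : 𝒪) (z : D.K n), (((p ^ n : ℕ) : 𝒪) * a') ⊗ₜ[ℤ] z = 0 := by
    intro a' z
    have h1 : (((p ^ n : ℕ) : 𝒪) * a') = ((p ^ n : ℕ) : ℤ) • a' := by
      rw [zsmul_eq_mul]; push_cast; ring
    rw [h1, TensorProduct.smul_tmul, pow_smul_eq_zero D n z, TensorProduct.tmul_zero]
  have htmulX' : ∀ (a : 𝒪) (z : D.K n), z ∈ Y → a ⊗ₜ[ℤ] z ∈ X' := by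
    intro a z hz
    obtain ⟨j, a', rfl⟩ := hs a
    rw [TensorProduct.add_tmul, hpn, add_zero]
    refine ⟨Pi.single j z, mem_powW.2 fun i => ?_, sumMap_single D 𝒪 s n j z⟩
    by_cases hij : i = j
    · subst hij
      rw [Pi.single_eq_same]
      exact hz
    · rw [Pi.single_eq_of_ne hij]
      exact Y.zero_mem
  have hstX'G : ∀ g : GQ, ∀ x ∈ X', galX D 𝒪 n g x ∈ X' := by
    rintro g _ ⟨y, hy, rfl⟩
    rw [galX_sumMap]
    exact ⟨_, mem_powW.2 fun i => hYg g _ (mem_powW.1 hy i), rfl⟩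
  have hstX'T : ∀ t' : 𝒪 ⊗[ℤ] heckeAlgebra N 2 (↑S : Set ℕ), ∀ x ∈ X',
      heckeX D 𝒪 n t' x ∈ X' := by
    intro t'
    induction t' using TensorProduct.induction_on with
    | zero =>
      intro x _
      rw [map_zero]
      exact X'.zero_mem
    | tmul a t =>
      rintro _ ⟨y, hy, rfl⟩
      rw [sumMap_apply, map_sum]
      refine X'.sum_mem fun i _ => ?_
      rw [heckeX_tmul_tmul]
      exact htmulX' _ _ (hYt t _ (mem_powW.1 hy i))
    | add t₁ t₂ h₁ h₂ =>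
      intro x hx
      rw [map_add]
      exact X'.add_mem (h₁ x hx) (h₂ x hx)
  have hsqX' : ∀ τ ∈ Fr, ∀ u : X',
      actOn (act := fun (g : GQ) (x : 𝒪 ⊗[ℤ] D.K n) => galX D 𝒪 n g x) X' hstX'G τ
        (actOn X' hstX'G τ u) - u ∈ WX.comap X'.subtype := by
    intro τ hτ u
    refine sq_restrict X' hstX'G (fun u hu => ?_) u
    obtain ⟨y, hy, rfl⟩ := hu
    rw [galX_sumMap, galX_sumMap, ← map_sub]
    refine mem_transferW.2 ⟨⟨_, AddSubgroup.mem_top _⟩, fun i => ?_, rfl⟩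
    exact hsq τ hτ _ (mem_powW.1 hy i)
  -- the Frobenius hypothesis in the shape of `exists_hecke_approx`
  have hfrob : ∀ ℓ : ℕ, ℓ.Prime → ℓ ∉ S → ∀ A : ValuationSubring Qb, A.LiesOverPrime ℓ →
      ∀ σ : GQ, A.IsFrobeniusAt σ ℓ →
        LinearMap.charpoly (H.ρ.ρ σ) =
          Polynomial.X ^ 2 - Polynomial.C (H.π (heckeTl N S ℓ)) * Polynomial.X +
            Polynomial.C ((ℓ : T)) := by
    intro ℓ hℓ hℓS A hA σ hσ
    have hℓN : ¬ ℓ ∣ N := fun h => hℓS (hNS ℓ hℓ h)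
    have hℓS' : ℓ ∉ (↑S : Set ℕ) := by simpa using hℓS
    rw [heckeTl_eq hℓ hℓN hℓS']
    exact H.charpoly_frob ℓ hℓ hℓN hℓS' A hA σ hσ
  -- STEP 2: the subquotient theorem on `X'`
  have hkerX' : ∀ t' : 𝒪 ⊗[ℤ] heckeAlgebra N 2 (↑S : Set ℕ),
      (∀ x ∈ X', heckeX D 𝒪 n t' x = 0) →
      ((Ideal.Quotient.mk I).comp (piT H).toRingHom) t' = 0 := by
    intro t' ht'
    show Ideal.Quotient.mk I (piT H t') = 0
    rw [Ideal.Quotient.eq_zero_iff_mem]
    exact hker t' fun a y hy => ht' _ (htmulX' a y hy)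
  have hCHX : ∀ g : GQ, ∃ (t : 𝒪 ⊗[ℤ] heckeAlgebra N 2 (↑S : Set ℕ)) (c' : ℕ),
      (c' : ZMod (p ^ n)) = cycMod p n g ∧
      heckeX D 𝒪 n t = galX D 𝒪 n g + (c' : AddMonoid.End (𝒪 ⊗[ℤ] D.K n)) * galX D 𝒪 n g⁻¹ ∧
      ((Ideal.Quotient.mk I).comp (piT H).toRingHom) t = (RhoC.rhoC b I H.ρ.ρ g).trace := by
    intro g
    obtain ⟨t, c', h1, h2', h3⟩ := exists_hecke_approx D.tateLevels hpS H.π H.ρ hfrob k n g
    refine ⟨(1 : 𝒪) ⊗ₜ t, c', h3.symm, ?_, ?_⟩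
    · rw [heckeX_one_tmul, galX_apply, galX_apply]
      have h2'' : D.heckeHom n t = D.gal n g + (c' : AddMonoid.End (D.K n)) * D.gal n g⁻¹ := h2'
      rw [h2'', map_add, map_mul, map_natCast]
    · show Ideal.Quotient.mk I (piT H ((1 : 𝒪) ⊗ₜ t)) = _
      rw [piT_tmul, map_one, one_mul, RhoC.trace_rhoC, eq_comm, ← sub_eq_zero, ← map_sub,
        Ideal.Quotient.eq_zero_iff_mem]
      exact hk h1
  have hsub := isSubquotPow_of_hecke_sub (heckeX D 𝒪 n) (galX D 𝒪 n)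
    (commute_heckeX_galX D 𝒪 hm hNS n) h2
    ((Ideal.Quotient.mk I).comp (piT H).toRingHom)
    (Ideal.Quotient.mk_surjective.comp (piT_surjective H)) (RhoC.rhoC b I H.ρ.ρ) hspan
    (natCast_pow_eq_zero D 𝒪 n) (cycMod p n) hCHX X' hstX'G hstX'T hkerX'
  -- STEP 3: restrict the package to `X'`
  have hpackX' := ConnPackage.restrict hpackX X' hstX'G
  -- STEP 4: transfer to `(T ⧸ I)²`
  have haddX' : ∀ (σ : GQ) (x y : X'),
      actOn (act := fun (g : GQ) (x : 𝒪 ⊗[ℤ] D.K n) => galX D 𝒪 n g x) X' hstX'G σ (x + y) =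
        actOn X' hstX'G σ x + actOn X' hstX'G σ y := by
    intro σ x y
    apply Subtype.ext
    show galX D 𝒪 n σ (x.1 + y.1) = galX D 𝒪 n σ x.1 + galX D 𝒪 n σ y.1
    exact map_add _ _ _
  have hinvC : ∀ σ ∈ Dp, ∃ τ ∈ Dp, ∀ w : Fin 2 → T ⧸ I,
      (RhoC.rhoC b I H.ρ.ρ τ).mulVec ((RhoC.rhoC b I H.ρ.ρ σ).mulVec w) = w := by
    intro σ hσ
    refine ⟨σ⁻¹, hDinv σ hσ, fun w => ?_⟩
    rw [Matrix.mulVec_mulVec, ← map_mul, inv_mul_cancel, map_one, Matrix.one_mulVec]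
  obtain ⟨WC, hpackC, hsqC⟩ := exists_transfer haddX' hID hinvC hpackX' hsqX' hsub
  -- STEP 5: transfer to `V ⧸ I V`
  have link3 : IsSubquotPow (fun (σ : GQ) (v : Fin 2 → T ⧸ I) => (RhoC.rhoC b I H.ρ.ρ σ).mulVec v)
      (fun (σ : GQ) => H.ρ.levelAction I σ) :=
    IsSubquotPow.of_addEquiv (RhoC.vecEquiv b I) fun σ v =>
      RhoC.vecEquiv_mulVec b I H.ρ.ρ σ _ v
  have hinvV : ∀ σ ∈ Dp, ∃ τ ∈ Dp, ∀ w : H.ρ.V ⧸ (I • (⊤ : Submodule T H.ρ.V)),
      H.ρ.levelAction I τ (H.ρ.levelAction I σ w) = w :=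
    fun σ hσ => ⟨σ⁻¹, hDinv σ hσ, fun w => levelAction_inv_levelAction' H.ρ I σ w⟩
  exact exists_transfer (fun σ x y => Matrix.mulVec_add _ x y) hID hinvV hpackC hsqC link3

end Fermat.Agent.GB.B10.L.CoreSub
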