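/-
GATE-B / B10' ROUTE L, node (L4-inst) (helper39): **the `p`-new part of the concrete Kummer level
data is an instance of `CoreSub.exists_package_sq_level_sub`**.

On `D := KumLevelHecke.levelData p (N' * p) hpS hNS`, per place `A ∣ p` and level `n`:

* `newSub h hpS hNS n ≤ D.K n`     : `{y | IsNew (toKum y)}` (`aLow = 0 ∧ bLow = 0`, `FrobSqKer.IsNew`);
* `gal_mem_newSub`, `heckeHom_mem_newSub` : Galois- and Hecke-stability (`IsNew.gal`; the `T_ℓ`
  commute with every Galois-equivariant map between Kummer groups, `GK/UQ/ESComm`);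
* `W := (M0tors A h n).comap toTors` with its connected package (helper30 `ConnM0`);
* `frobSq_sub_mem_of_mem_newSub`   : `τ (τ y) - y ∈ W` for `y` new, `τ` a Frobenius lift at `A`
  (helper32 N1 `FrobSqKer` in `IsNew` form + helper69 N2 `Phi2.Merge`): NO killer.

`exists_package_sq_level_new` : for every ideal `I` of finite index in `T` and every level `n`, with the
ONLY binder

  `hker : (t' kills 𝒪 ⊗ newSub n) → piT H t' ∈ I`           (node (L3b))

there is `W' ≤ V ⧸ I V` with the connected package for `(I_A, D_A)` and `ρ(τ)² - 1` mapping into `W'`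
for all Frobenius lifts `τ` at `A`.
-/
import Fermat.Agent.GB.B10.L.CoreSub
import Fermat.Agent.GB.B10.Pack

set_option autoImplicit false
set_option linter.unusedSectionVars false

noncomputable section

namespace Fermat.Agent.GB.B10.L.NewInst

open TensorProduct CuspForm ModularCurve IsLocalRing
open Fermat.Agent.Common_helper32 Fermat.Agent.GJ.Tate Fermat.Agent.GS.Alg.Transfer
open Fermat.Agent.GJ.KumGroup Fermat.Agent.GJ.Kum.KumType
open Fermat.Agent.GK.AL Fermat.Agent.GK.UqKronecker Fermat.Agent.GK.New Fermat.Agent.GK.UTr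
open Fermat.Agent.GK.UQ Fermat.Agent.GK.Tate.KumHecke
open Fermat.Agent.GH.S32.InstCore Fermat.Agent.GH.S32.Inst
open Fermat.Agent.GB.B10.FrobSqKer Fermat.Agent.GB.B10.KumLevelHecke Fermat.Agent.GB.B10.ConnM0

local notation "Qb" => AlgebraicClosure ℚ

/-! ### the new part is stable under the Hecke algebra -/

section Stab

variable {N' q : ℕ} [NeZero N'] [Fact q.Prime] {h : ExactDvd q (N' * q)}
  (m : ℕ) [NeZero m] (S : Finset ℕ) {ζ : ℂ}

/-- **the `q`-new part of `Kum_m(F_{N'q})` is stable under `heckeAlgebra (N'q) 2 S`** (`S` contains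
the primes of `N' q` and of `m`, so the algebra is generated by the `T_ℓ`, `ℓ ∉ S`, which commute
with every Galois-equivariant map). -/
theorem isNew_kumHecke (hζ : IsPrimitiveRoot ζ m)
    (hMS : ∀ r : ℕ, r.Prime → r ∣ N' * q → r ∈ S) (hmS : ∀ r : ℕ, r.Prime → r ∣ m → r ∈ S)
    (t : heckeAlgebra (N' * q) 2 (↑S : Set ℕ)) {y : Additive (Kum Kb (FK (N' * q)) m)}
    (hy : IsNew h m y) :
    IsNew h m (kumHecke (N' * q) (↑S : Set ℕ) m hζ t y) := by
  have hm : 0 < m := Nat.pos_of_ne_zero (NeZero.ne m)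
  have hN'S : ∀ r : ℕ, r.Prime → r ∣ N' → r ∈ S := fun r hr hd =>
    hMS r hr (Dvd.dvd.mul_right hd q)
  obtain ⟨t, ht⟩ := t
  induction ht using Algebra.adjoin_induction generalizing y with
  | mem x hx =>
    rcases hx with ⟨ℓ, hℓ, hℓN, hℓS, rfl⟩ | ⟨r, hrN, hr, hrS, rfl⟩
    · have hℓS' : ℓ ∉ S := by simpa using hℓS
      have e : (⟨heckeTLin 2 hℓ hℓN, Algebra.subset_adjoin
          (Or.inl ⟨ℓ, hℓ, hℓN, hℓS, rfl⟩)⟩ : heckeAlgebra (N' * q) 2 (↑S : Set ℕ)) =
          TfamH hMS (⟨ℓ, hℓ, hℓS'⟩ : PrimeIdx S) := rfl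
      rw [e, kumHecke_TfamH S m hζ hMS]
      have hnd : ∀ {L : ℕ}, (∀ r : ℕ, r.Prime → r ∣ L → r ∈ S) → ¬ ℓ ∣ L * m := by
        intro L hLS hd
        rcases (Nat.Prime.dvd_mul hℓ).mp hd with hd | hd
        · exact hℓS' (hLS _ hℓ hd)
        · exact hℓS' (hmS _ hℓ hd)
      refine ⟨?_, ?_⟩
      · have h1 := TEnd_comp_of_gal_comm (N' * q) N' m hm hℓ (hnd hMS) (hnd hN'S)
          (aLow N' q m) (fun σ x => aLow_gal N' q m σ x) y
        rw [hy.1, map_zero] at h1
        exact h1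
      · have h1 := TEnd_comp_of_gal_comm (N' * q) N' m hm hℓ (hnd hMS) (hnd hN'S)
          (bLow h m) (fun σ x => bLow_gal h m σ x) y
        rw [hy.2, map_zero] at h1
        exact h1
    · exact absurd (by simpa using hMS r hr hrN) hrS
  | algebraMap r =>
    have e : (⟨algebraMap ℤ _ r, Subalgebra.algebraMap_mem _ r⟩ :
        heckeAlgebra (N' * q) 2 (↑S : Set ℕ)) = algebraMap ℤ _ r := rfl
    rw [e, eq_intCast (algebraMap ℤ (heckeAlgebra (N' * q) 2 (↑S : Set ℕ))) r, map_intCast,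
      Module.End.intCast_apply]
    exact ⟨by rw [map_zsmul, hy.1, smul_zero], by rw [map_zsmul, hy.2, smul_zero]⟩
  | add x z hx hz ihx ihz =>
    have e : (⟨x + z, Subalgebra.add_mem _ hx hz⟩ : heckeAlgebra (N' * q) 2 (↑S : Set ℕ))
        = ⟨x, hx⟩ + ⟨z, hz⟩ := rfl
    rw [e, map_add, LinearMap.add_apply]
    exact (ihx hy).add (ihz hy)
  | mul x z hx hz ihx ihz =>
    have e : (⟨x * z, Subalgebra.mul_mem _ hx hz⟩ : heckeAlgebra (N' * q) 2 (↑S : Set ℕ))
        = ⟨x, hx⟩ * ⟨z, hz⟩ := rfl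
    rw [e, map_mul, Module.End.mul_apply]
    exact ihx (ihz hy)

end Stab

/-! ### the new part of the concrete level data -/

section Inst

variable {N' p : ℕ} [NeZero N'] [Fact p.Prime] {S : Finset ℕ}

/-- the instance `NeZero p` from `Fact p.Prime` (local). -/
local instance neZero_of_fact'' : NeZero p := ⟨(Fact.out : p.Prime).ne_zero⟩

/-- **the `p`-new part** of the level-`n` Kummer group of `levelData p (N' * p)`. -/
def newSub (h : ExactDvd p (N' * p)) (hpS : p ∈ S)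
    (hNS : ∀ r : ℕ, r.Prime → r ∣ N' * p → r ∈ S) (n : ℕ) :
    AddSubgroup ((levelData p (N' * p) hpS hNS).K n) where
  carrier := {y | IsNew h (p ^ n) (toKum p (N' * p) hpS hNS n y)}
  zero_mem' := by
    show IsNew h (p ^ n) (toKum p (N' * p) hpS hNS n 0)
    rw [map_zero]
    exact IsNew.zero
  add_mem' := fun {a b} ha hb => by
    show IsNew h (p ^ n) (toKum p (N' * p) hpS hNS n (a + b))
    rw [map_add]
    exact IsNew.add ha hb
  neg_mem' := fun {a} ha => by
    show IsNew h (p ^ n) (toKum p (N' * p) hpS hNS n (-a))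
    rw [map_neg]
    exact IsNew.neg ha

variable (h : ExactDvd p (N' * p)) (hpS : p ∈ S) (hNS : ∀ r : ℕ, r.Prime → r ∣ N' * p → r ∈ S)

theorem mem_newSub {n : ℕ} {y : (levelData p (N' * p) hpS hNS).K n} :
    y ∈ newSub h hpS hNS n ↔ IsNew h (p ^ n) (toKum p (N' * p) hpS hNS n y) := Iff.rfl

/-- Galois-stability. -/
theorem gal_mem_newSub {n : ℕ} (g : GQ) {y : (levelData p (N' * p) hpS hNS).K n}
    (hy : y ∈ newSub h hpS hNS n) :
    (levelData p (N' * p) hpS hNS).gal n g y ∈ newSub h hpS hNS n := by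
  rw [mem_newSub, toKum_gal]
  exact IsNew.gal ((mem_newSub h hpS hNS).1 hy) g

/-- Hecke-stability. -/
theorem heckeHom_mem_newSub {n : ℕ} (t : heckeAlgebra (N' * p) 2 (↑S : Set ℕ))
    {y : (levelData p (N' * p) hpS hNS).K n} (hy : y ∈ newSub h hpS hNS n) :
    (levelData p (N' * p) hpS hNS).heckeHom n t y ∈ newSub h hpS hNS n := by
  have hp : p.Prime := Fact.out
  have hne : NeZero (p ^ n) := ⟨pow_ne_zero n hp.ne_zero⟩
  have hmS : ∀ r : ℕ, r.Prime → r ∣ p ^ n → r ∈ S := by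
    intro r hr hdvd
    have : r = p := (Nat.prime_dvd_prime_iff_eq hr hp).mp (hr.dvd_of_dvd_pow hdvd)
    exact this ▸ hpS
  rw [mem_newSub, toKum_heckeHom]
  exact isNew_kumHecke (h := h) (p ^ n) S
    (Fermat.Agent.GJ.KumTower.isPrimitiveRoot_zetaPow p n hp.ne_zero) hNS hmS t
    ((mem_newSub h hpS hNS).1 hy)

/-- **the square relation on the new part**: `τ (τ y) - y ∈ M⁰_{pⁿ}` (pulled back along `toTors`) for
`y` new and `τ` a Frobenius lift at `A ∣ p`. -/
theorem frobSq_sub_mem_of_mem_newSub {A : ValuationSubring Qb} (hA : A.LiesOverPrime p) {τ : GQ}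
    (hτ : A.IsFrobeniusAt τ p) {n : ℕ} {y : (levelData p (N' * p) hpS hNS).K n}
    (hy : y ∈ newSub h hpS hNS n) :
    (levelData p (N' * p) hpS hNS).gal n τ ((levelData p (N' * p) hpS hNS).gal n τ y) - y ∈
      (M0tors A h n).comap (toTors p (N' * p) hpS hNS n).toAddMonoidHom := by
  have hp : p.Prime := Fact.out
  have hne : NeZero (p ^ n) := ⟨pow_ne_zero n hp.ne_zero⟩
  have hy' := (mem_newSub h hpS hNS).1 hy
  show toTors p (N' * p) hpS hNS n _ ∈ M0tors A h n
  rw [mem_M0tors_iff, toTors_apply, map_sub, toKum_gal, toKum_gal]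
  exact Fermat.Agent.GB.B10.Phi2.Merge.kumTorsionBy_mem_M0mod h hA n
    (frobSq_sub_mem_kerRed hA hτ hy') (frobSq_sub_mem_kerRed₂ hA hτ hy')

end Inst

/-! ### the level theorem on the new part -/

section Level

variable {N' p : ℕ} [NeZero N'] [Fact p.Prime] {S : Finset ℕ}
  {𝒪 : Type} [CommRing 𝒪] [IsDomain 𝒪] [IsDiscreteValuationRing 𝒪]
  [IsAdicComplete (IsLocalRing.maximalIdeal 𝒪) 𝒪]
  {θ : CuspForm.heckeAlgebra (N' * p) 2 (↑S : Set ℕ) →+* IsLocalRing.ResidueField 𝒪}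
  {T : Type} [CommRing T] [IsLocalRing T] [IsNoetherianRing T]
  [IsAdicComplete (IsLocalRing.maximalIdeal T) T] [Algebra 𝒪 T] [IsLocalHom (algebraMap 𝒪 T)]
  [Module.Finite 𝒪 T] [Module.Free 𝒪 T]

/-- **(L4-inst)**: the level theorem on the `p`-new part of the concrete level data; the only binder
is the faithfulness `hker` of `𝒪 ⊗ (new part)` relative to `I`. -/
theorem exists_package_sq_level_new [Finite (IsLocalRing.ResidueField 𝒪)] [CharZero 𝒪]
    (hp2 : p ≠ 2) (hp𝒪 : (p : 𝒪) ∈ maximalIdeal 𝒪)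
    (h : ExactDvd p (N' * p)) (hside : p = 3 → 2 ∣ N' * p)
    (hpS : p ∈ S) (hNS : ∀ r : ℕ, r.Prime → r ∣ N' * p → r ∈ S)
    (H : CuspForm.HeckeGaloisRepDatum (N' * p) (↑S : Set ℕ) 𝒪 θ T)
    (I : Ideal T) [Finite (T ⧸ I)]
    (A : ValuationSubring Qb) (hA : A.LiesOverPrime p) (n : ℕ)
    (hker : ∀ t' : 𝒪 ⊗[ℤ] heckeAlgebra (N' * p) 2 (↑S : Set ℕ),
      (∀ (a : 𝒪) (y : (levelData p (N' * p) hpS hNS).K n), y ∈ newSub h hpS hNS n →
        heckeX (levelData p (N' * p) hpS hNS) 𝒪 n t' (a ⊗ₜ[ℤ] y) = 0) → piT H t' ∈ I) :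
    ∃ W' : AddSubgroup (H.ρ.V ⧸ (I • (⊤ : Submodule T H.ρ.V))),
      ConnPackage (↑(A.inertiaSubgroupIn ℚ) : Set GQ) (↑(A.decompositionSubgroup ℚ) : Set GQ)
        (fun (σ : GQ) => H.ρ.levelAction I σ) W' ∧
      ∀ τ ∈ {τ : GQ | A.IsFrobeniusAt τ p}, ∀ v,
        H.ρ.levelAction I τ (H.ρ.levelAction I τ v) - v ∈ W' := by
  have hp : p.Prime := Fact.out
  refine Fermat.Agent.GB.B10.L.CoreSub.exists_package_sq_level_sub
    (levelData p (N' * p) hpS hNS) (levelData_comm p (N' * p) hpS hNS) hp hp2 hp𝒪 hpS hNS H I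
    (fun σ hσ => ?_) (fun σ hσ => (A.decompositionSubgroup ℚ).inv_mem hσ) n
    ((M0tors A h n).comap (toTors p (N' * p) hpS hNS n).toAddMonoidHom) (newSub h hpS hNS n)
    ?_ (fun g y hy => gal_mem_newSub h hpS hNS g hy)
    (fun t y hy => heckeHom_mem_newSub h hpS hNS t hy)
    (fun τ hτ y hy => frobSq_sub_mem_of_mem_newSub h hpS hNS hA hτ hy) hker
  · -- inertia ⊆ decomposition
    have hσ' : σ ∈ A.inertiaSubgroupIn ℚ := hσ
    unfold ValuationSubring.inertiaSubgroupIn at hσ'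
    rw [Subgroup.mem_map] at hσ'
    obtain ⟨i', _, rfl⟩ := hσ'
    exact i'.2
  · exact Fermat.Agent.GB.B10.Pack.connPackage_comap_addEquiv (toTors p (N' * p) hpS hNS n)
      (fun σ x => toTors_gal p (N' * p) hpS hNS n σ x)
      (connPackage_M0tors_all hp2 h hside A hA n)

end Level

end Fermat.Agent.GB.B10.L.NewInst
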