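/-
GATE-B / B10′ ROUTE L, leaf (L3a) of helper32 5966 (helper63), file 1: the GENERIC statement.

For ANY coset system `S : CosetSys embR Γ₀(M) Γ₀(N)` with representatives of positive determinant
(restriction, conjugation, transfer, Hecke and Atkin–Lehner operators and their composites):

* `sysProd S ha : Mer →* Mer`, `h ↦ ∏ i, h ∘ a i`;
* `compM_sysProd_zmod` : if `h` has multiplier `ζ^ψ` on `Γ₀(M)` then `sysProd S ha h` has multiplier
  `ζ^(S.op ψ)` on `Γ₀(N)`;
* `IsKumDatum.sysProd` : a Kummer datum `(h, u)` for `ψ` at level `M` gives the Kummer datum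
  `(sysProd h, Tu)` for `S.op ψ` at level `N`, for any `Tu` realising `sysProd (real u)`;
* `opGood S : GoodHom M m → GoodHom N m`;
* `theta_op`, **`thetaQ_op`** : the Kummer isomorphism intertwines `S.op` on characters with ANY
  homomorphism of unit groups `f : F_Mˣ →* F_Nˣ` realising `sysProd`:
  `thetaQ N m hζ (opGood S ψ) = kumLin₂ f hf (thetaQ M m hζ ψ)`.
-/
import Mathlib
import Fermat.Agent.GM.B.Par
import Fermat.Agent.GJ.J2.Tower.ThetaQ
import Fermat.Agent.GK.UTr.KumAlpha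

set_option autoImplicit false
set_option linter.unusedSectionVars false

open UpperHalfPlane Complex CongruenceSubgroup AlgebraicCurve ModularCurve ModularCurve.Period
open scoped MatrixGroups

noncomputable section

namespace Fermat.Agent.GB.B10.L.ThetaSys

open Fermat.Agent.S24 Fermat.Agent.S24_helper82 Fermat.Agent.GJ.HeckeMer Fermat.Agent.GJ.KumCore
open Fermat.Agent.GJ.KumGroup Fermat.Agent.GJ.EigAsm Fermat.Agent.GJ.KumTower
open Fermat.Agent.GJ.Kum.KumType Fermat.Agent.GM.B Fermat.Agent.GK.UTr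
open Matrix.SpecialLinearGroup

variable {M N : ℕ}

/-! ### The product over a coset system -/

/-- all representatives of the coset system have positive determinant -/
def PosDet (S : CosetSys embR (Gamma0 M) (Gamma0 N)) : Prop := ∀ i, 0 < (S.a i).det.val

/-- `h ↦ ∏ i, h ∘ a i` -/
def sysProd (S : CosetSys embR (Gamma0 M) (Gamma0 N)) (ha : PosDet S) : Mer →* Mer where
  toFun m := ∏ i, compMGL (S.a i) (ha i) m
  map_one' := by simp
  map_mul' a b := by simp [Finset.prod_mul_distrib]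

theorem sysProd_apply (S : CosetSys embR (Gamma0 M) (Gamma0 N)) (ha : PosDet S) (m : Mer) :
    sysProd S ha m = ∏ i, compMGL (S.a i) (ha i) m := rfl

theorem sysProd_ne_zero (S : CosetSys embR (Gamma0 M) (Gamma0 N)) (ha : PosDet S) {m : Mer}
    (hm : m ≠ 0) : sysProd S ha m ≠ 0 := by
  rw [sysProd_apply]
  exact Finset.prod_ne_zero_iff.mpr fun i _ =>
    (map_ne_zero_iff _ (compMGL_injective _ _)).mpr hm

/-- **multiplier of the coset product**, multiplicative form -/
theorem compM_sysProd (S : CosetSys embR (Gamma0 M) (Gamma0 N)) (ha : PosDet S) (h : Mer)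
    (χ : Gamma0 M → ℂ)
    (hχ : ∀ γ : Gamma0 M, compM (γ : SL(2, ℤ)) h = algebraMap ℂ Mer (χ γ) * h) (g : Gamma0 N) :
    compM (g : SL(2, ℤ)) (sysProd S ha h)
      = algebraMap ℂ Mer (∏ i, χ (S.c g i)) * sysProd S ha h := by
  rw [sysProd_apply, map_prod, map_prod,
    ← Equiv.prod_comp (S.σ g) (fun i => compMGL (S.a i) (ha i) h), ← Finset.prod_mul_distrib]
  refine Finset.prod_congr rfl fun i _ => ?_
  rw [← compMGL_mapGL, ← compMGL_mul (ha i) (det_mapGL_pos _),
    compMGL_congr (S.rel g i) _ (det_mul_pos (det_mapGL_pos _) (ha (S.σ g i))),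
    compMGL_mul (det_mapGL_pos _) (ha (S.σ g i)), compMGL_mapGL, hχ (S.c g i), map_mul,
    compMGL_const]

/-- **multiplier of the coset product**, additive form: `ζ^ψ ↦ ζ^(S.op ψ)` -/
theorem compM_sysProd_zmod (S : CosetSys embR (Gamma0 M) (Gamma0 N)) (ha : PosDet S) {p : ℕ}
    [NeZero p] {ζ : ℂ} (hζ : ζ ^ p = 1) (h : Mer) (ψ : Additive (Gamma0 M) →+ ZMod p)
    (hψ : HasMult ζ ψ h) : HasMult ζ (S.op (ZMod p) ψ) (sysProd S ha h) := by
  intro g
  rw [compM_sysProd S ha h (fun γ => zmodPow ζ (ψ (Additive.ofMul γ))) hψ g, CosetSys.op_apply,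
    zmodPow_sum hζ]

/-- **the coset product of a Kummer datum is a Kummer datum for `S.op ψ`** -/
theorem IsKumDatum.sysProd {p : ℕ} [NeZero p] {F F' : Type*} [Field F] [Field F']
    {real : F →+* Mer} {real' : F' →+* Mer} {ζ : ℂ} (hζ : ζ ^ p = 1)
    {ψ : Additive (Gamma0 M) →+ ZMod p} {h : Mer} {u : F} (D : IsKumDatum real ζ ψ h u)
    (S : CosetSys embR (Gamma0 M) (Gamma0 N)) (ha : PosDet S) {Tu : F'}
    (hTu : real' Tu = ThetaSys.sysProd S ha (real u)) :
    IsKumDatum real' ζ (S.op (ZMod p) ψ) (ThetaSys.sysProd S ha h) Tu :=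
  ⟨sysProd_ne_zero S ha D.1, compM_sysProd_zmod S ha hζ h ψ D.2.1, by
    rw [hTu, D.2.2, map_pow]⟩

/-! ### Good characters -/

theorem isGood_op (S : CosetSys embR (Gamma0 M) (Gamma0 N)) {A : Type*} [AddCommGroup A]
    {ψ : Additive (Gamma0 M) →+ A} (h : IsGood M ψ) : IsGood N (S.op A ψ) :=
  ⟨op_isParabolicHom S ψ h.1, op_kills_finOrder S ψ h.2⟩

/-- the operator of a coset system on good characters -/
def opGood (S : CosetSys embR (Gamma0 M) (Gamma0 N)) {m : ℕ} (ψ : GoodHom M m) : GoodHom N m :=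
  ⟨S.op (ZMod m) ψ.1, isGood_op S ψ.2⟩

@[simp] theorem coe_opGood (S : CosetSys embR (Gamma0 M) (Gamma0 N)) {m : ℕ} (ψ : GoodHom M m) :
    (opGood S ψ : Additive (Gamma0 N) →+ ZMod m) = S.op (ZMod m) ψ.1 := rfl

/-! ### `theta` intertwines `S.op` with the coset product -/

section Theta

variable {m : ℕ} [NeZero m] {K F K' F' : Type*} [Field K] [Field F] [Algebra K F]
  [Field K'] [Field F'] [Algebra K' F'] {real : F →+* Mer} {real' : F' →+* Mer} {ζ : ℂ}

/-- **generic form**: if `theta ψ = [u]` at level `M` and `Tu` realises the coset product of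
`real u`, then `Tu` is an `m`-divisible unit and `theta (S.op ψ) = [Tu]` at level `N`. -/
theorem theta_op (H : ThetaHyp K M m real ζ) (H' : ThetaHyp K' N m real' ζ)
    (hζ : IsPrimitiveRoot ζ m) (S : CosetSys embR (Gamma0 M) (Gamma0 N)) (ha : PosDet S)
    (ψ : GoodHom M m) (u : pDivUnits K F m)
    (hu : theta H hζ ψ = Additive.ofMul (Kum.mk u)) (Tu : F')
    (hTu : real' Tu = sysProd S ha (real ((u : Fˣ) : F))) :
    ∃ Tu' : pDivUnits K' F' m, ((Tu' : F'ˣ) : F') = Tu ∧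
      theta H' hζ (opGood S ψ) = Additive.ofMul (Kum.mk Tu') := by
  obtain ⟨h, D⟩ := (theta_eq_iff H hζ ψ u).mp hu
  have DS := IsKumDatum.sysProd hζ.pow_eq_one D S ha hTu
  have hgood : IsGood N (S.op (ZMod m) ψ.1) := isGood_op S ψ.2
  refine ⟨⟨Units.mk0 Tu DS.ne_zero, fun P => H'.pdiv _ _ Tu hgood DS P⟩, rfl, ?_⟩
  rw [theta_eq_iff]
  exact ⟨_, DS⟩

end Theta

section ThetaQ

variable [NeZero M] [NeZero N] {m : ℕ} [NeZero m] {ζ : ℂ}

/-- **over `ℚ̄`, unconditional**: for every homomorphism `f` of unit groups realising the coset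
product of `S`, `thetaQ (S.op ψ) = [f] (thetaQ ψ)`. -/
theorem thetaQ_op (hζ : IsPrimitiveRoot ζ m) (S : CosetSys embR (Gamma0 M) (Gamma0 N))
    (ha : PosDet S) (f : (FK M)ˣ →* (FK N)ˣ)
    (hf : ∀ u ∈ pDivUnits Kb (FK M) m, f u ∈ pDivUnits Kb (FK N) m)
    (hreal : ∀ u : (FK M)ˣ, realize N ((f u : (FK N)ˣ) : FK N)
      = sysProd S ha (realize M ((u : (FK M)ˣ) : FK M)))
    (ψ : GoodHom M m) :
    thetaQ N m hζ (opGood S ψ) = kumLin₂ f hf (thetaQ M m hζ ψ) := by
  obtain ⟨u, hu⟩ := exists_rep (thetaQ M m hζ ψ)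
  obtain ⟨Tu', hTu', hθ⟩ := theta_op (thetaHypQ M m hζ) (thetaHypQ N m hζ) hζ S ha ψ u hu
    ((f (u : (FK M)ˣ) : (FK N)ˣ) : FK N) (hreal _)
  rw [hu, kumLin₂_mk]
  refine hθ.trans (congrArg (fun v => Additive.ofMul (Kum.mk v)) (Subtype.ext (Units.ext ?_)))
  exact hTu'

end ThetaQ

end Fermat.Agent.GB.B10.L.ThetaSys
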