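/-
GATE-B / B10′ ROUTE L, leaf (L3a) of helper32 5966 (helper63), file 2: the instances.

`q` prime, `q ∤ N`.  On the Kummer side `α_* = aLow N q m`, `W_q = autEnd (wAut h) m`,
`β_* = bLow h m = α_* ∘ W_q` (helper82, GK/UTr); on the character side `cores`, `w_q = wOp`, `coresD`
(GATE-M, GM/B).  The Kummer isomorphisms `thetaQ` at levels `N q` and `N` intertwine them:

* `thetaQ_cores`  : `thetaQ N (cores ψ) = aLow N q m (thetaQ (N q) ψ)`   (ANY Bézout pair);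
* `thetaQ_wOp`    : `thetaQ (N q) (w_q ψ) = autEnd (wAut h) m (thetaQ (N q) ψ)`;
* `thetaQ_coresD` : `thetaQ N (coresD ψ) = bLow h m (thetaQ (N q) ψ)`.
-/
import Mathlib
import Fermat.Agent.GB.B10.L.ThetaSys
import Fermat.Agent.GM.B.AtkinLehner
import Fermat.Agent.GK.UTr.KumBetaW

set_option autoImplicit false
set_option linter.unusedSectionVars false
set_option linter.style.haveILetI false

open UpperHalfPlane Complex CongruenceSubgroup AlgebraicCurve ModularCurve ModularCurve.Period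
open scoped MatrixGroups OnePoint

noncomputable section

namespace Fermat.Agent.GB.B10.L.ThetaCores

open Fermat.Agent.S24 Fermat.Agent.S24_helper82 Fermat.Agent.GJ.HeckeMer Fermat.Agent.GJ.KumCore
open Fermat.Agent.GJ.KumGroup Fermat.Agent.GJ.EigAsm Fermat.Agent.GJ.KumTower
open Fermat.Agent.GJ.Kum.KumType Fermat.Agent.GM.B Fermat.Agent.GK.UTr
open Fermat.Agent.GJ.HN Fermat.Agent.GJ.MerGL Fermat.Agent.GJ.HInputs
open Fermat.Agent.GK.AL Fermat.Agent.GK.UqKronecker Fermat.Agent.GK.UQ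
open Fermat.Agent.GB.B10.L.ThetaSys
open P2MW.S_ModularForm_heckeT_slash_eq_self_of_mem_Gamma0.ModularForm.HeckeSlashInvariance
open P2MW.S_ModularForm_heckeT_slash_eq_self_of_mem_Gamma0.ModularForm
open Matrix Matrix.SpecialLinearGroup

/-! ### `kumLin₂` at `F = F'` is `kumEnd` -/

theorem kumLin₂_eq_kumEnd {K F : Type*} [Field K] [Field F] [Algebra K F] {p : ℕ}
    (f : Fˣ →* Fˣ) (hf : ∀ u ∈ pDivUnits K F p, f u ∈ pDivUnits K F p)
    (x : Additive (Kum K F p)) : kumLin₂ f hf x = kumEnd f hf x := by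
  obtain ⟨u, rfl⟩ := exists_rep x
  rfl

/-! ### The transfer `cores` -/

section Cores

variable {N q : ℕ} [Fact q.Prime] (hqN : ¬ q ∣ N) (b₀ d₀ : ℤ)
  (hbd : (q : ℤ) * d₀ - N * b₀ = 1)

/-- the representatives of `coresSys` are the transversal `r_x` -/
theorem coresSys_a (x : OnePoint (ZMod q)) :
    (coresSys hqN b₀ d₀ hbd).a x = embR ((rC N q b₀ d₀ hbd x : Gamma0 N) : SL(2, ℤ)) := by
  have hA := dlt_mul_rC N q b₀ d₀ hbd x
  show (dlt q)⁻¹ * embR ((gC N q b₀ d₀ hbd x : Gamma0 N) : SL(2, ℤ)) * heckeRep q x = _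
  rw [mul_assoc, inv_mul_eq_iff_eq_mul]
  exact hA.symm

theorem posDet_coresSys : PosDet (coresSys hqN b₀ d₀ hbd) := by
  intro x
  have h := coresSys_a hqN b₀ d₀ hbd x
  rw [h]
  exact det_mapGL_pos _

include hqN in
/-- `∞ · r_x = x` in `ℙ¹(𝔽_q)` -/
theorem infPt_rC (x : OnePoint (ZMod q)) :
    infPt q ((rC N q b₀ d₀ hbd x : Gamma0 N) : SL(2, ℤ)) = x := by
  induction x using OnePoint.rec with
  | infty => exact infPt_one
  | coe j =>
    have h10 : (repC N q b₀ d₀ hbd j.val) 1 0 = (N : ℤ) := by simp [repC]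
    have h11 : (repC N q b₀ d₀ hbd j.val) 1 1 = (N : ℤ) * (j.val : ℕ) + d₀ * q := by simp [repC]
    have hN : (((N : ℤ) : ℤ) : ZMod q) ≠ 0 := by
      rw [Int.cast_natCast]
      intro h0
      exact hqN ((ZMod.natCast_eq_zero_iff N q).mp h0)
    show infPt q (repC N q b₀ d₀ hbd j.val) = (j : OnePoint (ZMod q))
    rw [infPt, OnePoint.smul_infty_eq_ite, redMatrix_apply_one_zero, redMatrix_apply_zero_zero,
      h10, h11, if_neg hN]
    congr 1
    rw [div_eq_iff hN]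
    push_cast
    rw [ZMod.natCast_zmod_val, ZMod.natCast_self]
    ring

theorem sysProd_coresSys (m : Mer) :
    sysProd (coresSys hqN b₀ d₀ hbd) (posDet_coresSys hqN b₀ d₀ hbd) m
      = ∏ x : OnePoint (ZMod q), compM ((rC N q b₀ d₀ hbd x : Gamma0 N) : SL(2, ℤ)) m := by
  rw [sysProd_apply]
  refine Finset.prod_congr rfl fun x _ => ?_
  rw [compMGL_congr (coresSys_a hqN b₀ d₀ hbd x) _ (det_mapGL_pos _), compMGL_mapGL]

variable [NeZero N] {m : ℕ} [NeZero m] {ζ : ℂ}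

/-- **(L3a), `α`-half**: `thetaQ N (cores ψ) = α_* (thetaQ (N q) ψ)`, for any Bézout pair. -/
theorem thetaQ_cores (hζ : IsPrimitiveRoot ζ m) (ψ : GoodHom (N * q) m) :
    haveI : NeZero q := ⟨(Fact.out : q.Prime).ne_zero⟩
    thetaQ N m hζ (opGood (coresSys hqN b₀ d₀ hbd) ψ) = aLow N q m (thetaQ (N * q) m hζ ψ) := by
  haveI : NeZero q := ⟨(Fact.out : q.Prime).ne_zero⟩
  refine thetaQ_op hζ (coresSys hqN b₀ d₀ hbd) (posDet_coresSys hqN b₀ d₀ hbd)
    (normUnits N q) (normUnits_mem N q m) (fun v => ?_) ψ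
  rw [coe_normUnits, sysProd_coresSys]
  exact realize_norm_alphaB hqN (fun x => ((rC N q b₀ d₀ hbd x : Gamma0 N) : SL(2, ℤ)))
    (fun x => (rC N q b₀ d₀ hbd x).2) (infPt_rC hqN b₀ d₀ hbd) _

end Cores

/-! ### The Atkin–Lehner operator `w_q` -/

section W

variable {N q : ℕ} [Fact q.Prime] (hqN : ¬ q ∣ N)

theorem posDet_wSys : PosDet (wSys hqN) := by
  intro _
  show 0 < (Fermat.Agent.GM.B.wMat hqN).det.val
  unfold Fermat.Agent.GM.B.wMat
  exact det_mul_pos (det_mapGL_pos _) (ModularForm.det_heckeDiagMatrix_pos q)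

/-- the Bézout datum of GK/AL attached to the Bézout pair `(b₀, d₀)` of GM/B -/
def wDataBez : WData q (N * q / q) where
  x := (bez hqN).2
  y := (bez hqN).1
  rel := by
    have h := bez_spec hqN
    have hN : ((N * q / q : ℕ) : ℤ) = (N : ℤ) := by
      rw [Nat.mul_div_cancel _ (Fact.out : q.Prime).pos]
    rw [hN]
    linarith

/-- `W_{GM} = κ_∞ · W_{AL}` with `κ_∞ ∈ Γ₀(N q)` -/
theorem wMat_eq_kapInf_mul (hq : 0 < q) :
    Fermat.Agent.GM.B.wMat hqN = embR (kapInf hqN) * wGL hq (wDataBez hqN) := by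
  have hbd := bez_spec hqN
  have hbdR : (q : ℝ) * (((bez hqN).2 : ℤ) : ℝ) - (N : ℝ) * (((bez hqN).1 : ℤ) : ℝ) = 1 := by
    exact_mod_cast hbd
  have hq0 : q ≠ 0 := hq.ne'
  unfold Fermat.Agent.GM.B.wMat
  rw [rZero_coe]
  ext a b
  fin_cases a <;> fin_cases b <;>
    simp [hq0, kapInf, repC, wDataBez, Fermat.Agent.GK.AL.wMat, wGL, Matrix.mul_apply,
      Fin.sum_univ_two]
  · linear_combination (-(q : ℝ)) * hbdR
  · linear_combination (-(((bez hqN).1 : ℤ) : ℝ)) * hbdR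
  · linear_combination (-((N : ℝ) * (q : ℝ))) * hbdR
  · linear_combination (-((q : ℝ) * (((bez hqN).2 : ℤ) : ℝ))) * hbdR

variable [NeZero N] {m : ℕ} [NeZero m] {ζ : ℂ}

/-- `wAut` is the coset product of the one-element system `wSys` -/
theorem realize_wAut_eq_sysProd (h : ExactDvd q (N * q)) (f : FN (N * q)) :
    realize (N * q) (wAut h f) = sysProd (wSys hqN) (posDet_wSys hqN) (realize (N * q) f) := by
  have hpos : 0 < (wGL h.pos (wDataBez hqN)).det.val := by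
    rw [det_wGL]
    exact_mod_cast h.pos
  have hW : 0 < (Fermat.Agent.GM.B.wMat hqN).det.val := by
    unfold Fermat.Agent.GM.B.wMat
    exact det_mul_pos (det_mapGL_pos _) (ModularForm.det_heckeDiagMatrix_pos q)
  have h1 : sysProd (wSys hqN) (posDet_wSys hqN) (realize (N * q) f)
      = compMGL (Fermat.Agent.GM.B.wMat hqN) hW (realize (N * q) f) := by
    rw [sysProd_apply]
    show ∏ _i : Unit, compMGL (Fermat.Agent.GM.B.wMat hqN) hW (realize (N * q) f) = _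
    rw [Fintype.prod_unique]
  rw [h1, compMGL_congr (wMat_eq_kapInf_mul hqN h.pos) _ (det_mul_pos (det_mapGL_pos _) hpos),
    compMGL_mul (det_mapGL_pos _) hpos, compMGL_mapGL,
    compM_realize_of_mem_Gamma0 (N * q) (kapInf_mem hqN), realize_wAut h (wDataBez hqN),
    compMGL_eq_compPM]
  rfl

/-- **(L3a), `W`-part**: `thetaQ (w_q ψ) = W_q (thetaQ ψ)`. -/
theorem thetaQ_wOp (h : ExactDvd q (N * q)) (hζ : IsPrimitiveRoot ζ m) (ψ : GoodHom (N * q) m) :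
    thetaQ (N * q) m hζ (opGood (wSys hqN) ψ)
      = autEnd (wAut h : FK (N * q) ≃ₐ[Kb] FK (N * q)) m (thetaQ (N * q) m hζ ψ) := by
  rw [thetaQ_op hζ (wSys hqN) (posDet_wSys hqN)
    (autUnits (wAut h : FK (N * q) ≃ₐ[Kb] FK (N * q)))
    (autUnits_mem (wAut h : FK (N * q) ≃ₐ[Kb] FK (N * q)) m)
    (fun u => realize_wAut_eq_sysProd hqN h _) ψ]
  exact kumLin₂_eq_kumEnd _ _ _

/-! ### The `δ`-twisted transfer `coresD` -/

theorem opGood_coresDSys' (ψ : GoodHom (N * q) m) :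
    opGood (coresDSys' hqN) ψ = opGood (coresSys' hqN) (opGood (wSys hqN) ψ) :=
  Subtype.ext (cores_wOp hqN ψ.1).symm

/-- **(L3a), `β`-half**: `thetaQ N (coresD ψ) = β_* (thetaQ (N q) ψ)`, `β_* = α_* ∘ W_q`. -/
theorem thetaQ_coresD (h : ExactDvd q (N * q)) (hζ : IsPrimitiveRoot ζ m)
    (ψ : GoodHom (N * q) m) :
    haveI : NeZero q := ⟨(Fact.out : q.Prime).ne_zero⟩
    thetaQ N m hζ (opGood (coresDSys' hqN) ψ) = bLow h m (thetaQ (N * q) m hζ ψ) := by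
  haveI : NeZero q := ⟨(Fact.out : q.Prime).ne_zero⟩
  rw [opGood_coresDSys', bLow_apply, ← thetaQ_wOp hqN h hζ ψ]
  exact thetaQ_cores hqN (bez hqN).1 (bez hqN).2 (bez_spec hqN) hζ _

/-! ### Consumer forms: `cores`, `coresD` of `GM/B/Main` and the kernels -/

/-- `thetaQ N ⟨cores ψ, _⟩ = α_* (thetaQ (N q) ψ)` in the `GM/B/Main` spelling -/
theorem thetaQ_cores_main (hζ : IsPrimitiveRoot ζ m) (ψ : GoodHom (N * q) m)
    (hgood : IsGood N (cores (ZMod m) hqN ψ.1)) :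
    haveI : NeZero q := ⟨(Fact.out : q.Prime).ne_zero⟩
    thetaQ N m hζ ⟨cores (ZMod m) hqN ψ.1, hgood⟩ = aLow N q m (thetaQ (N * q) m hζ ψ) :=
  thetaQ_cores hqN (bez hqN).1 (bez hqN).2 (bez_spec hqN) hζ ψ

/-- `thetaQ N ⟨coresD ψ, _⟩ = β_* (thetaQ (N q) ψ)` in the `GM/B/Main` spelling -/
theorem thetaQ_coresD_main (h : ExactDvd q (N * q)) (hζ : IsPrimitiveRoot ζ m)
    (ψ : GoodHom (N * q) m) (hgood : IsGood N (coresD (ZMod m) hqN ψ.1)) :
    haveI : NeZero q := ⟨(Fact.out : q.Prime).ne_zero⟩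
    thetaQ N m hζ ⟨coresD (ZMod m) hqN ψ.1, hgood⟩ = bLow h m (thetaQ (N * q) m hζ ψ) :=
  thetaQ_coresD hqN h hζ ψ

/-- **kernel form, `α`**: `cores ψ = 0 ⟹ α_* (thetaQ ψ) = 0` -/
theorem aLow_thetaQ_eq_zero (hζ : IsPrimitiveRoot ζ m) (ψ : GoodHom (N * q) m)
    (h0 : cores (ZMod m) hqN ψ.1 = 0) :
    haveI : NeZero q := ⟨(Fact.out : q.Prime).ne_zero⟩
    aLow N q m (thetaQ (N * q) m hζ ψ) = 0 := by
  haveI : NeZero q := ⟨(Fact.out : q.Prime).ne_zero⟩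
  rw [← thetaQ_cores hqN (bez hqN).1 (bez hqN).2 (bez_spec hqN) hζ ψ]
  have hz : opGood (coresSys hqN (bez hqN).1 (bez hqN).2 (bez_spec hqN)) ψ = 0 :=
    Subtype.ext h0
  rw [hz, map_zero]

/-- **kernel form, `β`**: `coresD ψ = 0 ⟹ β_* (thetaQ ψ) = 0` -/
theorem bLow_thetaQ_eq_zero (h : ExactDvd q (N * q)) (hζ : IsPrimitiveRoot ζ m)
    (ψ : GoodHom (N * q) m) (h0 : coresD (ZMod m) hqN ψ.1 = 0) :
    haveI : NeZero q := ⟨(Fact.out : q.Prime).ne_zero⟩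
    bLow h m (thetaQ (N * q) m hζ ψ) = 0 := by
  haveI : NeZero q := ⟨(Fact.out : q.Prime).ne_zero⟩
  rw [← thetaQ_coresD hqN h hζ ψ]
  have hz : opGood (coresDSys' hqN) ψ = 0 := Subtype.ext h0
  rw [hz, map_zero]

/-- **iff form, `α`** (`thetaQ` is injective): `α_* (thetaQ ψ) = 0 ⟺ cores ψ = 0` -/
theorem aLow_thetaQ_eq_zero_iff (hζ : IsPrimitiveRoot ζ m) (ψ : GoodHom (N * q) m) :
    haveI : NeZero q := ⟨(Fact.out : q.Prime).ne_zero⟩
    aLow N q m (thetaQ (N * q) m hζ ψ) = 0 ↔ cores (ZMod m) hqN ψ.1 = 0 := by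
  haveI : NeZero q := ⟨(Fact.out : q.Prime).ne_zero⟩
  refine ⟨fun h => ?_, aLow_thetaQ_eq_zero hqN hζ ψ⟩
  rw [← thetaQ_cores hqN (bez hqN).1 (bez hqN).2 (bez_spec hqN) hζ ψ] at h
  have h1 := (AddEquiv.map_eq_zero_iff (thetaQ N m hζ)).mp h
  exact congrArg Subtype.val h1

/-- **iff form, `β`**: `β_* (thetaQ ψ) = 0 ⟺ coresD ψ = 0` -/
theorem bLow_thetaQ_eq_zero_iff (h : ExactDvd q (N * q)) (hζ : IsPrimitiveRoot ζ m)
    (ψ : GoodHom (N * q) m) :
    haveI : NeZero q := ⟨(Fact.out : q.Prime).ne_zero⟩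
    bLow h m (thetaQ (N * q) m hζ ψ) = 0 ↔ coresD (ZMod m) hqN ψ.1 = 0 := by
  haveI : NeZero q := ⟨(Fact.out : q.Prime).ne_zero⟩
  refine ⟨fun h' => ?_, bLow_thetaQ_eq_zero hqN h hζ ψ⟩
  rw [← thetaQ_coresD hqN h hζ ψ] at h'
  have h1 := (AddEquiv.map_eq_zero_iff (thetaQ N m hζ)).mp h'
  exact congrArg Subtype.val h1

end W

end Fermat.Agent.GB.B10.L.ThetaCores
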