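/-
GATE-B / GB-PNEW, leaf (hY) (helper32): **the Kummer images of the `p`-new LATTICE lie in the
`p`-new part of the Kummer groups**.

`p ∤ N'`.  On the lattice `Lam (N' p) = Hom_par(Γ₀(N' p), ℤ)` the two transfers to level `N'`
(GATE-M, `GM/B/Main`) are `cores ℤ hpN'` and `coresD ℤ hpN'`; put

  `LamNew hpN' := ker (cores) ∩ ker (coresD) ≤ Lam (N' p)`            (the `p`-new lattice).

The Kummer isomorphisms intertwine `cores`, `coresD` with the degeneracy norms `α_* = aLow`,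
`β_* = bLow` (helper63, `GB/B10/L/ThetaCores`), and everything is natural in the coefficients
(`CosetSys.op_comp_hom`), so for every modulus `m`

  `Φ ∈ LamNew ⟹ IsNew h m (thetaLat (N' p) m hζ Φ)`                   (`isNew_thetaLat`)

and in the vocabulary of the concrete level data `D = KumLevelHecke.levelData p (N' p)`

  `Φ ∈ LamNew ⟹ D.Θ n Φ ∈ NewInst.newSub h hpS hNS n`                 (`theta_mem_newSub`)

which is the `(hY)` binder of `StrictQ.isStrictOrdinaryAt_pushRep_of_ann(_res)` with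
`Λ' := LamNew hpN'`, verbatim (`hY_lamNew`).
-/
import Fermat.Agent.GB.B10.L.NewInst
import Fermat.Agent.GB.B10.L.ThetaCores

set_option autoImplicit false
set_option linter.unusedSectionVars false
set_option linter.style.haveILetI false

open CongruenceSubgroup ModularCurve ModularCurve.Period

noncomputable section

namespace Fermat.Agent.GB.B10.L.ThetaNew

open Fermat.Agent.GJ.KumGroup Fermat.Agent.GJ.Kum.KumType Fermat.Agent.GJ.KumTower
open Fermat.Agent.GJ.J2.Lat Fermat.Agent.GJ.J2.LatMod Fermat.Agent.GJ.J2.ModCount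
open Fermat.Agent.GM.B Fermat.Agent.GK.AL Fermat.Agent.GK.UTr
open Fermat.Agent.GB.B10.FrobSqKer Fermat.Agent.GB.B10.KumLevelHecke
open Fermat.Agent.GB.B10.L.NewInst Fermat.Agent.GB.B10.L.ThetaCores
open Fermat.Agent.GK.Tate.S35Top

/-! ### the `q`-new lattice -/

section Lattice

variable {N q : ℕ} [Fact q.Prime] [NeZero N]

/-- the instance `NeZero (N * q)` (local). -/
local instance neZero_mul : NeZero (N * q) :=
  ⟨Nat.mul_ne_zero (NeZero.ne N) (Fact.out : q.Prime).ne_zero⟩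

/-- **the `q`-new lattice**: the integral parabolic classes of level `N q` killed by both transfers
to level `N`. -/
def LamNew (hqN : ¬ q ∣ N) : AddSubgroup (Lam (N * q)) where
  carrier := {Φ | cores ℤ hqN (Φ : Additive (Gamma0 (N * q)) →+ ℤ) = 0 ∧
    coresD ℤ hqN (Φ : Additive (Gamma0 (N * q)) →+ ℤ) = 0}
  zero_mem' := ⟨map_zero _, map_zero _⟩
  add_mem' := fun {a b} ha hb => by
    refine ⟨?_, ?_⟩
    · show cores ℤ hqN ((a : Additive (Gamma0 (N * q)) →+ ℤ) + b) = 0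
      rw [map_add, ha.1, hb.1, add_zero]
    · show coresD ℤ hqN ((a : Additive (Gamma0 (N * q)) →+ ℤ) + b) = 0
      rw [map_add, ha.2, hb.2, add_zero]
  neg_mem' := fun {a} ha => by
    refine ⟨?_, ?_⟩
    · show cores ℤ hqN (-(a : Additive (Gamma0 (N * q)) →+ ℤ)) = 0
      rw [map_neg, ha.1, neg_zero]
    · show coresD ℤ hqN (-(a : Additive (Gamma0 (N * q)) →+ ℤ)) = 0
      rw [map_neg, ha.2, neg_zero]

theorem mem_lamNew {hqN : ¬ q ∣ N} {Φ : Lam (N * q)} :
    Φ ∈ LamNew hqN ↔ cores ℤ hqN (Φ : Additive (Gamma0 (N * q)) →+ ℤ) = 0 ∧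
      coresD ℤ hqN (Φ : Additive (Gamma0 (N * q)) →+ ℤ) = 0 := Iff.rfl

/-- the reduction mod `m` of a lattice class, as a composite with `ℤ → ℤ/m`. -/
theorem coe_redGoodLat_eq_comp (m : ℕ) (Φ : Lam (N * q)) :
    ((redGoodLat (N * q) m Φ : GoodHom (N * q) m) : Additive (Gamma0 (N * q)) →+ ZMod m)
      = (Int.castAddHom (ZMod m)).comp (Φ : Additive (Gamma0 (N * q)) →+ ℤ) := rfl

/-- `cores` commutes with the reduction mod `m`. -/
theorem cores_redGoodLat (hqN : ¬ q ∣ N) (m : ℕ) (Φ : Lam (N * q)) :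
    cores (ZMod m) hqN
        ((redGoodLat (N * q) m Φ : GoodHom (N * q) m) : Additive (Gamma0 (N * q)) →+ ZMod m)
      = (Int.castAddHom (ZMod m)).comp (cores ℤ hqN (Φ : Additive (Gamma0 (N * q)) →+ ℤ)) := by
  rw [coe_redGoodLat_eq_comp]
  exact Fermat.Agent.GM.B.CosetSys.op_comp_hom (coresSys' hqN) (Int.castAddHom (ZMod m)) _

/-- `coresD` commutes with the reduction mod `m`. -/
theorem coresD_redGoodLat (hqN : ¬ q ∣ N) (m : ℕ) (Φ : Lam (N * q)) :
    coresD (ZMod m) hqN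
        ((redGoodLat (N * q) m Φ : GoodHom (N * q) m) : Additive (Gamma0 (N * q)) →+ ZMod m)
      = (Int.castAddHom (ZMod m)).comp (coresD ℤ hqN (Φ : Additive (Gamma0 (N * q)) →+ ℤ)) := by
  rw [coe_redGoodLat_eq_comp]
  exact Fermat.Agent.GM.B.CosetSys.op_comp_hom (coresDSys' hqN) (Int.castAddHom (ZMod m)) _

variable {m : ℕ} [NeZero m] {ζ : ℂ}

/-- **the Kummer image of a `q`-new lattice class is `q`-new**, at every modulus. -/
theorem isNew_thetaLat (hqN : ¬ q ∣ N) (h : ExactDvd q (N * q)) (hζ : IsPrimitiveRoot ζ m)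
    {Φ : Lam (N * q)} (hΦ : Φ ∈ LamNew hqN) :
    IsNew h m (thetaLat (N * q) m hζ Φ) := by
  rw [thetaLat_apply]
  refine ⟨?_, ?_⟩
  · refine aLow_thetaQ_eq_zero hqN hζ (redGoodLat (N * q) m Φ) ?_
    rw [cores_redGoodLat, hΦ.1, AddMonoidHom.comp_zero]
  · refine bLow_thetaQ_eq_zero hqN h hζ (redGoodLat (N * q) m Φ) ?_
    rw [coresD_redGoodLat, hΦ.2, AddMonoidHom.comp_zero]

end Lattice

/-! ### in the vocabulary of the concrete level data -/

section Level

variable {N' p : ℕ} [NeZero N'] [Fact p.Prime] {S : Finset ℕ}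

/-- **(hY), pointwise**: `Θ_n` maps the `p`-new lattice into the `p`-new part of `Kum_{pⁿ}`. -/
theorem theta_mem_newSub (h : ExactDvd p (N' * p)) (hpS : p ∈ S)
    (hNS : ∀ r : ℕ, r.Prime → r ∣ N' * p → r ∈ S) (hpN' : ¬ p ∣ N') (n : ℕ)
    {Φ : Lam (N' * p)} (hΦ : Φ ∈ LamNew hpN') :
    (levelData p (N' * p) hpS hNS).Θ n Φ ∈ newSub h hpS hNS n := by
  have hp : p.Prime := Fact.out
  haveI : NeZero (p ^ n) := ⟨pow_ne_zero n hp.ne_zero⟩
  rw [mem_newSub, levelData_Θ]
  exact isNew_thetaLat hpN' h (isPrimitiveRoot_zetaPow p n hp.ne_zero) hΦ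

/-- **(hY)** for `Λ' := LamNew hpN'`, in the binder spelling of
`StrictQ.isStrictOrdinaryAt_pushRep_of_ann(_res)`. -/
theorem hY_lamNew (h : ExactDvd p (N' * p)) (hpS : p ∈ S)
    (hNS : ∀ r : ℕ, r.Prime → r ∣ N' * p → r ∈ S) (hpN' : ¬ p ∣ N') :
    ∀ n : ℕ, ∀ x ∈ (LamNew hpN' : AddSubgroup (levelData p (N' * p) hpS hNS).Λ),
      (levelData p (N' * p) hpS hNS).Θ n x ∈ newSub h hpS hNS n :=
  fun n _ hx => theta_mem_newSub h hpS hNS hpN' n hx

end Level

end Fermat.Agent.GB.B10.L.ThetaNew
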