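/-
GATE-B / GB-PNEW, leaf (ANN), consumer forms (helper44): **(ANN) for the `p`-new lattice
`ThetaNew.LamNew hpN₀ ≤ Lam (N₀ p)`** (helper32) **and for any module intertwined into the parabolic
classes.**

* `twO_intertwine` / `twO_eq_zero_of_intertwine` : ABSTRACT glue.  `ι : M →ₗ[O] V` with
  `ι (tw₁ t m) = tw t (ι m)` intertwines the `O`-linear extensions `twO O tw₁`, `twO O tw`; if `ι` is
  injective, `twO O tw t₀ (ι m) = 0 ⟹ twO O tw₁ t₀ m = 0`  (restriction of `tw` to a stable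
  submodule, transport along an isomorphism, … ).
* `ann_lamNew` : `Ann.ann` at the level `N₀ * p`, `Λ' := LamNew hpN₀`, `S₁ S₂ :=` the two transfers
  `cores`, `coresD` of `GM/B/Main` (so `hcores` is stated with `cores K hpN₀`, `coresD K hpN₀`).
* `hAnn_lamNew` : the module-level (ANN) binder of `AnnChi.hann_of_twO` /
  `GalPkgSOImg.exists_galRep_TQ_strict` / `GalPkgSOImg.hAnn_prodTw`, VERBATIM, for ANY `O`-module `M`
  with a ring hom `tw₁` and an injective intertwiner `ι : M →ₗ[O] Hom_par(Γ_H, O)`; only binder left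
  = `hcores` on the classes `ι m` (leaf (HC)).
-/
import Fermat.Agent.GB.B10.L.Ann
import Fermat.Agent.GB.B10.L.ThetaNew

set_option autoImplicit false
set_option linter.unusedSectionVars false

noncomputable section

open scoped MatrixGroups TensorProduct
open CongruenceSubgroup Matrix Matrix.SpecialLinearGroup ModularCurve.Period CuspForm
open Fermat.Agent.S16_helper49 Fermat.Agent.GM.B
open Fermat.Agent.GB.B3 Fermat.Agent.GB.B3.EisGamma0 Fermat.Agent.GB.B3.GamH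
open Fermat.Agent.GJ.J2.ZStruct Fermat.Agent.GJ.J2.Lat Fermat.Agent.GJ.J2.LatAct
open Fermat.Agent.GB.B4.Twist.Chain Fermat.Agent.GB.B4.Twist.ChainD
open Fermat.Agent.GB.B4.Twist.Asm Fermat.Agent.GB.B4.Twist.Coeff Fermat.Agent.GB.B4.Twist.TwR
open Fermat.Agent.GB.B4.Datum.ImageRing Fermat.Agent.GJ.Tate Fermat.Agent.GJ.Tate.Lim
open Fermat.Agent.GB.B10.L.ThetaNew

namespace Fermat.Agent.GB.B10.L.AnnNew

/-! ### abstract glue: intertwiners and the `O`-linear extension -/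

section Glue

variable {O : Type} [CommRing O] [IsLocalRing O] {A : Type} [CommRing A]
  {M V : Type} [AddCommGroup M] [Module O M] [AddCommGroup V] [Module O V]

/-- an `O`-linear map intertwining two actions of `A` intertwines their `O`-linear extensions -/
theorem twO_intertwine (tw₁ : A →+* Module.End O M) (tw : A →+* Module.End O V) (ι : M →ₗ[O] V)
    (hι : ∀ (t : A) (m : M), ι (tw₁ t m) = tw t (ι m)) (t₀ : O ⊗[ℤ] A) (m : M) :
    ι (twO O tw₁ t₀ m) = twO O tw t₀ (ι m) := by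
  induction t₀ using TensorProduct.induction_on with
  | zero => rw [map_zero, map_zero, LinearMap.zero_apply, LinearMap.zero_apply, map_zero]
  | add a b ha hb =>
    rw [map_add, map_add, LinearMap.add_apply, LinearMap.add_apply, map_add, ha, hb]
  | tmul o t =>
    rw [twO_tmul, twO_tmul, LinearMap.smul_apply, LinearMap.smul_apply, map_smul, hι]

/-- … hence, for an injective intertwiner, vanishing can be tested after `ι` -/
theorem twO_eq_zero_of_intertwine (tw₁ : A →+* Module.End O M) (tw : A →+* Module.End O V)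
    (ι : M →ₗ[O] V) (hιinj : Function.Injective ι)
    (hι : ∀ (t : A) (m : M), ι (tw₁ t m) = tw t (ι m)) (t₀ : O ⊗[ℤ] A) (m : M)
    (h0 : twO O tw t₀ (ι m) = 0) : twO O tw₁ t₀ m = 0 := by
  apply hιinj
  rw [twO_intertwine tw₁ tw ι hι, h0, map_zero]

end Glue

/-! ### (ANN) for the `p`-new lattice -/

section New

/-- local instance (Prop-valued class) -/
local instance factPrimeOff9 {S : Set ℕ} (l : PrimesOff S) : Fact (l.1 : ℕ).Prime := ⟨l.1.2⟩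

variable {N N₀ p : ℕ} [NeZero N] [NeZero N₀] [Fact p.Prime] [NeZero (N₀ * p)]
  {Δ : Type} [CommGroup Δ] [Fintype Δ]
  (θ : (ZMod N)ˣ →* Δ) (hθ : Function.Surjective θ)
  (S : Finset ℕ) (hpS : p ∈ S)
  (hNS : ∀ q : ℕ, q.Prime → q ∣ N₀ * p → q ∈ S) (hNN' : N ∣ N₀ * p)
  {O : Type} [CommRing O] [IsLocalRing O] {K : Type} [Field K] [CharZero K] [Algebra O K]
  (hinj : Function.Injective (algebraMap O K))
  [Fintype (Δ →* Kˣ)] [HasEnoughRootsOfUnity K (Monoid.exponent Δ)]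

variable (Lε : (Δ →* Kˣ) → List (TwDatum K Δ)) (dℓ : PrimesOff (↑S : Set ℕ) → Gamma0 N)
  (hadm : ∀ ε, Adm N θ (Lε ε)) (hlev : ∀ ε, chainLevel N (Lε ε) = N₀ * p)
  (rep' : ∀ ε, Δ → Gamma0 (chainLevel N (Lε ε)))
  (hrep' : ∀ ε δ, chi (chainθ N θ (Lε ε)) (rep' ε δ) = δ)
  (hsq : ∀ ε, ∀ d ∈ Lε ε, ¬ d.r ^ 2 ∣ N)
  (hnd : ∀ ε, (Lε ε).Pairwise (fun d e => d.r ≠ e.r))
  (hψ : ∀ ε, ∀ d ∈ Lε ε, (∀ v : (ZMod d.r)ˣ, d.ψ (v : ZMod d.r) = 1) ∨
    ∃ v : (ZMod d.r)ˣ, d.ψ (v : ZMod d.r) ^ 2 ≠ 1)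
  (hν : ∀ (ε : Δ →* Kˣ) (δ : Δ), ((Lε ε).map (fun d => d.ν)).prod δ = ε δ)
  (hc : ∀ (ε : Δ →* Kˣ) (l : PrimesOff (↑S : Set ℕ)),
    ((ε (chi θ (dℓ l)) : Kˣ) : K) * chainPsi (Lε ε) (l.1 : ℕ) = 1)
  (tw : ↥(heckeAlgebra (N₀ * p) 2 (↑S : Set ℕ)) →+*
    Module.End O ↥(parabolicHoms O (GammaH θ) O))
  (htw : ∀ (l : PrimesOff (↑S : Set ℕ)) (v : ↥(parabolicHoms O (GammaH θ) O)),
    ((tw (formsGenS (N₀ * p) (↑S : Set ℕ) l) v : ↥(parabolicHoms O (GammaH θ) O)) :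
        Additive (GammaH θ) →+ O)
      = diaH θ O (dℓ l) (GamH.TH θ O
          (not_dvd_level (↑S : Set ℕ) (Ann.hS_of_hNS S hNS) hNN' l)
          (v : Additive (GammaH θ) →+ O)))

include hinj hsq hnd hψ hν hc htw in
/-- **(ANN) for `Λ' := LamNew hpN₀`**: every `t₀ ∈ O ⊗ heckeAlgebra (N₀ p) 2 S` killing
`O ⊗ LamNew` kills the classes of `MQ`, provided the two transfers `cores`, `coresD` to level `N₀`
kill all the `RChain`-components of the classes of `MQ` (leaf (HC)). -/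
theorem ann_lamNew (hpN₀ : ¬ p ∣ N₀)
    (MQ : Set ↥(parabolicHoms O (GammaH θ) O))
    (hcores : ∀ v ∈ MQ, ∀ ε : Δ →* Kˣ,
      cores K hpN₀ (RChainComp θ hθ Lε hadm hlev rep' hrep' ε v) = 0 ∧
      coresD K hpN₀ (RChainComp θ hθ Lε hadm hlev rep' hrep' ε v) = 0)
    (t₀ : O ⊗[ℤ] ↥(heckeAlgebra (N₀ * p) 2 (↑S : Set ℕ)))
    (ht₀ : ∀ (a : O),
      ∀ Φ ∈ (LamNew hpN₀ : AddSubgroup (KumLevelHecke.levelData p (N₀ * p) hpS hNS).Λ),
      (KumLevelHecke.levelData p (N₀ * p) hpS hNS).heckeTensor O t₀ (a ⊗ₜ[ℤ] Φ) = 0) :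
    ∀ v ∈ MQ, twO O tw t₀ v = 0 :=
  Ann.ann θ hθ S hpS hNS hNN' hinj Lε dℓ hadm hlev rep' hrep' hsq hnd hψ hν hc tw htw
    (coresSys' hpN₀) (coresDSys' hpN₀) (LamNew hpN₀) (fun _ h1 h2 => ⟨h1, h2⟩) MQ hcores t₀ ht₀

include hinj hsq hnd hψ hν hc htw in
/-- **the module-level (ANN) binder** of `AnnChi.hann_of_twO` / `GalPkgSOImg.exists_galRep_TQ_strict`
for any `O`-module `M` with an action `tw₁` of the Hecke algebra and an injective intertwiner `ι`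
into the parabolic classes. -/
theorem hAnn_lamNew (hpN₀ : ¬ p ∣ N₀)
    {M : Type} [AddCommGroup M] [Module O M]
    (tw₁ : ↥(heckeAlgebra (N₀ * p) 2 (↑S : Set ℕ)) →+* Module.End O M)
    (ι : M →ₗ[O] ↥(parabolicHoms O (GammaH θ) O)) (hιinj : Function.Injective ι)
    (hι : ∀ (t : ↥(heckeAlgebra (N₀ * p) 2 (↑S : Set ℕ))) (m : M), ι (tw₁ t m) = tw t (ι m))
    (hcores : ∀ (m : M) (ε : Δ →* Kˣ),
      cores K hpN₀ (RChainComp θ hθ Lε hadm hlev rep' hrep' ε (ι m)) = 0 ∧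
      coresD K hpN₀ (RChainComp θ hθ Lε hadm hlev rep' hrep' ε (ι m)) = 0) :
    ∀ t₀ : O ⊗[ℤ] ↥(heckeAlgebra (N₀ * p) 2 (↑S : Set ℕ)),
      (∀ (a : O),
        ∀ x ∈ (LamNew hpN₀ : AddSubgroup (KumLevelHecke.levelData p (N₀ * p) hpS hNS).Λ),
        (KumLevelHecke.levelData p (N₀ * p) hpS hNS).heckeTensor O t₀ (a ⊗ₜ[ℤ] x) = 0) →
      ∀ m : M, twO O tw₁ t₀ m = 0 := by
  intro t₀ ht₀ m
  refine twO_eq_zero_of_intertwine tw₁ tw ι hιinj hι t₀ m ?_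
  exact ann_lamNew θ hθ S hpS hNS hNN' hinj Lε dℓ hadm hlev rep' hrep' hsq hnd hψ hν hc tw htw
    hpN₀ (Set.range ι) (fun v hv ε => by
      obtain ⟨m', rfl⟩ := hv
      exact hcores m' ε) t₀ ht₀ (ι m) ⟨m, rfl⟩

end New

end Fermat.Agent.GB.B10.L.AnnNew

end
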