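/-
GATE-B / GB-PNEW, leaf (ANN), the last wire (helper44): **the module-level (ANN) at the named objects
of B3** (`Plug.bigLevel`, `Plug.bigReal`, `Plug.tw`), for the `p`-new branch (`q := p`).

* `hAnn_quotTw`, `hAnn_of_fmk`, `hAnn_big` : ABSTRACT descent (helper74's `TQCompat` frame): (ANN) for
  an action `twP` on the big module `B.M` passes to every quotient `FamCoinv (frD B) c'` (`quotTw`, or
  any action given by the `fmk` formula) and to `prodTw O tw1 twChi` on `M¹_Q × M^χ_Q`.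
* `hcores_of_tower_eq` : helper15's `HCores.hcores_of_tower` for ANY character `θ` of `(ℤ/N q)ˣ` with
  `θ = thQ (Theta (Δs p e) H₀.psi j) q` (so that the consumer, who holds `Theta (Δs p e) H.psi j` for
  the prime data `H` at level `N q`, never sees `thQ`: `LocTransport.Theta_eq_infl`).
* `hAnn_twP_new` : (ANN) for ANY `twP` on `(Plug.bigLevel Sy 𝔪 H h j).M` with the `ι`-characterisation
  of helper74's `TwRestrictPlug.exists_twP` relative to a twist homomorphism `tw` with the generator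
  formula (first conjunct of `TwInst.exists_tw_primeData`); the chain binders of `Ann.ann` are
  discharged inside (`TwR.primeData_hyps`), `hcores` by `hcores_of_tower_eq`.
  ONLY binder left: `hbase` (`Hom(Γ₀(Nl), O)_𝔪 = 0`, `Nl = ` the level without `p`).
* `hAnn_plug_new` : the same for `prodTw O tw1 twChi` on
  `(Plug.tw Sy 𝔪 H h s k c hc hc1).L1.M × (Plug.tw …).Lχ.M` — the `hAnn` binder of
  `GalPkgSOImg.exists_galRep_TQ_strict` VERBATIM.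
-/
import Fermat.Agent.GB.B10.L.AnnNew
import Fermat.Agent.GB.B10.L2.HCores
import Fermat.Agent.GB.B4.Datum.TQCompat
import Fermat.Agent.GB.B3.Plug
import Fermat.Agent.GB.B3.SeamQ

set_option autoImplicit false
set_option linter.unusedSectionVars false
set_option linter.style.haveILetI false

noncomputable section

open scoped MatrixGroups TensorProduct
open CongruenceSubgroup Matrix Matrix.SpecialLinearGroup ModularCurve.Period CuspForm
open Fermat.Agent.S16_helper49 Fermat.Agent.GM.B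
open Fermat.Agent.GB.B3 Fermat.Agent.GB.B3.EisGamma0 Fermat.Agent.GB.B3.GamH
open Fermat.Agent.GJ.J2.ZStruct Fermat.Agent.GJ.J2.Lat Fermat.Agent.GJ.J2.LatAct
open Fermat.Agent.GB.B4.Twist Fermat.Agent.GB.B4.Twist.Chain Fermat.Agent.GB.B4.Twist.ChainD
open Fermat.Agent.GB.B4.Twist.Asm Fermat.Agent.GB.B4.Twist.Coeff Fermat.Agent.GB.B4.Twist.TwR
open Fermat.Agent.GB.B4.Twist.DPlug
open Fermat.Agent.GB.B4.Datum.ImageRing Fermat.Agent.GJ.Tate Fermat.Agent.GJ.Tate.Lim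
open Fermat.Agent.GB.B10.L.ThetaNew
open Fermat.Agent.GB.B3.TWLevel Fermat.Agent.GB.B3.RealLevel
  Fermat.Agent.GB.B3.HeckeActH Fermat.Agent.GB.B3.TWChars Fermat.Agent.GB.B3.FinalTW
  Fermat.Agent.GB.B3.Tower Fermat.Agent.GB.B3.StepInst Fermat.Agent.GB.B3.LocTransport
  Fermat.Agent.GB.B3.ChiLevelMulti Fermat.Agent.GB.B3.Final
open Fermat.Agent.GB.B7.UqSq
open Fermat.Agent.GB.B4.Datum.TQFields Fermat.Agent.GB.B4.Datum.TQCompat

namespace Fermat.Agent.GB.B10.L.AnnPlug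

/-! ### abstract descent to the quotients of the big level -/

section Quot

variable {O : Type} [CommRing O] [IsLocalRing O] {𝕋 : Type} [CommRing 𝕋] [Algebra O 𝕋]
  {M0 : Type} [AddCommGroup M0] [Module O M0] {act0 : 𝕋 →ₐ[O] Module.End O M0}
  {s k : ℕ} {N : Fin (s + k) → ℕ} (B : FreeLevel O 𝕋 M0 act0 (s + k) N)
  {A : Type} [CommRing A] (twP : A →+* Module.End O B.M)
  (hcomm : ∀ t i, twP t * B.D i = B.D i * twP t)
  (Kills : O ⊗[ℤ] A → Prop)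
  (hAnn : ∀ t₀ : O ⊗[ℤ] A, Kills t₀ → ∀ x : B.M, twO O twP t₀ x = 0)

include hAnn in
/-- (ANN) passes from the big module to the quotient, for any action given by the `fmk` formula -/
theorem hAnn_of_fmk (c' : Fin s → O) (tw₁ : A →+* Module.End O (FamCoinv (frD B) c'))
    (hfmk : ∀ (t : A) (x : B.M), tw₁ t (fmk (frD B) c' x) = fmk (frD B) c' (twP t x)) :
    ∀ t₀ : O ⊗[ℤ] A, Kills t₀ → ∀ m : FamCoinv (frD B) c', twO O tw₁ t₀ m = 0 := by
  intro t₀ ht₀ m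
  have hsurj := fmk_surjective (frD B) c' m
  refine Exists.elim hsurj fun x hx => ?_
  have h1 := AnnNew.twO_intertwine twP tw₁ (famRange (frD B) c').mkQ
    (fun t x => (hfmk t x).symm) t₀ x
  rw [hAnn t₀ ht₀ x, map_zero] at h1
  rw [← hx]
  exact h1.symm

include hAnn in
/-- (ANN) passes from the big module to `quotTw` -/
theorem hAnn_quotTw (c' : Fin s → O) :
    ∀ t₀ : O ⊗[ℤ] A, Kills t₀ →
      ∀ m : FamCoinv (frD B) c', twO O (quotTw B twP hcomm c') t₀ m = 0 :=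
  hAnn_of_fmk B twP Kills hAnn c' (quotTw B twP hcomm c') (fun _ _ => rfl)

variable (hN : ∀ i, 0 < N i) (ϖ : O) (c : Fin s → O)
  (hc : ∀ v, c v ^ N (Fin.castAdd k v) = 1) (hc1 : ∀ v, (1 : O) - c v ∈ Ideal.span {ϖ})

include hAnn in
/-- (ANN) for two actions given by the `fmk` formulas ⟹ (ANN) for their product on
`M¹_Q × M^χ_Q` -/
theorem hAnn_prod_of_fmk
    (tw₁ : A →+* Module.End O (twLevelDataMultiSelf B hN ϖ c hc hc1).L1.M)
    (twχ : A →+* Module.End O (twLevelDataMultiSelf B hN ϖ c hc hc1).Lχ.M)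
    (hfmk₁ : ∀ (t : A) (x : B.M),
      tw₁ t (fmk (frD B) (fun _ => 1) x) = fmk (frD B) (fun _ => 1) (twP t x))
    (hfmkχ : ∀ (t : A) (x : B.M), twχ t (fmk (frD B) c x) = fmk (frD B) c (twP t x)) :
    ∀ t₀ : O ⊗[ℤ] A, Kills t₀ →
      ∀ m : (twLevelDataMultiSelf B hN ϖ c hc hc1).L1.M ×
          (twLevelDataMultiSelf B hN ϖ c hc hc1).Lχ.M,
        twO O (prodTw O tw₁ twχ) t₀ m = 0 := by
  intro t₀ ht₀ m
  rw [twO_prodTw_apply]
  exact Prod.mk_eq_zero.mpr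
    ⟨hAnn_of_fmk B twP Kills hAnn (fun _ => 1) tw₁ hfmk₁ t₀ ht₀ m.1,
      hAnn_of_fmk B twP Kills hAnn c twχ hfmkχ t₀ ht₀ m.2⟩

include hAnn in
/-- **(ANN) for `prodTw O tw1 twChi`** on `M¹_Q × M^χ_Q` from (ANN) on the big module -/
theorem hAnn_big :
    ∀ t₀ : O ⊗[ℤ] A, Kills t₀ →
      ∀ m : (twLevelDataMultiSelf B hN ϖ c hc hc1).L1.M ×
          (twLevelDataMultiSelf B hN ϖ c hc hc1).Lχ.M,
        twO O (prodTw O (tw1 B twP hcomm hN ϖ c hc hc1) (twChi B twP hcomm hN ϖ c hc hc1))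
          t₀ m = 0 :=
  hAnn_prod_of_fmk B twP Kills hAnn hN ϖ c hc hc1 _ _ (fun _ _ => rfl) (fun _ _ => rfl)

end Quot

/-! ### (HC) over the tower, for a character propositionally equal to the inflated one -/

section Transport

variable {N q p N'' : ℕ} [NeZero N] [NeZero (N * q)] [Fact q.Prime] [hpF : Fact p.Prime]
  {Kk : ℕ} {r e N' : ℕ → ℕ}
variable (Sy : Symbols (N * q)) (hrN : ∀ j, Sy.r j ∣ N) (hqN : ¬ q ∣ N)
variable {O : Type} [CommRing O] [IsDomain O] [IsPrincipalIdealRing O] [IsLocalRing O]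
  [IsAdicComplete (IsLocalRing.maximalIdeal O) O] [Module.IsTorsionFree ℤ O]
variable (𝔪 : Ideal (Sy.𝕋 O)) [𝔪.IsMaximal]
variable (H₀ : PrimeData N p Kk r e N') {ϖ : O} {s0 : Sy.ι₁}
  (h₀ : Plug.Hyp (restrict Sy hrN) 𝔪 p ϖ s0)
variable {K : Type*} [Field K] [Algebra O K]

include h₀ hqN in
/-- **(HC) over the tower**, for any `θ` equal to the inflated character -/
theorem hcores_of_tower_eq
    (hbase : ∀ y : Additive (Gamma0 N) →+ O,
      IsLoc (HeckeActH.act0 (restrict Sy hrN) O) 𝔪 y → y = 0) (j : ℕ)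
    (θ : (ZMod (N * q))ˣ →* (∀ i : Fin j, Δs p e i))
    (hθeq : θ = thQ (Theta (Δs p e) H₀.psi j) q)
    (hθ : Function.Surjective θ)
    (L : List (TwDatum K (∀ i : Fin j, Δs p e i)))
    (h' : Adm (N * q) θ L) (hqN'' : ¬ q ∣ N'')
    (rep' : (∀ i : Fin j, Δs p e i) → Gamma0 (chainLevel (N * q) L))
    (hrep' : ∀ δ, chi (chainθ (N * q) θ L) (rep' δ) = δ)
    (hlev : chainLevel (N * q) L = N'' * q) (ε : (∀ i : Fin j, Δs p e i) →* Kˣ)
    {v : Additive (GamH.GammaH θ) →+ O} (hv : IsLoc (actH Sy O θ) 𝔪 v) :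
    cores K hqN'' (castHom hlev K (chainD (N * q) θ L h' rep' hrep'
        (DiaRep.comp θ hθ ε (extK (K := K) (GammaH θ) v)))) = 0 ∧
      coresD K hqN'' (castHom hlev K (chainD (N * q) θ L h' rep' hrep'
        (DiaRep.comp θ hθ ε (extK (K := K) (GammaH θ) v)))) = 0 := by
  subst hθeq
  exact Fermat.Agent.GB.B10.L2.HCores.hcores_of_tower Sy hrN hqN 𝔪 H₀ h₀ hbase j hθ L h' hqN''
    rep' hrep' hlev ε hv

end Transport

/-! ### (ANN) at the big level of B3 -/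

section Plug

/-- local instance (Prop-valued class) -/
local instance factPrimeOff10 {S : Set ℕ} (l : PrimesOff S) : Fact (l.1 : ℕ).Prime := ⟨l.1.2⟩

variable {Nl p : ℕ} [NeZero Nl] [hpF : Fact p.Prime] [NeZero (Nl * p)] {Kk : ℕ}
  {r e N' N'₀ : ℕ → ℕ}
variable (Sy : Symbols (Nl * p)) (hrN : ∀ j, Sy.r j ∣ Nl) (hpNl : ¬ p ∣ Nl)
variable {O : Type} [CommRing O] [IsDomain O] [IsPrincipalIdealRing O] [IsLocalRing O]
  [IsAdicComplete (IsLocalRing.maximalIdeal O) O] [Module.IsTorsionFree ℤ O] [CharZero O]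
variable (𝔪 : Ideal (Sy.𝕋 O)) [𝔪.IsMaximal]
variable (H : PrimeData (Nl * p) p Kk r e N') (H₀ : PrimeData Nl p Kk r e N'₀)
  {ϖ : O} {s0 : Sy.ι₁} (h : Plug.Hyp Sy 𝔪 p ϖ s0)
variable (hbase : ∀ y : Additive (Gamma0 Nl) →+ O,
    IsLoc (HeckeActH.act0 (restrict Sy hrN) O) 𝔪 y → y = 0)
variable (j : ℕ) (hj : j ≤ Kk) (hp2 : p ≠ 2)
  {N₀ : ℕ} [NeZero N₀] [NeZero (N₀ * p)] (hN₀ : N₀ * p = Nl * p * ∏ i : Fin j, r i)
  (hpN₀ : ¬ p ∣ N₀)
  (S : Finset ℕ) (hpS : p ∈ S) (hNS : ∀ q : ℕ, q.Prime → q ∣ N₀ * p → q ∈ S)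
  (dℓ : PrimesOff (↑S : Set ℕ) → Gamma0 (Nl * p))
  (hdℓ : ∀ (l : PrimesOff (↑S : Set ℕ)) (u : (ZMod (Nl * p))ˣ),
    (u : ZMod (Nl * p)) = ((l.1 : ℕ) : ZMod (Nl * p)) →
    chi (Theta (Δs p e) H.psi j) (dℓ l) ^ 2 * Theta (Δs p e) H.psi j u = 1)
  (tw : ↥(heckeAlgebra (N₀ * p) 2 (↑S : Set ℕ)) →+*
    Module.End O ↥(parabolicHoms O (GammaH (Theta (Δs p e) H.psi j)) O))
  (htw : ∀ (l : PrimesOff (↑S : Set ℕ))
      (v : ↥(parabolicHoms O (GammaH (Theta (Δs p e) H.psi j)) O)),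
    ((tw (formsGenS (N₀ * p) (↑S : Set ℕ) l) v :
        ↥(parabolicHoms O (GammaH (Theta (Δs p e) H.psi j)) O)) :
        Additive (GammaH (Theta (Δs p e) H.psi j)) →+ O)
      = diaH (Theta (Δs p e) H.psi j) O (dℓ l) (GamH.TH (Theta (Δs p e) H.psi j) O
          (not_dvd_level (↑S : Set ℕ) (Ann.hS_of_hNS S hNS) (Dvd.intro _ hN₀.symm) l)
          (v : Additive (GammaH (Theta (Δs p e) H.psi j)) →+ O)))
  (hpar : ∀ x : (Plug.bigLevel Sy 𝔪 H h j).M,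
    (Plug.bigReal Sy 𝔪 H h j).ι x ∈ parabolicHoms O (GammaH (Theta (Δs p e) H.psi j)) O)
  (twP : ↥(heckeAlgebra (N₀ * p) 2 (↑S : Set ℕ)) →+*
    Module.End O (Plug.bigLevel Sy 𝔪 H h j).M)
  (hιP : ∀ (t : ↥(heckeAlgebra (N₀ * p) 2 (↑S : Set ℕ))) (m : (Plug.bigLevel Sy 𝔪 H h j).M),
    (Plug.bigReal Sy 𝔪 H h j).ι (twP t m) =
      ((tw t ⟨(Plug.bigReal Sy 𝔪 H h j).ι m, hpar m⟩ :
        ↥(parabolicHoms O (GammaH (Theta (Δs p e) H.psi j)) O)) :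
        Additive (GammaH (Theta (Δs p e) H.psi j)) →+ O))

include H₀ hpNl hbase hj hp2 hdℓ htw hιP in
/-- **(ANN) on the big level `P_Q` of B3**, `p`-new branch: every `t₀` killing `O ⊗ LamNew` kills
`(Plug.bigLevel Sy 𝔪 H h j).M` through `twP`. -/
theorem hAnn_twP_new :
    ∀ t₀ : O ⊗[ℤ] ↥(heckeAlgebra (N₀ * p) 2 (↑S : Set ℕ)),
      (∀ (a : O),
        ∀ x ∈ (LamNew hpN₀ : AddSubgroup (KumLevelHecke.levelData p (N₀ * p) hpS hNS).Λ),
        (KumLevelHecke.levelData p (N₀ * p) hpS hNS).heckeTensor O t₀ (a ⊗ₜ[ℤ] x) = 0) →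
      ∀ x : (Plug.bigLevel Sy 𝔪 H h j).M, twO O twP t₀ x = 0 := by
  classical
  letI : Fintype ((∀ i : Fin j, Δs p e i) →* (AlgebraicClosure (FractionRing O))ˣ) :=
    Fintype.ofFinite _
  have hinj : Function.Injective (algebraMap O (AlgebraicClosure (FractionRing O))) := by
    rw [IsScalarTower.algebraMap_eq O (FractionRing O) (AlgebraicClosure (FractionRing O))]
    exact (algebraMap (FractionRing O) (AlgebraicClosure (FractionRing O))).injective.comp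
      (IsFractionRing.injective O (FractionRing O))
  have hp : p.Prime := hpF.out
  have hNN' : Nl * p ∣ N₀ * p := Dvd.intro _ hN₀.symm
  obtain ⟨hadm, hlev, hsq, hnd, hψ, hν, hc⟩ := primeData_hyps H hp hp2 j hj hN₀ (↑S : Set ℕ)
    (Ann.hS_of_hNS S hNS) dℓ hdℓ (AlgebraicClosure (FractionRing O))
  have hθ : Function.Surjective (Theta (Δs p e) H.psi j) :=
    Fermat.Agent.GB.B4.Twist.TwInst.Theta_surjective H j hj
  haveI hNZ : ∀ ε, NeZero (chainLevel (Nl * p)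
      (LεPD H j hj (AlgebraicClosure (FractionRing O)) ε)) := fun ε => by
    rw [hlev ε]; infer_instance
  have hsurj : ∀ ε, Function.Surjective (chainθ (Nl * p) (Theta (Δs p e) H.psi j)
      (LεPD H j hj (AlgebraicClosure (FractionRing O)) ε)) := by
    intro ε
    rw [chainθ_eq]
    exact hθ.comp (ZMod.unitsMap_surjective _)
  choose rep' hrep' using fun ε => exists_rep (chainθ (Nl * p) (Theta (Δs p e) H.psi j)
    (LεPD H j hj (AlgebraicClosure (FractionRing O)) ε)) (hsurj ε)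
  refine AnnNew.hAnn_lamNew (Theta (Δs p e) H.psi j) hθ S hpS hNS hNN' hinj
    (LεPD H j hj (AlgebraicClosure (FractionRing O))) dℓ hadm hlev rep' hrep' hsq hnd hψ hν hc
    tw htw hpN₀ twP
    (LinearMap.codRestrict (parabolicHoms O (GammaH (Theta (Δs p e) H.psi j)) O)
      (Plug.bigReal Sy 𝔪 H h j).ι hpar) ?_ ?_ ?_
  · intro a b hab
    exact (Plug.bigReal Sy 𝔪 H h j).inj (congrArg Subtype.val hab)
  · intro t m
    apply Subtype.ext
    exact hιP t m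
  · intro m ε
    have hv : IsLoc (actH Sy O (Theta (Δs p e) H.psi j)) 𝔪 ((Plug.bigReal Sy 𝔪 H h j).ι m) :=
      ((Plug.bigReal Sy 𝔪 H h j).range _).1 ⟨m, rfl⟩
    exact hcores_of_tower_eq Sy hrN hpNl 𝔪 H₀
      (Fermat.Agent.GB.B3.SeamQ.hyp_restrict Sy hrN 𝔪 h) hbase j (Theta (Δs p e) H.psi j)
      (Theta_eq_infl H H₀ j) hθ (LεPD H j hj (AlgebraicClosure (FractionRing O)) ε) (hadm ε)
      hpN₀ (rep' ε) (hrep' ε) (hlev ε) ε hv

end Plug

/-! ### (ANN) on `M¹_Q × M^χ_Q` -/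

section PlugTW

/-- local instance (Prop-valued class) -/
local instance factPrimeOff11 {S : Set ℕ} (l : PrimesOff S) : Fact (l.1 : ℕ).Prime := ⟨l.1.2⟩

variable {Nl p : ℕ} [NeZero Nl] [hpF : Fact p.Prime] [NeZero (Nl * p)] {Kk : ℕ}
  {r e N' N'₀ : ℕ → ℕ}
variable (Sy : Symbols (Nl * p)) (hrN : ∀ j, Sy.r j ∣ Nl) (hpNl : ¬ p ∣ Nl)
variable {O : Type} [CommRing O] [IsDomain O] [IsPrincipalIdealRing O] [IsLocalRing O]
  [IsAdicComplete (IsLocalRing.maximalIdeal O) O] [Module.IsTorsionFree ℤ O] [CharZero O]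
variable (𝔪 : Ideal (Sy.𝕋 O)) [𝔪.IsMaximal]
variable (H : PrimeData (Nl * p) p Kk r e N') (H₀ : PrimeData Nl p Kk r e N'₀)
  {ϖ : O} {s0 : Sy.ι₁} (h : Plug.Hyp Sy 𝔪 p ϖ s0)
variable (hbase : ∀ y : Additive (Gamma0 Nl) →+ O,
    IsLoc (HeckeActH.act0 (restrict Sy hrN) O) 𝔪 y → y = 0)
variable (s k : ℕ) (c : Fin s → O) (hc : ∀ v : Fin s, c v ^ p ^ e (s + k - 1 - v) = 1)
  (hc1 : ∀ v, (1 : O) - c v ∈ Ideal.span {ϖ})
variable (hj : s + k ≤ Kk) (hp2 : p ≠ 2)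
  {N₀ : ℕ} [NeZero N₀] [NeZero (N₀ * p)] (hN₀ : N₀ * p = Nl * p * ∏ i : Fin (s + k), r i)
  (hpN₀ : ¬ p ∣ N₀)
  (S : Finset ℕ) (hpS : p ∈ S) (hNS : ∀ q : ℕ, q.Prime → q ∣ N₀ * p → q ∈ S)
  (dℓ : PrimesOff (↑S : Set ℕ) → Gamma0 (Nl * p))
  (hdℓ : ∀ (l : PrimesOff (↑S : Set ℕ)) (u : (ZMod (Nl * p))ˣ),
    (u : ZMod (Nl * p)) = ((l.1 : ℕ) : ZMod (Nl * p)) →
    chi (Theta (Δs p e) H.psi (s + k)) (dℓ l) ^ 2 * Theta (Δs p e) H.psi (s + k) u = 1)
  (tw : ↥(heckeAlgebra (N₀ * p) 2 (↑S : Set ℕ)) →+*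
    Module.End O ↥(parabolicHoms O (GammaH (Theta (Δs p e) H.psi (s + k))) O))
  (htw : ∀ (l : PrimesOff (↑S : Set ℕ))
      (v : ↥(parabolicHoms O (GammaH (Theta (Δs p e) H.psi (s + k))) O)),
    ((tw (formsGenS (N₀ * p) (↑S : Set ℕ) l) v :
        ↥(parabolicHoms O (GammaH (Theta (Δs p e) H.psi (s + k))) O)) :
        Additive (GammaH (Theta (Δs p e) H.psi (s + k))) →+ O)
      = diaH (Theta (Δs p e) H.psi (s + k)) O (dℓ l) (GamH.TH (Theta (Δs p e) H.psi (s + k)) O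
          (not_dvd_level (↑S : Set ℕ) (Ann.hS_of_hNS S hNS) (Dvd.intro _ hN₀.symm) l)
          (v : Additive (GammaH (Theta (Δs p e) H.psi (s + k))) →+ O)))
  (hpar : ∀ x : (Plug.bigLevel Sy 𝔪 H h (s + k)).M,
    (Plug.bigReal Sy 𝔪 H h (s + k)).ι x
      ∈ parabolicHoms O (GammaH (Theta (Δs p e) H.psi (s + k))) O)
  (twP : ↥(heckeAlgebra (N₀ * p) 2 (↑S : Set ℕ)) →+*
    Module.End O (Plug.bigLevel Sy 𝔪 H h (s + k)).M)
  (hιP : ∀ (t : ↥(heckeAlgebra (N₀ * p) 2 (↑S : Set ℕ)))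
      (m : (Plug.bigLevel Sy 𝔪 H h (s + k)).M),
    (Plug.bigReal Sy 𝔪 H h (s + k)).ι (twP t m) =
      ((tw t ⟨(Plug.bigReal Sy 𝔪 H h (s + k)).ι m, hpar m⟩ :
        ↥(parabolicHoms O (GammaH (Theta (Δs p e) H.psi (s + k))) O)) :
        Additive (GammaH (Theta (Δs p e) H.psi (s + k))) →+ O))
  (hcomm : ∀ t i, twP t * (Plug.bigLevel Sy 𝔪 H h (s + k)).D i
    = (Plug.bigLevel Sy 𝔪 H h (s + k)).D i * twP t)

include H₀ hpNl hbase hj hp2 hdℓ htw hιP in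
/-- **the module-level (ANN) on `M¹_Q × M^χ_Q`**, `p`-new branch — the binder `hAnn` of
`GalPkgSOImg.exists_galRep_TQ_strict` / `StrictQNew.exists_galRep_TQ_strict_new` for
`tw := prodTw O tw1 twChi`, `M := (Plug.tw …).L1.M × (Plug.tw …).Lχ.M`, `Λ' := LamNew hpN₀`. -/
theorem hAnn_plug_new :
    ∀ t₀ : O ⊗[ℤ] ↥(heckeAlgebra (N₀ * p) 2 (↑S : Set ℕ)),
      (∀ (a : O),
        ∀ x ∈ (LamNew hpN₀ : AddSubgroup (KumLevelHecke.levelData p (N₀ * p) hpS hNS).Λ),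
        (KumLevelHecke.levelData p (N₀ * p) hpS hNS).heckeTensor O t₀ (a ⊗ₜ[ℤ] x) = 0) →
      ∀ m : (Plug.tw Sy 𝔪 H h s k c hc hc1).L1.M × (Plug.tw Sy 𝔪 H h s k c hc hc1).Lχ.M,
        twO O (prodTw O
          (tw1 (Plug.bigLevel Sy 𝔪 H h (s + k)) twP hcomm (Nfun_pos hpF.out e (s + k)) ϖ c
            (Plug.hc_Nfun s k c hc) hc1)
          (twChi (Plug.bigLevel Sy 𝔪 H h (s + k)) twP hcomm (Nfun_pos hpF.out e (s + k)) ϖ c
            (Plug.hc_Nfun s k c hc) hc1)) t₀ m = 0 :=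
  hAnn_big (Plug.bigLevel Sy 𝔪 H h (s + k)) twP hcomm _
    (hAnn_twP_new Sy hrN hpNl 𝔪 H H₀ h hbase (s + k) hj hp2 hN₀ hpN₀ S hpS hNS dℓ hdℓ tw htw hpar
      twP hιP)
    (Nfun_pos hpF.out e (s + k)) ϖ c (Plug.hc_Nfun s k c hc) hc1

end PlugTW

end Fermat.Agent.GB.B10.L.AnnPlug

end
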