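/-
GATE-B / GB-PNEW, leaf (ANN), level-variable forms (helper44): **`AnnPlug.hAnn_twP_new` /
`AnnPlug.hAnn_plug_new` for a level `N` given as a VARIABLE with an equation `hN : N = Nl * p`.**

The named objects of the provider (`G1.TWSet.N = M * ∏ qv i`, `Q.Sy : Symbols Q.N`, …) live at a
level which is a DEFINITION, not syntactically of the form `Nl * p`; the theorems of `AnnPlug` are
stated at the literal `Nl * p` (as are helper15's / helper95's degeneracy lemmas).  Here the level is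
a variable `N` with `hN : N = Nl * p` (`subst` inside), so that the consumer instantiates
`N := Q.N` and never casts a dependent object.  The only object that must be seen at level `Nl * p`
in a STATEMENT is the symbol system in the binder `hbase`: `castSy hN Sy` transports only the two
proof fields of `Sy` (its `ι₁ ι₂ ℓ r` are those of `Sy`, so `(castSy hN Sy).𝕋 O = Sy.𝕋 O` by `rfl`).
-/
import Fermat.Agent.GB.B10.L.AnnPlug

set_option autoImplicit false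
set_option linter.unusedSectionVars false
set_option linter.style.haveILetI false

noncomputable section

open scoped MatrixGroups TensorProduct
open CongruenceSubgroup Matrix Matrix.SpecialLinearGroup ModularCurve.Period CuspForm
open Fermat.Agent.S16_helper49 Fermat.Agent.GM.B
open Fermat.Agent.GB.B3 Fermat.Agent.GB.B3.EisGamma0 Fermat.Agent.GB.B3.GamH
open Fermat.Agent.GJ.J2.ZStruct Fermat.Agent.GJ.J2.Lat Fermat.Agent.GJ.J2.LatAct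
open Fermat.Agent.GB.B4.Twist Fermat.Agent.GB.B4.Twist.Chain Fermat.Agent.GB.B4.Twist.ChainD
open Fermat.Agent.GB.B4.Twist.Asm Fermat.Agent.GB.B4.Twist.Coeff Fermat.Agent.GB.B4.Twist.TwR
open Fermat.Agent.GB.B4.Datum.ImageRing Fermat.Agent.GJ.Tate Fermat.Agent.GJ.Tate.Lim
open Fermat.Agent.GB.B10.L.ThetaNew
open Fermat.Agent.GB.B3.TWLevel Fermat.Agent.GB.B3.RealLevel
  Fermat.Agent.GB.B3.HeckeActH Fermat.Agent.GB.B3.TWChars Fermat.Agent.GB.B3.FinalTW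
  Fermat.Agent.GB.B3.Tower Fermat.Agent.GB.B3.StepInst Fermat.Agent.GB.B3.LocTransport
  Fermat.Agent.GB.B3.ChiLevelMulti Fermat.Agent.GB.B3.Final
open Fermat.Agent.GB.B4.Datum.TQFields Fermat.Agent.GB.B4.Datum.TQCompat

namespace Fermat.Agent.GB.B10.L.AnnPlugEq

/-- transport of a symbol system along an equation of levels: the data `ι₁ ι₂ ℓ r` are unchanged,
only the two divisibility proofs are transported -/
def castSy {N N' : ℕ} (hN : N = N') (Sy : Symbols N) : Symbols N' where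
  ι₁ := Sy.ι₁
  ι₂ := Sy.ι₂
  ℓ := Sy.ℓ
  hℓ := Sy.hℓ
  hℓN := fun i => hN ▸ Sy.hℓN i
  r := Sy.r
  hr := Sy.hr
  hrN := fun j => hN ▸ Sy.hrN j

theorem castSy_rfl {N : ℕ} (Sy : Symbols N) : castSy rfl Sy = Sy := rfl

/-- local instance (Prop-valued class) -/
local instance factPrimeOff12 {S : Set ℕ} (l : PrimesOff S) : Fact (l.1 : ℕ).Prime := ⟨l.1.2⟩

section BigLevel

variable {N Nl p : ℕ} [NeZero N] [NeZero Nl] [hpF : Fact p.Prime] (hN : N = Nl * p) {Kk : ℕ}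
  {r e N' N'₀ : ℕ → ℕ}
variable (Sy : Symbols N) (hrN : ∀ j, Sy.r j ∣ Nl) (hpNl : ¬ p ∣ Nl)
variable {O : Type} [CommRing O] [IsDomain O] [IsPrincipalIdealRing O] [IsLocalRing O]
  [IsAdicComplete (IsLocalRing.maximalIdeal O) O] [Module.IsTorsionFree ℤ O] [CharZero O]
variable (𝔪 : Ideal (Sy.𝕋 O)) [𝔪.IsMaximal]
variable (H : PrimeData N p Kk r e N') (H₀ : PrimeData Nl p Kk r e N'₀)
  {ϖ : O} {s0 : Sy.ι₁} (h : Plug.Hyp Sy 𝔪 p ϖ s0)
variable (hbase : ∀ y : Additive (Gamma0 Nl) →+ O,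
    IsLoc (HeckeActH.act0 (restrict (castSy hN Sy) hrN) O) 𝔪 y → y = 0)
variable (j : ℕ) (hj : j ≤ Kk) (hp2 : p ≠ 2)
  {N₀ : ℕ} [NeZero N₀] [NeZero (N₀ * p)] (hN₀ : N₀ * p = N * ∏ i : Fin j, r i)
  (hpN₀ : ¬ p ∣ N₀)
  (S : Finset ℕ) (hpS : p ∈ S) (hNS : ∀ q : ℕ, q.Prime → q ∣ N₀ * p → q ∈ S)
  (dℓ : PrimesOff (↑S : Set ℕ) → Gamma0 N)
  (hdℓ : ∀ (l : PrimesOff (↑S : Set ℕ)) (u : (ZMod N)ˣ),
    (u : ZMod N) = ((l.1 : ℕ) : ZMod N) →
    chi (Theta (Δs p e) H.psi j) (dℓ l) ^ 2 * Theta (Δs p e) H.psi j u = 1)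
  (tw : ↥(heckeAlgebra (N₀ * p) 2 (↑S : Set ℕ)) →+*
    Module.End O ↥(parabolicHoms O (GammaH (Theta (Δs p e) H.psi j)) O))
  (htw : ∀ (l : PrimesOff (↑S : Set ℕ))
      (v : ↥(parabolicHoms O (GammaH (Theta (Δs p e) H.psi j)) O)),
    ((tw (formsGenS (N₀ * p) (↑S : Set ℕ) l) v :
        ↥(parabolicHoms O (GammaH (Theta (Δs p e) H.psi j)) O)) :
        Additive (GammaH (Theta (Δs p e) H.psi j)) →+ O)
      = diaH (Theta (Δs p e) H.psi j) O (dℓ l) (GamH.TH (Theta (Δs p e) H.psi j) O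
          (not_dvd_level (↑S : Set ℕ) (Ann.hS_of_hNS S hNS) (Dvd.intro _ hN₀.symm) l)
          (v : Additive (GammaH (Theta (Δs p e) H.psi j)) →+ O)))
  (hpar : ∀ x : (Plug.bigLevel Sy 𝔪 H h j).M,
    (Plug.bigReal Sy 𝔪 H h j).ι x ∈ parabolicHoms O (GammaH (Theta (Δs p e) H.psi j)) O)
  (twP : ↥(heckeAlgebra (N₀ * p) 2 (↑S : Set ℕ)) →+*
    Module.End O (Plug.bigLevel Sy 𝔪 H h j).M)
  (hιP : ∀ (t : ↥(heckeAlgebra (N₀ * p) 2 (↑S : Set ℕ))) (m : (Plug.bigLevel Sy 𝔪 H h j).M),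
    (Plug.bigReal Sy 𝔪 H h j).ι (twP t m) =
      ((tw t ⟨(Plug.bigReal Sy 𝔪 H h j).ι m, hpar m⟩ :
        ↥(parabolicHoms O (GammaH (Theta (Δs p e) H.psi j)) O)) :
        Additive (GammaH (Theta (Δs p e) H.psi j)) →+ O))

include H₀ hpNl hbase hj hp2 hdℓ htw hιP in
/-- **(ANN) on the big level `P_Q` of B3**, `p`-new branch, level `N` with `hN : N = Nl * p`. -/
theorem hAnn_twP_new_of_eq :
    ∀ t₀ : O ⊗[ℤ] ↥(heckeAlgebra (N₀ * p) 2 (↑S : Set ℕ)),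
      (∀ (a : O),
        ∀ x ∈ (LamNew hpN₀ : AddSubgroup (KumLevelHecke.levelData p (N₀ * p) hpS hNS).Λ),
        (KumLevelHecke.levelData p (N₀ * p) hpS hNS).heckeTensor O t₀ (a ⊗ₜ[ℤ] x) = 0) →
      ∀ x : (Plug.bigLevel Sy 𝔪 H h j).M, twO O twP t₀ x = 0 := by
  subst hN
  exact AnnPlug.hAnn_twP_new Sy hrN hpNl 𝔪 H H₀ h hbase j hj hp2 hN₀ hpN₀ S hpS hNS dℓ hdℓ tw htw
    hpar twP hιP

include hpNl hbase hj hp2 hdℓ htw hιP in
/-- the same with the prime data at level `Nl` produced inside (`LocTransport.primeData_descend`):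
binder `hne : r i ≠ p` instead of `H₀`. -/
theorem hAnn_twP_new_of_eq' (hne : ∀ i, i < Kk → r i ≠ p) :
    ∀ t₀ : O ⊗[ℤ] ↥(heckeAlgebra (N₀ * p) 2 (↑S : Set ℕ)),
      (∀ (a : O),
        ∀ x ∈ (LamNew hpN₀ : AddSubgroup (KumLevelHecke.levelData p (N₀ * p) hpS hNS).Λ),
        (KumLevelHecke.levelData p (N₀ * p) hpS hNS).heckeTensor O t₀ (a ⊗ₜ[ℤ] x) = 0) →
      ∀ x : (Plug.bigLevel Sy 𝔪 H h j).M, twO O twP t₀ x = 0 := by
  subst hN
  exact AnnPlug.hAnn_twP_new Sy hrN hpNl 𝔪 H (primeData_descend hpF.out H hne) h hbase j hj hp2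
    hN₀ hpN₀ S hpS hNS dℓ hdℓ tw htw hpar twP hιP

end BigLevel

section TW

variable {N Nl p : ℕ} [NeZero N] [NeZero Nl] [hpF : Fact p.Prime] (hN : N = Nl * p) {Kk : ℕ}
  {r e N' N'₀ : ℕ → ℕ}
variable (Sy : Symbols N) (hrN : ∀ j, Sy.r j ∣ Nl) (hpNl : ¬ p ∣ Nl)
variable {O : Type} [CommRing O] [IsDomain O] [IsPrincipalIdealRing O] [IsLocalRing O]
  [IsAdicComplete (IsLocalRing.maximalIdeal O) O] [Module.IsTorsionFree ℤ O] [CharZero O]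
variable (𝔪 : Ideal (Sy.𝕋 O)) [𝔪.IsMaximal]
variable (H : PrimeData N p Kk r e N') (H₀ : PrimeData Nl p Kk r e N'₀)
  {ϖ : O} {s0 : Sy.ι₁} (h : Plug.Hyp Sy 𝔪 p ϖ s0)
variable (hbase : ∀ y : Additive (Gamma0 Nl) →+ O,
    IsLoc (HeckeActH.act0 (restrict (castSy hN Sy) hrN) O) 𝔪 y → y = 0)
variable (s k : ℕ) (c : Fin s → O) (hc : ∀ v : Fin s, c v ^ p ^ e (s + k - 1 - v) = 1)
  (hc1 : ∀ v, (1 : O) - c v ∈ Ideal.span {ϖ})
variable (hj : s + k ≤ Kk) (hp2 : p ≠ 2)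
  {N₀ : ℕ} [NeZero N₀] [NeZero (N₀ * p)] (hN₀ : N₀ * p = N * ∏ i : Fin (s + k), r i)
  (hpN₀ : ¬ p ∣ N₀)
  (S : Finset ℕ) (hpS : p ∈ S) (hNS : ∀ q : ℕ, q.Prime → q ∣ N₀ * p → q ∈ S)
  (dℓ : PrimesOff (↑S : Set ℕ) → Gamma0 N)
  (hdℓ : ∀ (l : PrimesOff (↑S : Set ℕ)) (u : (ZMod N)ˣ),
    (u : ZMod N) = ((l.1 : ℕ) : ZMod N) →
    chi (Theta (Δs p e) H.psi (s + k)) (dℓ l) ^ 2 * Theta (Δs p e) H.psi (s + k) u = 1)
  (tw : ↥(heckeAlgebra (N₀ * p) 2 (↑S : Set ℕ)) →+*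
    Module.End O ↥(parabolicHoms O (GammaH (Theta (Δs p e) H.psi (s + k))) O))
  (htw : ∀ (l : PrimesOff (↑S : Set ℕ))
      (v : ↥(parabolicHoms O (GammaH (Theta (Δs p e) H.psi (s + k))) O)),
    ((tw (formsGenS (N₀ * p) (↑S : Set ℕ) l) v :
        ↥(parabolicHoms O (GammaH (Theta (Δs p e) H.psi (s + k))) O)) :
        Additive (GammaH (Theta (Δs p e) H.psi (s + k))) →+ O)
      = diaH (Theta (Δs p e) H.psi (s + k)) O (dℓ l) (GamH.TH (Theta (Δs p e) H.psi (s + k)) O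
          (not_dvd_level (↑S : Set ℕ) (Ann.hS_of_hNS S hNS) (Dvd.intro _ hN₀.symm) l)
          (v : Additive (GammaH (Theta (Δs p e) H.psi (s + k))) →+ O)))
  (hpar : ∀ x : (Plug.bigLevel Sy 𝔪 H h (s + k)).M,
    (Plug.bigReal Sy 𝔪 H h (s + k)).ι x
      ∈ parabolicHoms O (GammaH (Theta (Δs p e) H.psi (s + k))) O)
  (twP : ↥(heckeAlgebra (N₀ * p) 2 (↑S : Set ℕ)) →+*
    Module.End O (Plug.bigLevel Sy 𝔪 H h (s + k)).M)
  (hιP : ∀ (t : ↥(heckeAlgebra (N₀ * p) 2 (↑S : Set ℕ)))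
      (m : (Plug.bigLevel Sy 𝔪 H h (s + k)).M),
    (Plug.bigReal Sy 𝔪 H h (s + k)).ι (twP t m) =
      ((tw t ⟨(Plug.bigReal Sy 𝔪 H h (s + k)).ι m, hpar m⟩ :
        ↥(parabolicHoms O (GammaH (Theta (Δs p e) H.psi (s + k))) O)) :
        Additive (GammaH (Theta (Δs p e) H.psi (s + k))) →+ O))
  (hcomm : ∀ t i, twP t * (Plug.bigLevel Sy 𝔪 H h (s + k)).D i
    = (Plug.bigLevel Sy 𝔪 H h (s + k)).D i * twP t)

include H₀ hpNl hbase hj hp2 hdℓ htw hιP in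
/-- **the module-level (ANN) on `M¹_Q × M^χ_Q`**, `p`-new branch, level `N` with
`hN : N = Nl * p` — the binder `hAnn` of `GalPkgSOImg.exists_galRep_TQ_strict`. -/
theorem hAnn_plug_new_of_eq :
    ∀ t₀ : O ⊗[ℤ] ↥(heckeAlgebra (N₀ * p) 2 (↑S : Set ℕ)),
      (∀ (a : O),
        ∀ x ∈ (LamNew hpN₀ : AddSubgroup (KumLevelHecke.levelData p (N₀ * p) hpS hNS).Λ),
        (KumLevelHecke.levelData p (N₀ * p) hpS hNS).heckeTensor O t₀ (a ⊗ₜ[ℤ] x) = 0) →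
      ∀ m : (Plug.tw Sy 𝔪 H h s k c hc hc1).L1.M × (Plug.tw Sy 𝔪 H h s k c hc hc1).Lχ.M,
        twO O (prodTw O
          (tw1 (Plug.bigLevel Sy 𝔪 H h (s + k)) twP hcomm (Nfun_pos hpF.out e (s + k)) ϖ c
            (Plug.hc_Nfun s k c hc) hc1)
          (twChi (Plug.bigLevel Sy 𝔪 H h (s + k)) twP hcomm (Nfun_pos hpF.out e (s + k)) ϖ c
            (Plug.hc_Nfun s k c hc) hc1)) t₀ m = 0 := by
  subst hN
  exact AnnPlug.hAnn_plug_new Sy hrN hpNl 𝔪 H H₀ h hbase s k c hc hc1 hj hp2 hN₀ hpN₀ S hpS hNS dℓ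
    hdℓ tw htw hpar twP hιP hcomm

include hpNl hbase hj hp2 hdℓ htw hιP in
/-- the same with the prime data at level `Nl` produced inside: binder `hne : r i ≠ p` instead of
`H₀`. -/
theorem hAnn_plug_new_of_eq' (hne : ∀ i, i < Kk → r i ≠ p) :
    ∀ t₀ : O ⊗[ℤ] ↥(heckeAlgebra (N₀ * p) 2 (↑S : Set ℕ)),
      (∀ (a : O),
        ∀ x ∈ (LamNew hpN₀ : AddSubgroup (KumLevelHecke.levelData p (N₀ * p) hpS hNS).Λ),
        (KumLevelHecke.levelData p (N₀ * p) hpS hNS).heckeTensor O t₀ (a ⊗ₜ[ℤ] x) = 0) →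
      ∀ m : (Plug.tw Sy 𝔪 H h s k c hc hc1).L1.M × (Plug.tw Sy 𝔪 H h s k c hc hc1).Lχ.M,
        twO O (prodTw O
          (tw1 (Plug.bigLevel Sy 𝔪 H h (s + k)) twP hcomm (Nfun_pos hpF.out e (s + k)) ϖ c
            (Plug.hc_Nfun s k c hc) hc1)
          (twChi (Plug.bigLevel Sy 𝔪 H h (s + k)) twP hcomm (Nfun_pos hpF.out e (s + k)) ϖ c
            (Plug.hc_Nfun s k c hc) hc1)) t₀ m = 0 := by
  subst hN
  exact AnnPlug.hAnn_plug_new Sy hrN hpNl 𝔪 H (primeData_descend hpF.out H hne) h hbase s k c hc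
    hc1 hj hp2 hN₀ hpN₀ S hpS hNS dℓ hdℓ tw htw hpar twP hιP hcomm

end TW

end Fermat.Agent.GB.B10.L.AnnPlugEq

end
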