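/-
GATE-B / GB-PNEW (ANN), call site at helper51's objects of record (helper44): **the `hAnn` binder of
`GalPkgSOImg.exists_galRep_TQ_strict` at `Q.tw1F`.**

`AnnPlugEq.hAnn_plug_new_of_eq'` instantiated at `N := Q.N = M * ∏ qv i`, `Nl := M / p * ∏ qv i`
(`p ∣ M`, `M` squarefree), `Sy := Q.Sy`, `𝔪 := Q.𝔪`, `H := Q.primeData …`, `h := Q.hyp hp3`,
`s := 1`, `k := g`, `c := fun _ => cq`: the side conditions `hN hrN hpNl hne` are discharged here.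
Open binders: `hbase` (no `𝔪`-primary class at level `Nl`), the twist data `dℓ hdℓ tw htw hpar`
(TwInst) and `twP hιP hcomm` (TwRestrictPlug.exists_twP).
-/
import Fermat.Agent.GB.B10.L.AnnPlugEq
import Fermat.Agent.GB.B9.ProviderFlat.G1One

set_option autoImplicit false
set_option linter.unusedSectionVars false
set_option linter.unusedVariables false

noncomputable section

open scoped MatrixGroups TensorProduct
open CongruenceSubgroup Matrix Matrix.SpecialLinearGroup ModularCurve.Period CuspForm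
open Fermat.Agent.S16_helper49 Fermat.Agent.GM.B Fermat.Agent.GM.EisClass
open Fermat.Agent.GB.B3 Fermat.Agent.GB.B3.EisGamma0 Fermat.Agent.GB.B3.GamH
open Fermat.Agent.GB.B4.Twist.Asm Fermat.Agent.GB.B4.Twist.TwFinal Fermat.Agent.GB.B4.Twist.TwInst
open Fermat.Agent.GB.B3.Tower Fermat.Agent.GB.B3.TWChars Fermat.Agent.GB.B3.FinalTW
open Fermat.Agent.GB.B3.TWLevel Fermat.Agent.GB.B3.Final
open Fermat.Agent.GB.B3.HeckeActH Fermat.Agent.GB.B3.StepInst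
open Fermat.Agent.GB.Setup.SetupPkg
open Fermat.Agent.GB.B9.ProviderFlat.G1 Fermat.Agent.GB.B9.ProviderFlat.H1
open Fermat.Agent.GB.B10.L.AnnPlugEq Fermat.Agent.GB.B10.L.AnnPlug
open Fermat.Agent.GJ.J2.ZStruct Fermat.Agent.GJ.J2.Lat Fermat.Agent.GB.B3.LocTransport Fermat.Agent.GB.B3.RealLevel
open Fermat.Agent.GB.B10.L.ThetaNew Fermat.Agent.GB.B3.ChiLevelMulti

namespace Fermat.Agent.GB.B10.L.AnnG1

/-- local instance (Prop-valued class) -/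
local instance factPrimeOff22 {S : Set ℕ} (l : PrimesOff S) : Fact (l.1 : ℕ).Prime := ⟨l.1.2⟩

variable {p : ℕ} [hpF : Fact p.Prime] {W : WeierstrassCurve ℤ}
  {hcard₁ : Nat.card (Submodule.torsionBy ℤ
    ((W.map (Int.castRingHom ℚ)).toAffine.baseChange (AlgebraicClosure ℚ)).Point p) = p ^ 2}
  {hker : GaloisFactorsThroughFiniteLevel
    (WeierstrassCurve.Affine.Point.galoisRepModuleEnd (K := AlgebraicClosure ℚ) ℚ
      (W.map (Int.castRingHom ℚ)) p)}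
  {M A : ℕ} {P : Pkg p W hcard₁ hker M A} {g n : ℕ} (Q : TWSet P g n)
  {q eq : ℕ} (hq : q.Prime) (hqM : q ∣ M) (hsq : Squarefree M) (hcong : p ^ eq ∣ q - 1)
  (hp3 : p ≠ 3) {cq : P.O} (hcq : cq ^ p ^ eq = 1)
  (hcq1 : (1 : P.O) - cq ∈ Ideal.span {P.ϖ})
  (hpM : p ∣ M) (hqp : q ≠ p)

/-- the level below `p` -/
def Nl : ℕ := M / p * ∏ i, Q.qv i

include hpM in
theorem hN : Q.N = Nl Q * p := by
  unfold Nl TWSet.N
  rw [Nat.mul_right_comm, Nat.div_mul_cancel hpM]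

theorem hrN : ∀ j, Q.Sy.r j ∣ Nl Q := fun j =>
  Dvd.dvd.mul_left (Finset.dvd_prod_of_mem _ (Finset.mem_univ (Q.iOf j))) _

include hsq hpM in
theorem hpNl : ¬ p ∣ Nl Q := by
  unfold Nl
  intro h
  rcases (Nat.Prime.dvd_mul hpF.out).mp h with h1 | h1
  · -- p ∣ M / p contradicts squarefree
    obtain ⟨c, hc⟩ := h1
    have h2 : p * p ∣ M := by
      refine ⟨c, ?_⟩
      have := Nat.div_mul_cancel hpM
      rw [hc] at this
      rw [← this]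
      ring
    exact hpF.out.one_lt.ne' (Nat.isUnit_iff.mp (hsq p h2))
  · obtain ⟨i, -, hi⟩ := (Prime.dvd_finsetProd_iff hpF.out.prime _).mp h1
    exact (Q.good i).2.2 ((Nat.prime_dvd_prime_iff_eq hpF.out (Q.prime i)).mp hi).symm

include hqp in
theorem hne : ∀ i, i < g + 1 → rOf Q.qv q i ≠ p := by
  intro i hi
  rcases Nat.lt_succ_iff_lt_or_eq.mp hi with h | h
  · rw [rOf_lt Q.qv q h]
    exact (Q.good _).2.2
  · subst h
    rw [rOf_eq]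
    exact hqp

include hpM in
theorem nl_ne_zero : Nl Q ≠ 0 := by
  intro h0
  have h := hN Q hpM
  rw [h0, zero_mul] at h
  exact Q.N_ne_zero h

variable {N₀ : ℕ} [NeZero N₀] [NeZero (N₀ * p)]
  (hN₀ : N₀ * p = Q.N * ∏ i : Fin (1 + g), rOf Q.qv q i) (hpN₀ : ¬ p ∣ N₀)
  (S : Finset ℕ) (hpS : p ∈ S) (hNS : ∀ q' : ℕ, q'.Prime → q' ∣ N₀ * p → q' ∈ S)
  (hbase : ∀ y : Additive (Gamma0 (Nl Q)) →+ P.O,
    IsLoc (HeckeActH.act0 (restrict (castSy (hN Q hpM) Q.Sy) (hrN Q)) P.O) Q.𝔪 y → y = 0)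
  (dℓ : PrimesOff (↑S : Set ℕ) → Gamma0 Q.N)
  (hdℓ : ∀ (l : PrimesOff (↑S : Set ℕ)) (u : (ZMod Q.N)ˣ),
    (u : ZMod Q.N) = ((l.1 : ℕ) : ZMod Q.N) →
    chi (Theta (Δs p (eOf g (n + 1) eq)) (Q.primeData hq hqM hsq hcong).psi (1 + g)) (dℓ l) ^ 2
      * Theta (Δs p (eOf g (n + 1) eq)) (Q.primeData hq hqM hsq hcong).psi (1 + g) u = 1)
  (tw : ↥(heckeAlgebra (N₀ * p) 2 (↑S : Set ℕ)) →+*
    Module.End P.O ↥(parabolicHoms P.O
      (GammaH (Theta (Δs p (eOf g (n + 1) eq)) (Q.primeData hq hqM hsq hcong).psi (1 + g))) P.O))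
  (htw : ∀ (l : PrimesOff (↑S : Set ℕ))
      (v : ↥(parabolicHoms P.O
        (GammaH (Theta (Δs p (eOf g (n + 1) eq)) (Q.primeData hq hqM hsq hcong).psi (1 + g))) P.O)),
    ((tw (formsGenS (N₀ * p) (↑S : Set ℕ) l) v :
        ↥(parabolicHoms P.O
          (GammaH (Theta (Δs p (eOf g (n + 1) eq)) (Q.primeData hq hqM hsq hcong).psi (1 + g))) P.O)) :
        Additive (GammaH (Theta (Δs p (eOf g (n + 1) eq))
          (Q.primeData hq hqM hsq hcong).psi (1 + g))) →+ P.O)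
      = diaH (Theta (Δs p (eOf g (n + 1) eq)) (Q.primeData hq hqM hsq hcong).psi (1 + g)) P.O (dℓ l)
          (GamH.TH (Theta (Δs p (eOf g (n + 1) eq)) (Q.primeData hq hqM hsq hcong).psi (1 + g)) P.O
            (not_dvd_level (↑S : Set ℕ) (Fermat.Agent.GB.B10.L.Ann.hS_of_hNS S hNS)
              (Dvd.intro _ hN₀.symm) l)
          (v : Additive (GammaH (Theta (Δs p (eOf g (n + 1) eq))
            (Q.primeData hq hqM hsq hcong).psi (1 + g))) →+ P.O)))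
  (hpar : ∀ x : (Plug.bigLevel Q.Sy Q.𝔪 (Q.primeData hq hqM hsq hcong) (Q.hyp hp3) (1 + g)).M,
    (Plug.bigReal Q.Sy Q.𝔪 (Q.primeData hq hqM hsq hcong) (Q.hyp hp3) (1 + g)).ι x
      ∈ parabolicHoms P.O
        (GammaH (Theta (Δs p (eOf g (n + 1) eq)) (Q.primeData hq hqM hsq hcong).psi (1 + g))) P.O)
  (twP : ↥(heckeAlgebra (N₀ * p) 2 (↑S : Set ℕ)) →+*
    Module.End P.O (Plug.bigLevel Q.Sy Q.𝔪 (Q.primeData hq hqM hsq hcong) (Q.hyp hp3) (1 + g)).M)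
  (hιP : ∀ (t : ↥(heckeAlgebra (N₀ * p) 2 (↑S : Set ℕ)))
      (m : (Plug.bigLevel Q.Sy Q.𝔪 (Q.primeData hq hqM hsq hcong) (Q.hyp hp3) (1 + g)).M),
    (Plug.bigReal Q.Sy Q.𝔪 (Q.primeData hq hqM hsq hcong) (Q.hyp hp3) (1 + g)).ι (twP t m) =
      ((tw t ⟨(Plug.bigReal Q.Sy Q.𝔪 (Q.primeData hq hqM hsq hcong) (Q.hyp hp3) (1 + g)).ι m,
          hpar m⟩ :
        ↥(parabolicHoms P.O (GammaH (Theta (Δs p (eOf g (n + 1) eq))
          (Q.primeData hq hqM hsq hcong).psi (1 + g))) P.O)) :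
        Additive (GammaH (Theta (Δs p (eOf g (n + 1) eq))
          (Q.primeData hq hqM hsq hcong).psi (1 + g))) →+ P.O))
  (hcomm : ∀ t i, twP t *
      (Plug.bigLevel Q.Sy Q.𝔪 (Q.primeData hq hqM hsq hcong) (Q.hyp hp3) (1 + g)).D i
    = (Plug.bigLevel Q.Sy Q.𝔪 (Q.primeData hq hqM hsq hcong) (Q.hyp hp3) (1 + g)).D i * twP t)

include hqp hpN₀ hbase hdℓ htw hιP in
/-- **the `hAnn` binder at helper51's objects of record `Q.tw1F`** (`p`-new branch) -/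
theorem hAnn_tw1F :
    ∀ t₀ : P.O ⊗[ℤ] ↥(heckeAlgebra (N₀ * p) 2 (↑S : Set ℕ)),
      (∀ (a : P.O),
        ∀ x ∈ (LamNew hpN₀ : AddSubgroup
          (Fermat.Agent.GB.B10.KumLevelHecke.levelData p (N₀ * p) hpS hNS).Λ),
        (Fermat.Agent.GB.B10.KumLevelHecke.levelData p (N₀ * p) hpS hNS).heckeTensor P.O t₀ (a ⊗ₜ[ℤ] x) = 0) →
      ∀ m : (Q.tw1F hq hqM hsq hcong hp3 hcq hcq1).L1.M × (Q.tw1F hq hqM hsq hcong hp3 hcq hcq1).Lχ.M,
        Fermat.Agent.GB.B4.Datum.ImageRing.twO P.O (Fermat.Agent.GB.B4.Datum.TQFields.prodTw P.O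
          (Fermat.Agent.GB.B4.Datum.TQCompat.tw1
            (Plug.bigLevel Q.Sy Q.𝔪 (Q.primeData hq hqM hsq hcong) (Q.hyp hp3) (1 + g)) twP hcomm
            (Nfun_pos hpF.out (eOf g (n + 1) eq) (1 + g)) P.ϖ (fun _ : Fin 1 => cq)
            (Plug.hc_Nfun 1 g (fun _ : Fin 1 => cq)
              (TWSet.hc_one (g := g) (eOf_eq (n + 1) eq) hcq)) (fun _ => hcq1))
          (Fermat.Agent.GB.B4.Datum.TQCompat.twChi
            (Plug.bigLevel Q.Sy Q.𝔪 (Q.primeData hq hqM hsq hcong) (Q.hyp hp3) (1 + g)) twP hcomm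
            (Nfun_pos hpF.out (eOf g (n + 1) eq) (1 + g)) P.ϖ (fun _ : Fin 1 => cq)
            (Plug.hc_Nfun 1 g (fun _ : Fin 1 => cq)
              (TWSet.hc_one (g := g) (eOf_eq (n + 1) eq) hcq)) (fun _ => hcq1))) t₀ m = 0 :=
  haveI : NeZero (Nl Q) := ⟨nl_ne_zero Q hpM⟩
  hAnn_plug_new_of_eq' (hN Q hpM) Q.Sy (hrN Q) (hpNl Q hsq hpM) Q.𝔪
    (Q.primeData hq hqM hsq hcong) (Q.hyp hp3) hbase 1 g (fun _ => cq)
    (TWSet.hc_one (g := g) (eOf_eq (n + 1) eq) hcq) (fun _ => hcq1) (by omega) P.hp2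
    hN₀ hpN₀ S hpS hNS dℓ hdℓ tw htw hpar twP hιP hcomm (hne Q hqp)

end Fermat.Agent.GB.B10.L.AnnG1

end
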