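/-
GATE-B / GB-PNEW (ANN) at helper51's objects of record, `hbase` DISCHARGED (helper44):

* `hbase_Nl_p` : the `𝔪_Q`-part of `Hom(Γ₀(M / p * ∏ qv), O)` vanishes when `W` is not residually
  modular of level `M / p` — helper52's `G7.TWSetG7.hbase_Nl` at `q := p` (that lemma only uses
  `q ∣ M`), in the `restrict (castSy …)` spelling of `AnnG1` (the two spellings are defeq);
* `hAnn_tw1F_of_not_resMod` : `AnnG1.hAnn_tw1F` with `hbase := hbase_Nl_p` — the `hAnn` binder of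
  `GalPkgSOImg.exists_galRep_TQ_strict` on `(Q.tw1F …).L1.M × (Q.tw1F …).Lχ.M`; binders left = the
  twist data `dℓ hdℓ tw htw hpar` (TwInst) and `twP hιP hcomm` (TwRestrictPlug.exists_twP) only.
-/
import Fermat.Agent.GB.B10.L.AnnG1
import Fermat.Agent.GB.B9.ProviderFlat.G7

set_option autoImplicit false
set_option linter.unusedSectionVars false
set_option linter.unusedVariables false

noncomputable section

open scoped MatrixGroups TensorProduct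
open CongruenceSubgroup Matrix Matrix.SpecialLinearGroup ModularCurve.Period CuspForm
open Fermat.Agent.S16_helper49 Fermat.Agent.GM.B Fermat.Agent.GM.EisClass
open Fermat.Agent.GB.B3 Fermat.Agent.GB.B3.EisGamma0 Fermat.Agent.GB.B3.GamH
open Fermat.Agent.GB.B4.Twist.Asm Fermat.Agent.GB.B4.Twist.TwFinal Fermat.Agent.GB.B4.Twist.TwInst
open Fermat.Agent.GB.B3.Tower Fermat.Agent.GB.B3.TWChars Fermat.Agent.GB.B3.FinalTW
open Fermat.Agent.GB.B3.TWLevel Fermat.Agent.GB.B3.Final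
open Fermat.Agent.GB.B3.HeckeActH Fermat.Agent.GB.B3.StepInst
open Fermat.Agent.GB.Setup.SetupPkg
open Fermat.Agent.GB.B9.ProviderFlat.G1 Fermat.Agent.GB.B9.ProviderFlat.H1
open Fermat.Agent.GB.B10.L.AnnPlugEq Fermat.Agent.GB.B10.L.AnnPlug
open Fermat.Agent.GJ.J2.ZStruct Fermat.Agent.GJ.J2.Lat Fermat.Agent.GB.B3.LocTransport Fermat.Agent.GB.B3.RealLevel
open Fermat.Agent.GB.B10.L.ThetaNew Fermat.Agent.GB.B3.ChiLevelMulti

open Fermat.Agent.GB.B10.L.AnnG1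

namespace Fermat.Agent.GB.B10.L.AnnG1Base

/-- local instance (Prop-valued class) -/
local instance factPrimeOff23 {S : Set ℕ} (l : PrimesOff S) : Fact (l.1 : ℕ).Prime := ⟨l.1.2⟩

variable {p : ℕ} [hpF : Fact p.Prime] {W : WeierstrassCurve ℤ}
  {hcard₁ : Nat.card (Submodule.torsionBy ℤ
    ((W.map (Int.castRingHom ℚ)).toAffine.baseChange (AlgebraicClosure ℚ)).Point p) = p ^ 2}
  {hker : GaloisFactorsThroughFiniteLevel
    (WeierstrassCurve.Affine.Point.galoisRepModuleEnd (K := AlgebraicClosure ℚ) ℚ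
      (W.map (Int.castRingHom ℚ)) p)}
  {M A : ℕ} {P : Pkg p W hcard₁ hker M A} {g n : ℕ} (Q : TWSet P g n)
  {q eq : ℕ} (hq : q.Prime) (hqM : q ∣ M) (hsq : Squarefree M) (hcong : p ^ eq ∣ q - 1)
  (hp3 : p ≠ 3) {cq : P.O} (hcq : cq ^ p ^ eq = 1)
  (hcq1 : (1 : P.O) - cq ∈ Ideal.span {P.ϖ})
  (hpM : p ∣ M) (hqp : q ≠ p)

include hsq in
/-- **(N3) at the level below `p`** (helper52 `G7.TWSetG7.hbase_Nl` at `q := p`) -/
theorem hbase_Nl_p (hX : ¬ W.IsResiduallyModularOfLevel p (M / p)) :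
    ∀ y : Additive (Gamma0 (Nl Q)) →+ P.O,
      IsLoc (HeckeActH.act0 (restrict (castSy (hN Q hpM) Q.Sy) (hrN Q)) P.O) Q.𝔪 y → y = 0 :=
  Fermat.Agent.GB.B9.ProviderFlat.G7.TWSetG7.hbase_Nl Q hpM hsq hX

variable {N₀ : ℕ} [NeZero N₀] [NeZero (N₀ * p)]
  (hN₀ : N₀ * p = Q.N * ∏ i : Fin (1 + g), rOf Q.qv q i) (hpN₀ : ¬ p ∣ N₀)
  (S : Finset ℕ) (hpS : p ∈ S) (hNS : ∀ q' : ℕ, q'.Prime → q' ∣ N₀ * p → q' ∈ S)
  (hX : ¬ W.IsResiduallyModularOfLevel p (M / p))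
  (dℓ : PrimesOff (↑S : Set ℕ) → Gamma0 Q.N)
  (hdℓ : ∀ (l : PrimesOff (↑S : Set ℕ)) (u : (ZMod Q.N)ˣ),
    (u : ZMod Q.N) = ((l.1 : ℕ) : ZMod Q.N) →
    chi (Theta (Δs p (eOf g (n + 1) eq)) (Q.primeData hq hqM hsq hcong).psi (1 + g)) (dℓ l) ^ 2
      * Theta (Δs p (eOf g (n + 1) eq)) (Q.primeData hq hqM hsq hcong).psi (1 + g) u = 1)
  (tw : ↥(heckeAlgebra (N₀ * p) 2 (↑S : Set ℕ)) →+*
    Module.End P.O ↥(parabolicHoms P.O
      (GammaH (Theta (Δs p (eOf g (n + 1) eq)) (Q.primeData hq hqM hsq hcong).psi (1 + g))) P.O))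
  (htw : ∀ (l : PrimesOff (↑S : Set ℕ))
      (v : ↥(parabolicHoms P.O
        (GammaH (Theta (Δs p (eOf g (n + 1) eq)) (Q.primeData hq hqM hsq hcong).psi (1 + g))) P.O)),
    ((tw (formsGenS (N₀ * p) (↑S : Set ℕ) l) v :
        ↥(parabolicHoms P.O
          (GammaH (Theta (Δs p (eOf g (n + 1) eq)) (Q.primeData hq hqM hsq hcong).psi (1 + g))) P.O)) :
        Additive (GammaH (Theta (Δs p (eOf g (n + 1) eq))
          (Q.primeData hq hqM hsq hcong).psi (1 + g))) →+ P.O)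
      = diaH (Theta (Δs p (eOf g (n + 1) eq)) (Q.primeData hq hqM hsq hcong).psi (1 + g)) P.O (dℓ l)
          (GamH.TH (Theta (Δs p (eOf g (n + 1) eq)) (Q.primeData hq hqM hsq hcong).psi (1 + g)) P.O
            (not_dvd_level (↑S : Set ℕ) (Fermat.Agent.GB.B10.L.Ann.hS_of_hNS S hNS)
              (Dvd.intro _ hN₀.symm) l)
          (v : Additive (GammaH (Theta (Δs p (eOf g (n + 1) eq))
            (Q.primeData hq hqM hsq hcong).psi (1 + g))) →+ P.O)))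
  (hpar : ∀ x : (Plug.bigLevel Q.Sy Q.𝔪 (Q.primeData hq hqM hsq hcong) (Q.hyp hp3) (1 + g)).M,
    (Plug.bigReal Q.Sy Q.𝔪 (Q.primeData hq hqM hsq hcong) (Q.hyp hp3) (1 + g)).ι x
      ∈ parabolicHoms P.O
        (GammaH (Theta (Δs p (eOf g (n + 1) eq)) (Q.primeData hq hqM hsq hcong).psi (1 + g))) P.O)
  (twP : ↥(heckeAlgebra (N₀ * p) 2 (↑S : Set ℕ)) →+*
    Module.End P.O (Plug.bigLevel Q.Sy Q.𝔪 (Q.primeData hq hqM hsq hcong) (Q.hyp hp3) (1 + g)).M)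
  (hιP : ∀ (t : ↥(heckeAlgebra (N₀ * p) 2 (↑S : Set ℕ)))
      (m : (Plug.bigLevel Q.Sy Q.𝔪 (Q.primeData hq hqM hsq hcong) (Q.hyp hp3) (1 + g)).M),
    (Plug.bigReal Q.Sy Q.𝔪 (Q.primeData hq hqM hsq hcong) (Q.hyp hp3) (1 + g)).ι (twP t m) =
      ((tw t ⟨(Plug.bigReal Q.Sy Q.𝔪 (Q.primeData hq hqM hsq hcong) (Q.hyp hp3) (1 + g)).ι m,
          hpar m⟩ :
        ↥(parabolicHoms P.O (GammaH (Theta (Δs p (eOf g (n + 1) eq))
          (Q.primeData hq hqM hsq hcong).psi (1 + g))) P.O)) :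
        Additive (GammaH (Theta (Δs p (eOf g (n + 1) eq))
          (Q.primeData hq hqM hsq hcong).psi (1 + g))) →+ P.O))
  (hcomm : ∀ t i, twP t *
      (Plug.bigLevel Q.Sy Q.𝔪 (Q.primeData hq hqM hsq hcong) (Q.hyp hp3) (1 + g)).D i
    = (Plug.bigLevel Q.Sy Q.𝔪 (Q.primeData hq hqM hsq hcong) (Q.hyp hp3) (1 + g)).D i * twP t)

include hpM hqp hpN₀ hX hdℓ htw hιP in
/-- **the `hAnn` binder at helper51's objects of record `Q.tw1F`** (`p`-new branch), `hbase`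
discharged from `hX : ¬ W.IsResiduallyModularOfLevel p (M / p)` -/
theorem hAnn_tw1F_of_not_resMod :
    ∀ t₀ : P.O ⊗[ℤ] ↥(heckeAlgebra (N₀ * p) 2 (↑S : Set ℕ)),
      (∀ (a : P.O),
        ∀ x ∈ (LamNew hpN₀ : AddSubgroup
          (Fermat.Agent.GB.B10.KumLevelHecke.levelData p (N₀ * p) hpS hNS).Λ),
        (Fermat.Agent.GB.B10.KumLevelHecke.levelData p (N₀ * p) hpS hNS).heckeTensor P.O t₀ (a ⊗ₜ[ℤ] x) = 0) →
      ∀ m : (Q.tw1F hq hqM hsq hcong hp3 hcq hcq1).L1.M × (Q.tw1F hq hqM hsq hcong hp3 hcq hcq1).Lχ.M,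
        Fermat.Agent.GB.B4.Datum.ImageRing.twO P.O (Fermat.Agent.GB.B4.Datum.TQFields.prodTw P.O
          (Fermat.Agent.GB.B4.Datum.TQCompat.tw1
            (Plug.bigLevel Q.Sy Q.𝔪 (Q.primeData hq hqM hsq hcong) (Q.hyp hp3) (1 + g)) twP hcomm
            (Nfun_pos hpF.out (eOf g (n + 1) eq) (1 + g)) P.ϖ (fun _ : Fin 1 => cq)
            (Plug.hc_Nfun 1 g (fun _ : Fin 1 => cq)
              (TWSet.hc_one (g := g) (eOf_eq (n + 1) eq) hcq)) (fun _ => hcq1))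
          (Fermat.Agent.GB.B4.Datum.TQCompat.twChi
            (Plug.bigLevel Q.Sy Q.𝔪 (Q.primeData hq hqM hsq hcong) (Q.hyp hp3) (1 + g)) twP hcomm
            (Nfun_pos hpF.out (eOf g (n + 1) eq) (1 + g)) P.ϖ (fun _ : Fin 1 => cq)
            (Plug.hc_Nfun 1 g (fun _ : Fin 1 => cq)
              (TWSet.hc_one (g := g) (eOf_eq (n + 1) eq) hcq)) (fun _ => hcq1))) t₀ m = 0 :=
  hAnn_tw1F Q hq hqM hsq hcong hp3 hcq hcq1 hpM hqp hN₀ hpN₀ S hpS hNS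
    (hbase_Nl_p Q hsq hpM hX) dℓ hdℓ tw htw hpar twP hιP hcomm

end Fermat.Agent.GB.B10.L.AnnG1Base

end
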