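/-
GATE-B / GB-PNEW (ANN) at helper11's G2 objects (helper44): **the `hAnn` binder of
`GalPkgSOImg.exists_galRep_TQ_strict` from the OUTPUT of `G2.exists_twP_hecke`.**

`G2.exists_twP_hecke` gives `twP : heckeAlgebra N'' 2 ↑S →+* End_O P_Q` characterised on the
GENERATORS only (`ι (twP (T_ℓ) x) = ⟨dℓ ℓ⟩ T_ℓ (ι x)`) and commuting with the diamonds (`hD`).  The
annihilator statements `AnnPlug(Eq).hAnn_plug_new…` want a twist `tw` on the parabolic classes with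
the full square `ι (twP t m) = tw t (ι m)`.  Here both are produced inside:

* `hιP_of_gen` : the full square from the generator formulas (ring generators `formsGenS`);
* `hAnn_plug_new_of_gen` : `AnnPlugEq.hAnn_plug_new_of_eq'` with `tw htw hpar hιP` discharged
  (`TwInst.exists_tw_primeData`, (BND) at squarefree level) — binders = those of
  `G2.exists_twP_hecke` + the output `(twP, hι, hD)`;
* `hAnn_tw1F_of_gen` : the same at helper51's objects of record `Q.tw1F`, `hbase` discharged from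
  `hX : ¬ W.IsResiduallyModularOfLevel p (M / p)`, stated for `prodTw (G2.tw₁ …) (G2.twχ …)`, i.e.
  for the `tw` of `G2.T`.
-/
import Fermat.Agent.GB.B10.L.AnnG1Base
import Fermat.Agent.GB.B9.ProviderFlat.G2

set_option autoImplicit false
set_option linter.unusedSectionVars false
set_option linter.unusedVariables false
set_option linter.style.haveILetI false

noncomputable section

open scoped MatrixGroups TensorProduct
open CongruenceSubgroup Matrix Matrix.SpecialLinearGroup ModularCurve.Period CuspForm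
open Fermat.Agent.S16_helper49 Fermat.Agent.GM.B Fermat.Agent.GM.EisClass
open Fermat.Agent.GB.B3 Fermat.Agent.GB.B3.EisGamma0 Fermat.Agent.GB.B3.GamH
open Fermat.Agent.GB.B4.Twist.Asm Fermat.Agent.GB.B4.Twist.TwFinal Fermat.Agent.GB.B4.Twist.TwInst
open Fermat.Agent.GB.B3.Tower Fermat.Agent.GB.B3.TWChars Fermat.Agent.GB.B3.FinalTW
open Fermat.Agent.GB.B3.TWLevel Fermat.Agent.GB.B3.Final
open Fermat.Agent.GB.B3.HeckeActH Fermat.Agent.GB.B3.StepInst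
open Fermat.Agent.GB.Setup.SetupPkg
open Fermat.Agent.GB.B9.ProviderFlat.G1 Fermat.Agent.GB.B9.ProviderFlat.H1
open Fermat.Agent.GB.B10.L.AnnPlugEq Fermat.Agent.GB.B10.L.AnnPlug
open Fermat.Agent.GJ.J2.ZStruct Fermat.Agent.GJ.J2.Lat Fermat.Agent.GB.B3.LocTransport
open Fermat.Agent.GB.B3.RealLevel
open Fermat.Agent.GB.B10.L.ThetaNew Fermat.Agent.GB.B3.ChiLevelMulti
open Fermat.Agent.GB.B4.Datum.ImageRing Fermat.Agent.GB.B4.Datum.TQFields
open Fermat.Agent.GB.B4.Datum.TQCompat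
open Fermat.Agent.GB.B10.L.AnnG1 Fermat.Agent.GB.B10.L.AnnG1Base

namespace Fermat.Agent.GB.B10.L.AnnG2

/-- local instance (Prop-valued class) -/
local instance factPrimeOff24 {S : Set ℕ} (l : PrimesOff S) : Fact (l.1 : ℕ).Prime := ⟨l.1.2⟩

/-! ### the full square from the generators -/

/-- an intertwining relation checked on ring generators (abstract modules) -/
theorem square_of_gens {A O P V : Type*} [Ring A] [CommRing O] [AddCommGroup P] [Module O P]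
    [AddCommGroup V] [Module O V] (ι : P →ₗ[O] V) (twP : A →+* Module.End O P)
    (twO : A →+* Module.End O V) (G : Set A) (hG : Subring.closure G = ⊤)
    (hgen : ∀ g ∈ G, ∀ y, ι (twP g y) = twO g (ι y)) (t : A) (y : P) :
    ι (twP t y) = twO t (ι y) := by
  have ht : t ∈ Subring.closure G := by
    rw [hG]
    exact Subring.mem_top t
  induction ht using Subring.closure_induction generalizing y with
  | mem x hx => exact hgen x hx y
  | zero => rw [map_zero, map_zero, LinearMap.zero_apply, LinearMap.zero_apply, map_zero]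
  | one => rw [map_one, map_one, Module.End.one_apply, Module.End.one_apply]
  | add a b _ _ ha hb =>
    rw [map_add, map_add, LinearMap.add_apply, LinearMap.add_apply, map_add, ha, hb]
  | neg a _ ha => rw [map_neg, map_neg, LinearMap.neg_apply, LinearMap.neg_apply, map_neg, ha]
  | mul a b _ _ ha hb =>
    rw [map_mul, map_mul, Module.End.mul_apply, Module.End.mul_apply, ha, hb]

section Square

variable {N p : ℕ} [NeZero N] [hpF : Fact p.Prime] {Kk : ℕ} {r e N' : ℕ → ℕ}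
variable (Sy : Symbols N)
variable {O : Type} [CommRing O] [IsDomain O] [IsPrincipalIdealRing O] [IsLocalRing O]
  [IsAdicComplete (IsLocalRing.maximalIdeal O) O] [Module.IsTorsionFree ℤ O] [CharZero O]
variable (𝔪 : Ideal (Sy.𝕋 O)) [𝔪.IsMaximal]
variable (H : PrimeData N p Kk r e N') {ϖ : O} {s0 : Sy.ι₁} (h : Plug.Hyp Sy 𝔪 p ϖ s0)
variable (j : ℕ) {N'' : ℕ} [NeZero N''] (S : Set ℕ)
  (dℓ : PrimesOff S → Gamma0 N) (hnd : ∀ l : PrimesOff S, ¬ (l.1 : ℕ) ∣ N)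
  (tw : ↥(heckeAlgebra N'' 2 S) →+*
    Module.End O ↥(parabolicHoms O (GammaH (Theta (Δs p e) H.psi j)) O))
  (htw : ∀ (l : PrimesOff S)
      (v : ↥(parabolicHoms O (GammaH (Theta (Δs p e) H.psi j)) O)),
    ((tw (formsGenS N'' S l) v :
        ↥(parabolicHoms O (GammaH (Theta (Δs p e) H.psi j)) O)) :
        Additive (GammaH (Theta (Δs p e) H.psi j)) →+ O)
      = diaH (Theta (Δs p e) H.psi j) O (dℓ l) (GamH.TH (Theta (Δs p e) H.psi j) O (hnd l)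
          (v : Additive (GammaH (Theta (Δs p e) H.psi j)) →+ O)))
  (hpar : ∀ x : (Plug.bigLevel Sy 𝔪 H h j).M,
    (Plug.bigReal Sy 𝔪 H h j).ι x ∈ parabolicHoms O (GammaH (Theta (Δs p e) H.psi j)) O)
  (twP : ↥(heckeAlgebra N'' 2 S) →+* Module.End O (Plug.bigLevel Sy 𝔪 H h j).M)
  (hι : ∀ (l : PrimesOff S) (x : (Plug.bigLevel Sy 𝔪 H h j).M),
    (Plug.bigReal Sy 𝔪 H h j).ι (twP (formsGenS N'' S l) x) =
      diaH (Theta (Δs p e) H.psi j) O (dℓ l)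
        (GamH.TH (Theta (Δs p e) H.psi j) O (hnd l) ((Plug.bigReal Sy 𝔪 H h j).ι x)))

/-- the realisation of the big level, with values in the parabolic classes -/
def iotaPar : (Plug.bigLevel Sy 𝔪 H h j).M →ₗ[O]
    ↥(parabolicHoms O (GammaH (Theta (Δs p e) H.psi j)) O) :=
  (Plug.bigReal Sy 𝔪 H h j).ι.codRestrict _ hpar

theorem coe_iotaPar (x : (Plug.bigLevel Sy 𝔪 H h j).M) :
    ((iotaPar Sy 𝔪 H h j hpar x :
      ↥(parabolicHoms O (GammaH (Theta (Δs p e) H.psi j)) O)) :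
      Additive (GammaH (Theta (Δs p e) H.psi j)) →+ O) = (Plug.bigReal Sy 𝔪 H h j).ι x := rfl

include htw hι in
/-- **the full square** `ι ∘ twP t = tw t ∘ ι` from the generator formulas -/
theorem hιP_of_gen (t : ↥(heckeAlgebra N'' 2 S)) (m : (Plug.bigLevel Sy 𝔪 H h j).M) :
    (Plug.bigReal Sy 𝔪 H h j).ι (twP t m) =
      ((tw t ⟨(Plug.bigReal Sy 𝔪 H h j).ι m, hpar m⟩ :
        ↥(parabolicHoms O (GammaH (Theta (Δs p e) H.psi j)) O)) :
        Additive (GammaH (Theta (Δs p e) H.psi j)) →+ O) := by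
  have key := square_of_gens (iotaPar Sy 𝔪 H h j hpar) twP tw (Set.range (formsGenS N'' S))
    (Fermat.Agent.GB.B4.Twist.TwHom.closure_range_formsGenS N'' S)
    (fun g hg y => by
      obtain ⟨l, rfl⟩ := hg
      apply Subtype.ext
      have e1 := hι l y
      have e2 := htw l (iotaPar Sy 𝔪 H h j hpar y)
      exact e1.trans e2.symm) t m
  exact congrArg Subtype.val key

end Square

/-! ### (ANN) from the output of `G2.exists_twP_hecke`, abstract Plug level -/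

section TW

variable {N Nl p : ℕ} [NeZero N] [NeZero Nl] [hpF : Fact p.Prime] (hN : N = Nl * p) {Kk : ℕ}
  {r e N' : ℕ → ℕ}
variable (Sy : Symbols N) (hrN : ∀ j, Sy.r j ∣ Nl) (hpNl : ¬ p ∣ Nl)
variable {O : Type} [CommRing O] [IsDomain O] [IsPrincipalIdealRing O] [IsLocalRing O]
  [IsAdicComplete (IsLocalRing.maximalIdeal O) O] [Module.IsTorsionFree ℤ O] [CharZero O]
variable (𝔪 : Ideal (Sy.𝕋 O)) [𝔪.IsMaximal]
variable (H : PrimeData N p Kk r e N')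
  {ϖ : O} {s0 : Sy.ι₁} (h : Plug.Hyp Sy 𝔪 p ϖ s0)
variable (hbase : ∀ y : Additive (Gamma0 Nl) →+ O,
    IsLoc (HeckeActH.act0 (restrict (castSy hN Sy) hrN) O) 𝔪 y → y = 0)
variable (s k : ℕ) (c : Fin s → O) (hc : ∀ v : Fin s, c v ^ p ^ e (s + k - 1 - v) = 1)
  (hc1 : ∀ v, (1 : O) - c v ∈ Ideal.span {ϖ})
variable (hNsq : Squarefree N) (hj : s + k ≤ Kk)
  {N₀ : ℕ} [NeZero N₀] [NeZero (N₀ * p)] (hN₀ : N₀ * p = N * ∏ i : Fin (s + k), r i)
  (hpN₀ : ¬ p ∣ N₀)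
  (S : Finset ℕ) (hpS : p ∈ S) (hNS : ∀ q : ℕ, q.Prime → q ∣ N₀ * p → q ∈ S)
  (dℓ : PrimesOff (↑S : Set ℕ) → Gamma0 N)
  (hdℓ : ∀ (l : PrimesOff (↑S : Set ℕ)) (u : (ZMod N)ˣ),
    (u : ZMod N) = ((l.1 : ℕ) : ZMod N) →
    chi (Theta (Δs p e) H.psi (s + k)) (dℓ l) ^ 2 * Theta (Δs p e) H.psi (s + k) u = 1)
  (hnd : ∀ l : PrimesOff (↑S : Set ℕ), ¬ (l.1 : ℕ) ∣ N)
  (twP : ↥(heckeAlgebra (N₀ * p) 2 (↑S : Set ℕ)) →+*
    Module.End O (Plug.bigLevel Sy 𝔪 H h (s + k)).M)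
  (hι : ∀ (l : PrimesOff (↑S : Set ℕ)) (x : (Plug.bigLevel Sy 𝔪 H h (s + k)).M),
    (Plug.bigReal Sy 𝔪 H h (s + k)).ι (twP (formsGenS (N₀ * p) (↑S : Set ℕ) l) x) =
      diaH (Theta (Δs p e) H.psi (s + k)) O (dℓ l)
        (GamH.TH (Theta (Δs p e) H.psi (s + k)) O (hnd l)
          ((Plug.bigReal Sy 𝔪 H h (s + k)).ι x)))
  (hcomm : ∀ t i, twP t * (Plug.bigLevel Sy 𝔪 H h (s + k)).D i
    = (Plug.bigLevel Sy 𝔪 H h (s + k)).D i * twP t)

include hpNl hbase hNsq hj hN₀ hdℓ hι in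
/-- **the module-level (ANN) on `M¹_Q × M^χ_Q`**, `p`-new branch, for a `twP` characterised on the
generators (output of `G2.exists_twP_hecke`) -/
theorem hAnn_plug_new_of_gen (hne : ∀ i, i < Kk → r i ≠ p) :
    ∀ t₀ : O ⊗[ℤ] ↥(heckeAlgebra (N₀ * p) 2 (↑S : Set ℕ)),
      (∀ (a : O),
        ∀ x ∈ (LamNew hpN₀ : AddSubgroup
          (Fermat.Agent.GB.B10.KumLevelHecke.levelData p (N₀ * p) hpS hNS).Λ),
        (Fermat.Agent.GB.B10.KumLevelHecke.levelData p (N₀ * p) hpS hNS).heckeTensor O t₀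
          (a ⊗ₜ[ℤ] x) = 0) →
      ∀ m : (Plug.tw Sy 𝔪 H h s k c hc hc1).L1.M × (Plug.tw Sy 𝔪 H h s k c hc hc1).Lχ.M,
        twO O (prodTw O
          (tw1 (Plug.bigLevel Sy 𝔪 H h (s + k)) twP hcomm (Nfun_pos hpF.out e (s + k)) ϖ c
            (Plug.hc_Nfun s k c hc) hc1)
          (twChi (Plug.bigLevel Sy 𝔪 H h (s + k)) twP hcomm (Nfun_pos hpF.out e (s + k)) ϖ c
            (Plug.hc_Nfun s k c hc) hc1)) t₀ m = 0 := by
  classical
  have hS : ∀ q : ℕ, q.Prime → q ∣ N₀ * p → q ∈ (↑S : Set ℕ) :=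
    Fermat.Agent.GB.B10.L.Ann.hS_of_hNS S hNS
  have key := exists_tw_primeData (O := O) H hpF.out h.hp2 (s + k) hj hN₀
    (↑S : Set ℕ) hS dℓ hdℓ
  have hpar := Fermat.Agent.GB.B3.Boundary.Mat.bigReal_mem_parabolicHoms_of_squarefree Sy 𝔪 H h
    hNsq (s + k)
  exact hAnn_plug_new_of_eq' hN Sy hrN hpNl 𝔪 H h hbase s k c hc hc1 hj h.hp2 hN₀ hpN₀ S hpS hNS
    dℓ hdℓ key.choose (fun l v => key.choose_spec.1 l v) hpar twP
    (hιP_of_gen Sy 𝔪 H h (s + k) (↑S : Set ℕ) dℓ hnd key.choose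
      (fun l v => key.choose_spec.1 l v) hpar twP hι) hcomm hne

end TW

/-! ### at helper51's objects of record `Q.tw1F` -/

section AtQ

variable {p : ℕ} [hpF : Fact p.Prime] {W : WeierstrassCurve ℤ}
  {hcard₁ : Nat.card (Submodule.torsionBy ℤ
    ((W.map (Int.castRingHom ℚ)).toAffine.baseChange (AlgebraicClosure ℚ)).Point p) = p ^ 2}
  {hker : GaloisFactorsThroughFiniteLevel
    (WeierstrassCurve.Affine.Point.galoisRepModuleEnd (K := AlgebraicClosure ℚ) ℚ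
      (W.map (Int.castRingHom ℚ)) p)}
  {M A : ℕ} {P : Pkg p W hcard₁ hker M A} {g n : ℕ} (Q : TWSet P g n)
  {q eq : ℕ} (hq : q.Prime) (hqM : q ∣ M) (hsq : Squarefree M) (hcong : p ^ eq ∣ q - 1)
  (hp3 : p ≠ 3) {cq : P.O} (hcq : cq ^ p ^ eq = 1)
  (hcq1 : (1 : P.O) - cq ∈ Ideal.span {P.ϖ})
  (hpM : p ∣ M) (hqp : q ≠ p)
  {N₀ : ℕ} [NeZero N₀] [NeZero (N₀ * p)]
  (hN₀ : N₀ * p = Q.N * ∏ i : Fin (1 + g), rOf Q.qv q i) (hpN₀ : ¬ p ∣ N₀)
  (S : Finset ℕ) (hpS : p ∈ S) (hNS : ∀ q' : ℕ, q'.Prime → q' ∣ N₀ * p → q' ∈ S)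
  (hX : ¬ W.IsResiduallyModularOfLevel p (M / p))
  (dℓ : PrimesOff (↑S : Set ℕ) → Gamma0 Q.N)
  (hdℓ : ∀ (l : PrimesOff (↑S : Set ℕ)) (u : (ZMod Q.N)ˣ),
    (u : ZMod Q.N) = ((l.1 : ℕ) : ZMod Q.N) →
    chi (Theta (Δs p (eOf g (n + 1) eq)) (Q.primeData hq hqM hsq hcong).psi (1 + g)) (dℓ l) ^ 2
      * Theta (Δs p (eOf g (n + 1) eq)) (Q.primeData hq hqM hsq hcong).psi (1 + g) u = 1)
  (hnd : ∀ l : PrimesOff (↑S : Set ℕ), ¬ (l.1 : ℕ) ∣ Q.N)
  (twP : ↥(heckeAlgebra (N₀ * p) 2 (↑S : Set ℕ)) →+*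
    Module.End P.O (Plug.bigLevel Q.Sy Q.𝔪 (Q.primeData hq hqM hsq hcong) (Q.hyp hp3) (1 + g)).M)
  (hι : ∀ (l : PrimesOff (↑S : Set ℕ))
      (x : (Plug.bigLevel Q.Sy Q.𝔪 (Q.primeData hq hqM hsq hcong) (Q.hyp hp3) (1 + g)).M),
    (Plug.bigReal Q.Sy Q.𝔪 (Q.primeData hq hqM hsq hcong) (Q.hyp hp3) (1 + g)).ι
        (twP (formsGenS (N₀ * p) (↑S : Set ℕ) l) x) =
      diaH (Theta (Δs p (eOf g (n + 1) eq)) (Q.primeData hq hqM hsq hcong).psi (1 + g)) P.O (dℓ l)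
        (GamH.TH (Theta (Δs p (eOf g (n + 1) eq)) (Q.primeData hq hqM hsq hcong).psi (1 + g)) P.O
          (hnd l)
          ((Plug.bigReal Q.Sy Q.𝔪 (Q.primeData hq hqM hsq hcong) (Q.hyp hp3) (1 + g)).ι x)))
  (hcomm : ∀ t i, twP t *
      (Plug.bigLevel Q.Sy Q.𝔪 (Q.primeData hq hqM hsq hcong) (Q.hyp hp3) (1 + g)).D i
    = (Plug.bigLevel Q.Sy Q.𝔪 (Q.primeData hq hqM hsq hcong) (Q.hyp hp3) (1 + g)).D i * twP t)

include hpM hqp hN₀ hpN₀ hX hdℓ hι in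
/-- **the `hAnn` binder at `Q.tw1F` from the output `(twP, hι, hD)` of `G2.exists_twP_hecke`**
(`p`-new branch): the product action is `prodTw (G2.tw₁ …) (G2.twχ …)`, i.e. the `tw` of `G2.T`. -/
theorem hAnn_tw1F_of_gen :
    ∀ t₀ : P.O ⊗[ℤ] ↥(heckeAlgebra (N₀ * p) 2 (↑S : Set ℕ)),
      (∀ (a : P.O),
        ∀ x ∈ (LamNew hpN₀ : AddSubgroup
          (Fermat.Agent.GB.B10.KumLevelHecke.levelData p (N₀ * p) hpS hNS).Λ),
        (Fermat.Agent.GB.B10.KumLevelHecke.levelData p (N₀ * p) hpS hNS).heckeTensor P.O t₀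
          (a ⊗ₜ[ℤ] x) = 0) →
      ∀ m : (Q.tw1F hq hqM hsq hcong hp3 hcq hcq1).L1.M × (Q.tw1F hq hqM hsq hcong hp3 hcq hcq1).Lχ.M,
        twO P.O (prodTw P.O
          (tw1
            (Plug.bigLevel Q.Sy Q.𝔪 (Q.primeData hq hqM hsq hcong) (Q.hyp hp3) (1 + g)) twP hcomm
            (Nfun_pos hpF.out (eOf g (n + 1) eq) (1 + g)) P.ϖ (fun _ : Fin 1 => cq)
            (Plug.hc_Nfun 1 g (fun _ : Fin 1 => cq)
              (TWSet.hc_one (g := g) (eOf_eq (n + 1) eq) hcq)) (fun _ => hcq1))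
          (twChi
            (Plug.bigLevel Q.Sy Q.𝔪 (Q.primeData hq hqM hsq hcong) (Q.hyp hp3) (1 + g)) twP hcomm
            (Nfun_pos hpF.out (eOf g (n + 1) eq) (1 + g)) P.ϖ (fun _ : Fin 1 => cq)
            (Plug.hc_Nfun 1 g (fun _ : Fin 1 => cq)
              (TWSet.hc_one (g := g) (eOf_eq (n + 1) eq) hcq)) (fun _ => hcq1))) t₀ m = 0 :=
  haveI : NeZero (Nl Q) := ⟨nl_ne_zero Q hpM⟩
  hAnn_plug_new_of_gen (hN Q hpM) Q.Sy (hrN Q) (hpNl Q hsq hpM) Q.𝔪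
    (Q.primeData hq hqM hsq hcong) (Q.hyp hp3) (hbase_Nl_p Q hsq hpM hX) 1 g (fun _ => cq)
    (TWSet.hc_one (g := g) (eOf_eq (n + 1) eq) hcq) (fun _ => hcq1)
    (Fermat.Agent.GB.B9.ProviderFlat.G7.TWSetG7.squarefree_N Q hsq) (by omega)
    hN₀ hpN₀ S hpS hNS dℓ hdℓ hnd twP hι hcomm (hne Q hqp)

include hpM hqp hN₀ hpN₀ hX hdℓ hι in
/-- the same statement in the spelling of `G2.lean` (`G2.tw₁`, `G2.twχ`): plug check -/
theorem hAnn_tw1F_of_gen_G2 :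
    ∀ t₀ : P.O ⊗[ℤ] ↥(heckeAlgebra (N₀ * p) 2 (↑S : Set ℕ)),
      (∀ (a : P.O),
        ∀ x ∈ (LamNew hpN₀ : AddSubgroup
          (Fermat.Agent.GB.B10.KumLevelHecke.levelData p (N₀ * p) hpS hNS).Λ),
        (Fermat.Agent.GB.B10.KumLevelHecke.levelData p (N₀ * p) hpS hNS).heckeTensor P.O t₀
          (a ⊗ₜ[ℤ] x) = 0) →
      ∀ m : (Q.tw1F hq hqM hsq hcong hp3 hcq hcq1).L1.M × (Q.tw1F hq hqM hsq hcong hp3 hcq hcq1).Lχ.M,
        twO P.O (prodTw P.O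
          (Fermat.Agent.GB.B9.ProviderFlat.G2.tw₁ Q.Sy Q.𝔪 (Q.primeData hq hqM hsq hcong)
            (Q.hyp hp3) 1 g (fun _ : Fin 1 => cq) (TWSet.hc_one (g := g) (eOf_eq (n + 1) eq) hcq)
            (fun _ => hcq1) twP hcomm)
          (Fermat.Agent.GB.B9.ProviderFlat.G2.twχ Q.Sy Q.𝔪 (Q.primeData hq hqM hsq hcong)
            (Q.hyp hp3) 1 g (fun _ : Fin 1 => cq) (TWSet.hc_one (g := g) (eOf_eq (n + 1) eq) hcq)
            (fun _ => hcq1) twP hcomm)) t₀ m = 0 :=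
  hAnn_tw1F_of_gen Q hq hqM hsq hcong hp3 hcq hcq1 hpM hqp hN₀ hpN₀ S hpS hNS hX dℓ hdℓ hnd twP hι
    hcomm

end AtQ

end Fermat.Agent.GB.B10.L.AnnG2

end
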