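/-
GATE-B / GB-PNEW, leaf (L5) (helper32): **strict ordinarity of a PUSHED representation from
per-level data of the SOURCE representation.**

`φ : A → B` a surjective local homomorphism of local rings (`B` Noetherian), `ρ : GaloisRepAdic A`.
If `ρ` is ordinary at `p`, `ρ ⊗_φ B` has cyclotomic determinant, and for every place `P ∣ p` and
every `n` there are an ideal `I ≤ φ⁻¹(𝔪_Bⁿ)` of `A` and a subgroup `W ≤ V/IV` with the connected
package for the level action of `ρ` and the square relation at the Frobenius lifts, then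
`ρ ⊗_φ B` is STRICTLY ordinary at `p` (frozen `IsStrictOrdinaryAt`).

The source `ρ` itself need NOT be strictly ordinary: only the quotients `V/IV` with
`φ(I) ⊆ 𝔪_Bⁿ` are used.  This is the form consumed by the `p`-new branch of GATE-B
(`ρ = H.ρ` over `Tloc(N_Q)`, `B = T_Q`, `I = φ⁻¹(𝔪_Qⁿ)`; the per-level data come from
`GB/B10/L/CoreSub.exists_package_sq_level_sub`).
-/
import Fermat.Agent.GB.New.StrictOfFrob
import Fermat.Agent.GB.B4.Datum.Push

set_option autoImplicit false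
set_option linter.unusedSectionVars false
set_option linter.style.haveILetI false

noncomputable section

namespace Fermat.Agent.GB.B10.L.PushLevels

open IsLocalRing TensorProduct
open Fermat.Agent.GS.Alg.Transfer Fermat.Agent.GH.S32 Fermat.Agent.GB.New.StrictOfFrob
open Fermat.Agent.GP.Tan

local notation "Qb" => AlgebraicClosure ℚ
local notation "GQ" => (AlgebraicClosure ℚ ≃ₐ[ℚ] AlgebraicClosure ℚ)

section Quot

variable {A : Type} [CommRing A] {B : Type} [CommRing B] [Algebra A B]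
  {V : Type} [AddCommGroup V] [Module A V]

/-- for `I ≤ φ⁻¹(J)`: the additive map `V/IV → (B ⊗ V)/J(B ⊗ V)`, `[v] ↦ [1 ⊗ v]`. -/
def toQuotOfLe (I : Ideal A) (J : Ideal B) (hIJ : I ≤ J.comap (algebraMap A B)) :
    (V ⧸ (I • (⊤ : Submodule A V))) →ₗ[A] ((B ⊗[A] V) ⧸ (J • (⊤ : Submodule B (B ⊗[A] V)))) :=
  Submodule.liftQ _ (baseChangeAlong_toQuot (A := A) (B := B) (V := V) J)
    ((Submodule.smul_mono hIJ le_rfl).trans (baseChangeAlong_smul_top_le_ker J))

theorem toQuotOfLe_mk (I : Ideal A) (J : Ideal B) (hIJ : I ≤ J.comap (algebraMap A B)) (v : V) :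
    toQuotOfLe (V := V) I J hIJ (Submodule.Quotient.mk v) =
      Submodule.Quotient.mk ((1 : B) ⊗ₜ[A] v) := rfl

theorem toQuotOfLe_surjective (hsurj : Function.Surjective (algebraMap A B))
    (I : Ideal A) (J : Ideal B) (hIJ : I ≤ J.comap (algebraMap A B)) :
    Function.Surjective (toQuotOfLe (V := V) I J hIJ) := by
  intro y
  obtain ⟨v, rfl⟩ := baseChangeAlong_toQuot_surjective (V := V) hsurj J y
  exact ⟨Submodule.Quotient.mk v, rfl⟩

end Quot

section Main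

variable {A : Type} [CommRing A] [IsLocalRing A] {B : Type} [CommRing B] [IsLocalRing B]
  [IsNoetherianRing B]

/-- the level action of a base change on the class of `1 ⊗ v`. -/
theorem levelAction_baseChangeAlong_mk (φ : A →+* B) (hφ : IsLocalHom φ) (ρ : GaloisRepAdic A)
    (J : Ideal B) (σ : GQ) (v : ρ.V) :
    letI : Algebra A B := φ.toAlgebra
    (ρ.baseChangeAlong φ hφ).levelAction J σ
        (Submodule.Quotient.mk ((1 : B) ⊗ₜ[A] v) :
          (B ⊗[A] ρ.V) ⧸ (J • (⊤ : Submodule B (B ⊗[A] ρ.V)))) =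
      Submodule.Quotient.mk ((1 : B) ⊗ₜ[A] (ρ.ρ σ v)) := by
  letI : Algebra A B := φ.toAlgebra
  show Submodule.Quotient.mk ((ρ.ρ σ).baseChange B ((1 : B) ⊗ₜ[A] v)) = _
  rw [LinearMap.baseChange_tmul]

/-- **(L5)**: strict ordinarity of `ρ ⊗_φ B` from ordinarity of `ρ` and per-level
(`ConnPackage` + `sq` at the Frobenius lifts) data of `ρ` at ideals `I` with `φ(I) ⊆ 𝔪_Bⁿ`. -/
theorem isStrictOrdinaryAt_baseChangeAlong_of_levels (φ : A →+* B) (hφ : IsLocalHom φ)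
    (hsurj : Function.Surjective φ) (ρ : GaloisRepAdic A) {p : ℕ} (hp : p.Prime)
    (hdet : (ρ.baseChangeAlong φ hφ).DetIsCyclotomic p) (hord : ρ.IsOrdinaryAt p)
    (hlev : ∀ P : ValuationSubring Qb, P.LiesOverPrime p → ∀ n : ℕ,
      ∃ I : Ideal A, I ≤ (maximalIdeal B ^ n).comap φ ∧
        ∃ W : AddSubgroup (ρ.V ⧸ (I • (⊤ : Submodule A ρ.V))),
          ConnPackage (↑(P.inertiaSubgroupIn ℚ) : Set GQ) (↑(P.decompositionSubgroup ℚ) : Set GQ)
            (fun (σ : GQ) (w : ρ.V ⧸ (I • (⊤ : Submodule A ρ.V))) => ρ.levelAction I σ w) W ∧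
          ∀ τ ∈ {τ : GQ | P.IsFrobeniusAt τ p}, ∀ u,
            ρ.levelAction I τ (ρ.levelAction I τ u) - u ∈ W) :
    (ρ.baseChangeAlong φ hφ).IsStrictOrdinaryAt p := by
  letI : Algebra A B := φ.toAlgebra
  refine isStrictOrdinaryAt_of_levels_frob (ρ.baseChangeAlong φ hφ) hp hdet
    (Fermat.Agent.GB.B4.Datum.Push.isOrdinaryAt_baseChangeAlong φ hφ hord) fun P hP n => ?_
  obtain ⟨I, hI, W, hW, hsq⟩ := hlev P hP n
  have hsurj' : Function.Surjective (algebraMap A B) := hsurj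
  have hI' : I ≤ (maximalIdeal B ^ n).comap (algebraMap A B) := hI
  -- the equivariant surjection `V/IV → (B ⊗ V)/𝔪ⁿ(B ⊗ V)`
  let f := toQuotOfLe (V := ρ.V) I (maximalIdeal B ^ n) hI'
  have hf : Function.Surjective f := toQuotOfLe_surjective hsurj' I _ hI'
  have heq : ∀ (σ : GQ) (x : ρ.V ⧸ (I • (⊤ : Submodule A ρ.V))),
      f (ρ.levelAction I σ x) =
        (ρ.baseChangeAlong φ hφ).levelAction (maximalIdeal B ^ n) σ (f x) := by
    intro σ x
    obtain ⟨v, rfl⟩ := Submodule.Quotient.mk_surjective _ x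
    have h1 : ρ.levelAction I σ (Submodule.Quotient.mk v) =
        Submodule.Quotient.mk (ρ.ρ σ v) := rfl
    rw [h1, toQuotOfLe_mk, toQuotOfLe_mk]
    exact (levelAction_baseChangeAlong_mk φ hφ ρ (maximalIdeal B ^ n) σ v).symm
  -- the subquotient structure with `r = 1`
  have hsub : IsSubquotPow
      (fun (σ : GQ) (w : ρ.V ⧸ (I • (⊤ : Submodule A ρ.V))) => ρ.levelAction I σ w)
      (fun (σ : GQ) (w : (ρ.baseChangeAlong φ hφ).V ⧸
          ((maximalIdeal B ^ n) • (⊤ : Submodule B (ρ.baseChangeAlong φ hφ).V))) =>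
        (ρ.baseChangeAlong φ hφ).levelAction (maximalIdeal B ^ n) σ w) := by
    refine ⟨1, ⊤, (f.toAddMonoidHom.comp (Pi.evalAddMonoidHom _ (0 : Fin 1))).comp
      (AddSubgroup.subtype ⊤), ?_, fun _ _ _ => AddSubgroup.mem_top _, ?_⟩
    · intro y
      obtain ⟨x, rfl⟩ := hf y
      exact ⟨⟨fun _ => x, AddSubgroup.mem_top _⟩, rfl⟩
    · intro g x
      exact heq g (x.1 0)
  refine exists_connPackage_sq_of_isSubquotPow (fun σ x y => map_add _ x y)
    (fun σ hσ => by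
      have hσ' : σ ∈ P.inertiaSubgroupIn ℚ := hσ
      unfold ValuationSubring.inertiaSubgroupIn at hσ'
      rw [Subgroup.mem_map] at hσ'
      obtain ⟨i', _, rfl⟩ := hσ'
      exact i'.2) ?_ hW hsq hsub
  intro σ hσ
  refine ⟨σ⁻¹, (P.decompositionSubgroup ℚ).inv_mem hσ, fun w => ?_⟩
  obtain ⟨v, rfl⟩ := Submodule.mkQ_surjective _ w
  show Submodule.Quotient.mk (((ρ.baseChangeAlong φ hφ).ρ σ⁻¹)
    (((ρ.baseChangeAlong φ hφ).ρ σ) v)) = Submodule.Quotient.mk v
  rw [← Module.End.mul_apply, ← map_mul, inv_mul_cancel, map_one, Module.End.one_apply]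

end Main

section Push

open CuspForm Fermat.Agent.GB.B4.Datum.Push

variable {p : ℕ} {N : ℕ} [NeZero N] {S : Finset ℕ}
  {𝒪 : Type} [CommRing 𝒪] [IsDomain 𝒪] [IsDiscreteValuationRing 𝒪]
  [IsAdicComplete (IsLocalRing.maximalIdeal 𝒪) 𝒪]
  {θ : CuspForm.heckeAlgebra N 2 (↑S : Set ℕ) →+* IsLocalRing.ResidueField 𝒪}
  {T : Type} [CommRing T] [IsLocalRing T] [IsNoetherianRing T]
  [IsAdicComplete (IsLocalRing.maximalIdeal T) T] [Algebra 𝒪 T] [IsLocalHom (algebraMap 𝒪 T)]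
  [Module.Finite 𝒪 T] [Module.Free 𝒪 T]
  {TQ : Type} [CommRing TQ] [IsLocalRing TQ] [IsNoetherianRing TQ]

/-- **(L5) for `pushRep`**: `ρ_Q = H.ρ ⊗_φ T_Q` is strictly ordinary at `p` as soon as `H.ρ` is
ordinary at `p` and has the per-level (`ConnPackage` + `sq` at Frobenius lifts) data at ideals
`I ≤ φ⁻¹(𝔪_Qⁿ)`. -/
theorem isStrictOrdinaryAt_push_of_levels (hp : p.Prime)
    (hp𝒪 : (p : 𝒪) ∈ IsLocalRing.maximalIdeal 𝒪) (hpS : p ∈ S)
    (H : HeckeGaloisRepDatum N (↑S : Set ℕ) 𝒪 θ T) (φ : T →+* TQ) (hφ : IsLocalHom φ)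
    (hsurj : Function.Surjective φ) (hord : H.ρ.IsOrdinaryAt p)
    (hlev : ∀ P : ValuationSubring Qb, P.LiesOverPrime p → ∀ n : ℕ,
      ∃ I : Ideal T, I ≤ (maximalIdeal TQ ^ n).comap φ ∧
        ∃ W : AddSubgroup (H.ρ.V ⧸ (I • (⊤ : Submodule T H.ρ.V))),
          ConnPackage (↑(P.inertiaSubgroupIn ℚ) : Set GQ) (↑(P.decompositionSubgroup ℚ) : Set GQ)
            (fun (σ : GQ) (w : H.ρ.V ⧸ (I • (⊤ : Submodule T H.ρ.V))) =>
              H.ρ.levelAction I σ w) W ∧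
          ∀ τ ∈ {τ : GQ | P.IsFrobeniusAt τ p}, ∀ u,
            H.ρ.levelAction I τ (H.ρ.levelAction I τ u) - u ∈ W) :
    (pushRep H φ hφ).IsStrictOrdinaryAt p :=
  isStrictOrdinaryAt_baseChangeAlong_of_levels φ hφ hsurj H.ρ hp
    (detIsCyclotomic_push hp hp𝒪 hpS H φ hφ) hord hlev

end Push

end Fermat.Agent.GB.B10.L.PushLevels
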