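/-
GATE-B / GB-PNEW, leaf (L3b) (helper32): **the abstract `hker` lemma for a sub-lattice.**

`D : KumLevelData N S p`, `R` a Noetherian `ℤ`-flat ring, `lam : ι → D.Λ` a finite family in the
lattice (think: generators of the `p`-new sub-lattice `Λ' = ker α_* ∩ ker β_*`).

* `exists_shift_pi` : Artin–Rees for a linear map into a finite power of a finite module;
* `exists_shift_family` : there is `c` such that every `t' ∈ R ⊗ 𝕋` killing the classes
  `1 ⊗ Θ_{k+c}(lam i)` in `R ⊗ K (k+c)` is congruent modulo the annihilator of the `1 ⊗ lam i`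
  (in `R ⊗ Λ`) to `p ^ k • t''`;
* `heckeTensor_eq_zero_of_family` : an element killing the `1 ⊗ lam i` kills `a ⊗ x` for every `x` in
  the subgroup generated by the `lam i`;
* `exists_hker` **(L3b)** : if `φ : T → T_Q` kills (after `piT H`) every element of `𝒪 ⊗ 𝕋` which
  annihilates `𝒪 ⊗ Λ'` ("`T_Q` is a quotient of the Hecke algebra of `Λ'`"), and subgroups
  `Y n ≤ K n` contain `Θ_n(Λ')`, then there is `c` with: for every `k`, every `t'` killing
  `𝒪 ⊗ Y (k + c)` has `φ (piT H t') ∈ 𝔪_Q ^ k` — the `hker` binder of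
  `GB/B10/L/CoreSub.exists_package_sq_level_sub` at `I = φ⁻¹(𝔪_Q ^ k)`, `n = k + c`.
-/
import Fermat.Agent.GH.S32.Inst

set_option autoImplicit false
set_option linter.unusedSectionVars false

noncomputable section

namespace Fermat.Agent.GB.B10.L.ShiftSub

open TensorProduct CuspForm Function IsLocalRing
open Fermat.Agent.Common_helper32 Fermat.Agent.GJ.Tate Fermat.Agent.GH.S32.InstCore
  Fermat.Agent.GH.S32.Inst

/-! ### Artin–Rees for maps into a finite power -/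

section Abstract

variable {R : Type*} [CommRing R] {A M : Type*} [AddCommGroup A] [Module R A]
  [AddCommGroup M] [Module R M] {ι : Type*} [Fintype ι]

/-- a vector all of whose coordinates are divisible by `m` is divisible by `m`. -/
theorem pi_mem_span_smul_top (v : ι → M) (m : R) (h : ∀ i, ∃ y : M, v i = m • y) :
    v ∈ (Ideal.span {m}) • (⊤ : Submodule R (ι → M)) := by
  choose y hy using h
  have hv : v = m • y := by
    funext i
    rw [Pi.smul_apply, hy i]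
  rw [hv]
  exact Submodule.smul_mem_smul (Ideal.mem_span_singleton_self m) Submodule.mem_top

variable [IsNoetherianRing R] [Module.Finite R M]

/-- **uniform shift** (Artin–Rees): for `φ : A → M^ι` linear there is `c` such that
`φ a ∈ p ^ (n + c) M^ι` implies `φ a = p ^ n • φ a'`. -/
theorem exists_shift_pi (φ : A →ₗ[R] (ι → M)) (p : R) :
    ∃ c : ℕ, ∀ (n : ℕ) (a : A), (∀ i, ∃ y : M, φ a i = (p ^ (n + c)) • y) →
      ∃ a' : A, φ a = (p ^ n) • φ a' := by
  set I : Ideal R := Ideal.span {p} with hI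
  obtain ⟨k, hk⟩ := Ideal.exists_pow_inf_eq_pow_smul I (LinearMap.range φ)
  refine ⟨k, fun n a ha => ?_⟩
  have h1 : φ a ∈ I ^ (n + k) • (⊤ : Submodule R (ι → M)) := by
    rw [hI, Ideal.span_singleton_pow]
    exact pi_mem_span_smul_top _ _ ha
  have h2 : φ a ∈ LinearMap.range φ := ⟨a, rfl⟩
  have h3 : φ a ∈ I ^ (n + k) • (⊤ : Submodule R (ι → M)) ⊓ LinearMap.range φ := ⟨h1, h2⟩
  rw [hk (n + k) (Nat.le_add_left k n), Nat.add_sub_cancel] at h3
  have h4 : φ a ∈ I ^ n • LinearMap.range φ := Submodule.smul_mono le_rfl inf_le_right h3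
  rw [hI, Ideal.span_singleton_pow, Submodule.ideal_span_singleton_smul,
    Submodule.mem_smul_pointwise_iff_exists] at h4
  obtain ⟨_, ⟨a', rfl⟩, ha'⟩ := h4
  exact ⟨a', ha'.symm⟩

end Abstract

/-! ### the shift on a finite family of lattice vectors -/

section Family

variable {N : ℕ} [NeZero N] {S : Finset ℕ} {p : ℕ} (D : KumLevelData N S p)
  (R : Type*) [CommRing R] [IsNoetherianRing R] [Module.Flat ℤ R]
  {ι : Type*} [Fintype ι] (lam : ι → D.Λ)

/-- evaluation of the Hecke action at the vectors `1 ⊗ lam i`. -/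
def evFamily : R ⊗[ℤ] heckeAlgebra N 2 (↑S : Set ℕ) →ₗ[R] (ι → R ⊗[ℤ] D.Λ) :=
  LinearMap.pi fun i =>
    (LinearMap.applyₗ ((1 : R) ⊗ₜ[ℤ] lam i)).comp (D.heckeTensor R).toLinearMap

theorem evFamily_apply (t' : R ⊗[ℤ] heckeAlgebra N 2 (↑S : Set ℕ)) (i : ι) :
    evFamily D R lam t' i = D.heckeTensor R t' ((1 : R) ⊗ₜ[ℤ] lam i) := rfl

/-- **the shift on a family**. -/
theorem exists_shift_family : ∃ c : ℕ, ∀ (k : ℕ) (t' : R ⊗[ℤ] heckeAlgebra N 2 (↑S : Set ℕ)),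
    (∀ i, heckeX D R (k + c) t' ((1 : R) ⊗ₜ[ℤ] D.Θ (k + c) (lam i)) = 0) →
    ∃ t'' : R ⊗[ℤ] heckeAlgebra N 2 (↑S : Set ℕ),
      ∀ i, D.heckeTensor R (t' - ((p : R) ^ k) • t'') ((1 : R) ⊗ₜ[ℤ] lam i) = 0 := by
  obtain ⟨c, hc⟩ := exists_shift_pi (evFamily D R lam) (p : R)
  refine ⟨c, fun k t' h => ?_⟩
  obtain ⟨t'', ht''⟩ := hc k t' fun i => by
    rw [evFamily_apply]
    apply exists_eq_smul_of_thetaX_eq_zero D R (k + c)
    rw [thetaX_heckeTensor, thetaX_tmul]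
    exact h i
  refine ⟨t'', fun i => ?_⟩
  have h1 := congrFun ht'' i
  rw [Pi.smul_apply, evFamily_apply, evFamily_apply] at h1
  rw [map_sub, LinearMap.sub_apply, map_smul, LinearMap.smul_apply, h1, sub_self]

/-- an element killing the `1 ⊗ lam i` kills `a ⊗ x` for `x` in the subgroup they generate. -/
theorem heckeTensor_eq_zero_of_family (t₀ : R ⊗[ℤ] heckeAlgebra N 2 (↑S : Set ℕ))
    (h : ∀ i, D.heckeTensor R t₀ ((1 : R) ⊗ₜ[ℤ] lam i) = 0) (a : R) (x : D.Λ)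
    (hx : x ∈ AddSubgroup.closure (Set.range lam)) :
    D.heckeTensor R t₀ (a ⊗ₜ[ℤ] x) = 0 := by
  induction hx using AddSubgroup.closure_induction with
  | mem y hy =>
    obtain ⟨i, rfl⟩ := hy
    have e : a ⊗ₜ[ℤ] lam i = a • ((1 : R) ⊗ₜ[ℤ] lam i) := by
      rw [TensorProduct.smul_tmul', smul_eq_mul, mul_one]
    rw [e, map_smul, h i, smul_zero]
  | zero => rw [TensorProduct.tmul_zero, map_zero]
  | add y z _ _ hy hz => rw [TensorProduct.tmul_add, map_add, hy, hz, add_zero]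
  | neg y _ hy => rw [TensorProduct.tmul_neg, map_neg, hy, neg_zero]

end Family

/-! ### (L3b) -/

section HKer

variable {p : ℕ} {N : ℕ} [NeZero N] {S : Finset ℕ}
  {𝒪 : Type} [CommRing 𝒪] [IsDomain 𝒪] [IsDiscreteValuationRing 𝒪]
  [IsAdicComplete (IsLocalRing.maximalIdeal 𝒪) 𝒪]
  {θ : CuspForm.heckeAlgebra N 2 (↑S : Set ℕ) →+* IsLocalRing.ResidueField 𝒪}
  {T : Type} [CommRing T] [IsLocalRing T] [IsNoetherianRing T]
  [IsAdicComplete (IsLocalRing.maximalIdeal T) T] [Algebra 𝒪 T] [IsLocalHom (algebraMap 𝒪 T)]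
  [Module.Finite 𝒪 T] [Module.Free 𝒪 T]
  {TQ : Type} [CommRing TQ] [IsLocalRing TQ]

/-- a finitely generated subgroup of the lattice: every subgroup of `D.Λ` is the closure of a
finite family. -/
theorem exists_family (D : KumLevelData N S p) (Λ' : AddSubgroup D.Λ) :
    ∃ (r : ℕ) (lam : Fin r → D.Λ), AddSubgroup.closure (Set.range lam) = Λ' := by
  have hfg : (AddSubgroup.toIntSubmodule Λ').FG := IsNoetherian.noetherian _
  obtain ⟨r, lam, hlam⟩ := Submodule.fg_iff_exists_fin_generating_family.mp hfg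
  refine ⟨r, lam, ?_⟩
  have h1 : AddSubgroup.toIntSubmodule (AddSubgroup.closure (Set.range lam)) =
      AddSubgroup.toIntSubmodule Λ' := by
    rw [← hlam, AddSubgroup.toIntSubmodule_closure]
  exact AddSubgroup.toIntSubmodule.injective h1

/-- **(L3b), the abstract `hker` lemma.** -/
theorem exists_hker (D : KumLevelData N S p) [CharZero 𝒪]
    (H : CuspForm.HeckeGaloisRepDatum N (↑S : Set ℕ) 𝒪 θ T) (φ : T →+* TQ)
    (hpQ : (p : TQ) ∈ maximalIdeal TQ) (Λ' : AddSubgroup D.Λ)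
    (hann : ∀ t₀ : 𝒪 ⊗[ℤ] heckeAlgebra N 2 (↑S : Set ℕ),
      (∀ (a : 𝒪), ∀ x ∈ Λ', D.heckeTensor 𝒪 t₀ (a ⊗ₜ[ℤ] x) = 0) → φ (piT H t₀) = 0)
    (Y : ∀ n : ℕ, AddSubgroup (D.K n)) (hY : ∀ n, ∀ x ∈ Λ', D.Θ n x ∈ Y n) :
    ∃ c : ℕ, ∀ (k : ℕ) (t' : 𝒪 ⊗[ℤ] heckeAlgebra N 2 (↑S : Set ℕ)),
      (∀ (a : 𝒪), ∀ y ∈ Y (k + c), heckeX D 𝒪 (k + c) t' (a ⊗ₜ[ℤ] y) = 0) →
        piT H t' ∈ (maximalIdeal TQ ^ k).comap φ := by
  obtain ⟨r, lam, hlam⟩ := exists_family D Λ'
  have hflat : Module.Flat ℤ 𝒪 := inferInstance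
  obtain ⟨c, hc⟩ := exists_shift_family D 𝒪 lam
  refine ⟨c, fun k t' h => ?_⟩
  have hmem : ∀ i, lam i ∈ Λ' := fun i => by
    rw [← hlam]
    exact AddSubgroup.subset_closure ⟨i, rfl⟩
  obtain ⟨t'', ht''⟩ := hc k t' fun i => h 1 _ (hY (k + c) _ (hmem i))
  have h0 : φ (piT H (t' - ((p : 𝒪) ^ k) • t'')) = 0 :=
    hann _ fun a x hx => heckeTensor_eq_zero_of_family D 𝒪 lam _ ht'' a x (by rw [hlam]; exact hx)
  rw [map_sub, map_sub, sub_eq_zero, map_smul, Algebra.smul_def, map_mul, map_pow,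
    map_natCast, map_pow, map_natCast] at h0
  rw [Ideal.mem_comap, h0]
  exact Ideal.mul_mem_right _ _ (Ideal.pow_mem_pow hpQ k)

end HKer

end Fermat.Agent.GB.B10.L.ShiftSub
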