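/-
GATE-B / B10' ROUTE L, node (ASM) (helper39): **`(STRICTQ)` from the two lattice binders**.

`H : HeckeGaloisRepDatum (N' * p) S 𝒪 θ T` the FULL `Γ₀`-datum at the (twisted) level `N = N' p`,
`p ∥ N`; `φ : T ↠ T_Q` a surjective local homomorphism onto a noetherian local ring (the Taylor–Wiles
Hecke ring).  `D := KumLevelHecke.levelData p N hpS hNS` (so `D.Λ = Lam N`, `D.Θ n = ThetaN`).
For a subgroup `Λ' ≤ D.Λ` (in the application `Λnew = ker α_* ⊓ ker β_*`) with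

* `(hann)` : a Hecke operator killing `𝒪 ⊗ Λ'` dies in `T_Q`            (B4-TWIST side, node (ANN));
* `(hY)`   : `Θ_n Λ' ⊆` the `p`-new part `newSub n` of `Kum_{pⁿ}(F_N)`   (node (L3a), helper63);

and `H.ρ` ordinary at `p` (S33), the pushed representation `pushRep H φ = H.ρ ⊗_φ T_Q` is STRICTLY
ordinary at `p`.

Wiring: `ShiftSub.exists_hker` (helper32, L3b) ⟹ the shift `c`; per place `P ∣ p` and depth `n`:
`I := φ⁻¹(𝔪_Qⁿ)` (finite index: `𝔪_Tⁿ ≤ I`), `NewInst.exists_package_sq_level_new` at the Kummer level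
`n + c` (L4-inst), `PushLevels.isStrictOrdinaryAt_push_of_levels` (helper32, L5).
-/
import Fermat.Agent.GB.B10.L.NewInst
import Fermat.Agent.GB.B10.L.ShiftSub
import Fermat.Agent.GB.B10.L.PushLevels
import Fermat.Agent.GS.Top.Aux3

set_option autoImplicit false
set_option linter.unusedSectionVars false

namespace Fermat.Agent.GB.B10.L.StrictQ

open TensorProduct CuspForm IsLocalRing
open Fermat.Agent.Common_helper32 Fermat.Agent.GJ.Tate Fermat.Agent.GK.AL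
open Fermat.Agent.GH.S32.InstCore Fermat.Agent.GH.S32.Inst
open Fermat.Agent.GB.B10.KumLevelHecke Fermat.Agent.GB.B10.L.NewInst
open Fermat.Agent.GB.B4.Datum.Push

section Fin

variable {T : Type} [CommRing T] [IsLocalRing T] [IsNoetherianRing T]
  [Finite (IsLocalRing.ResidueField T)] {TQ : Type} [CommRing TQ] [IsLocalRing TQ]

/-- `φ⁻¹(𝔪_Qⁿ)` has finite index in `T` (`φ` local, `T` noetherian with finite residue field). -/
theorem finite_quotient_comap_pow (φ : T →+* TQ) (hφ : IsLocalHom φ) (n : ℕ) :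
    Finite (T ⧸ (maximalIdeal TQ ^ n).comap φ) := by
  have hle1 : maximalIdeal T ≤ (maximalIdeal TQ).comap φ := fun a ha =>
    Ideal.mem_comap.mpr (haveI := hφ; map_nonunit φ a ha)
  have hle : maximalIdeal T ^ n ≤ (maximalIdeal TQ ^ n).comap φ :=
    (Ideal.pow_right_mono hle1 n).trans (Ideal.le_comap_pow φ n)
  have hfin : Finite (T ⧸ maximalIdeal T ^ n) :=
    Fermat.Agent.GS.Old.OrdShapeAdic.finite_quotient_maximalIdeal_pow_of_finite_residueField n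
  exact Finite.of_surjective (Ideal.Quotient.factor hle) (Ideal.Quotient.factor_surjective hle)

end Fin

variable {N' p : ℕ} [NeZero N'] [Fact p.Prime] {S : Finset ℕ}
  {𝒪 : Type} [CommRing 𝒪] [IsDomain 𝒪] [IsDiscreteValuationRing 𝒪]
  [IsAdicComplete (IsLocalRing.maximalIdeal 𝒪) 𝒪]
  {θ : CuspForm.heckeAlgebra (N' * p) 2 (↑S : Set ℕ) →+* IsLocalRing.ResidueField 𝒪}
  {T : Type} [CommRing T] [IsLocalRing T] [IsNoetherianRing T]
  [IsAdicComplete (IsLocalRing.maximalIdeal T) T] [Algebra 𝒪 T] [IsLocalHom (algebraMap 𝒪 T)]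
  [Module.Finite 𝒪 T] [Module.Free 𝒪 T]
  {TQ : Type} [CommRing TQ] [IsLocalRing TQ] [IsNoetherianRing TQ]

/-- **(ASM)**: `(hann) + (hY) + hord ⟹ (STRICTQ)`. -/
theorem isStrictOrdinaryAt_pushRep_of_ann [Finite (IsLocalRing.ResidueField 𝒪)] [CharZero 𝒪]
    (hp2 : p ≠ 2) (hp𝒪 : (p : 𝒪) ∈ maximalIdeal 𝒪)
    (h : ExactDvd p (N' * p)) (hside : p = 3 → 2 ∣ N' * p)
    (hpS : p ∈ S) (hNS : ∀ r : ℕ, r.Prime → r ∣ N' * p → r ∈ S)
    (H : CuspForm.HeckeGaloisRepDatum (N' * p) (↑S : Set ℕ) 𝒪 θ T)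
    (hord : H.ρ.IsOrdinaryAt p)
    (φ : T →+* TQ) (hφ : IsLocalHom φ) (hsurj : Function.Surjective φ)
    (Λ' : AddSubgroup (levelData p (N' * p) hpS hNS).Λ)
    (hann : ∀ t₀ : 𝒪 ⊗[ℤ] heckeAlgebra (N' * p) 2 (↑S : Set ℕ),
      (∀ (a : 𝒪), ∀ x ∈ Λ',
        (levelData p (N' * p) hpS hNS).heckeTensor 𝒪 t₀ (a ⊗ₜ[ℤ] x) = 0) → φ (piT H t₀) = 0)
    (hY : ∀ n : ℕ, ∀ x ∈ Λ', (levelData p (N' * p) hpS hNS).Θ n x ∈ newSub h hpS hNS n) :
    (pushRep H φ hφ).IsStrictOrdinaryAt p := by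
  have hp : p.Prime := Fact.out
  have hfinres : Finite (IsLocalRing.ResidueField T) :=
    Fermat.Agent.GH.S32.finite_residueField_of_moduleFinite 𝒪 T
  have hpT : (p : T) ∈ maximalIdeal T := Fermat.Agent.GS.DetCyc.natCast_mem_maximalIdeal hp𝒪
  have hpQ : (p : TQ) ∈ maximalIdeal TQ := by
    have h1 := (haveI := hφ; map_nonunit φ (p : T) hpT)
    rwa [map_natCast] at h1
  obtain ⟨c, hc⟩ := Fermat.Agent.GB.B10.L.ShiftSub.exists_hker (levelData p (N' * p) hpS hNS) H φ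
    hpQ Λ' hann (fun n => newSub h hpS hNS n) hY
  refine Fermat.Agent.GB.B10.L.PushLevels.isStrictOrdinaryAt_push_of_levels hp hp𝒪 hpS H φ hφ hsurj
    hord fun P hP n => ?_
  have hfin : Finite (T ⧸ (maximalIdeal TQ ^ n).comap φ) := finite_quotient_comap_pow φ hφ n
  obtain ⟨W', hW', hsq'⟩ := exists_package_sq_level_new hp2 hp𝒪 h hside hpS hNS H
    ((maximalIdeal TQ ^ n).comap φ) P hP (n + c)
    (fun t' ht' => hc n t' fun a y hy => ht' a y hy)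
  exact ⟨(maximalIdeal TQ ^ n).comap φ, le_rfl, W', hW', hsq'⟩

/-- **(ASM)** with `hord` from S33 (`hres` = the frozen S33 hypothesis, e.g. from helper69's
`ResOrd.Plug.hres_of_isEquiv_baseChangeAlong`). -/
theorem isStrictOrdinaryAt_pushRep_of_ann_res [Finite (IsLocalRing.ResidueField 𝒪)] [CharZero 𝒪]
    (hp2 : p ≠ 2) (hp𝒪 : (p : 𝒪) ∈ maximalIdeal 𝒪)
    (h : ExactDvd p (N' * p)) (hside : p = 3 → 2 ∣ N' * p)
    (hpS : p ∈ S) (hNS : ∀ r : ℕ, r.Prime → r ∣ N' * p → r ∈ S)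
    (H : CuspForm.HeckeGaloisRepDatum (N' * p) (↑S : Set ℕ) 𝒪 θ T)
    (hres : (GaloisRepAdic.ofResidualGaloisRep H.ρ.residual).IsOrdinaryAt p)
    (φ : T →+* TQ) (hφ : IsLocalHom φ) (hsurj : Function.Surjective φ)
    (Λ' : AddSubgroup (levelData p (N' * p) hpS hNS).Λ)
    (hann : ∀ t₀ : 𝒪 ⊗[ℤ] heckeAlgebra (N' * p) 2 (↑S : Set ℕ),
      (∀ (a : 𝒪), ∀ x ∈ Λ',
        (levelData p (N' * p) hpS hNS).heckeTensor 𝒪 t₀ (a ⊗ₜ[ℤ] x) = 0) → φ (piT H t₀) = 0)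
    (hY : ∀ n : ℕ, ∀ x ∈ Λ', (levelData p (N' * p) hpS hNS).Θ n x ∈ newSub h hpS hNS n) :
    (pushRep H φ hφ).IsStrictOrdinaryAt p := by
  have hp : p.Prime := Fact.out
  refine isStrictOrdinaryAt_pushRep_of_ann hp2 hp𝒪 h hside hpS hNS H ?_ φ hφ hsurj Λ' hann hY
  exact Fermat.Agent.GS.Top.Aux3.s33_of_frameNodes hp hp2 hp𝒪 ⟨h.dvd, h.not_sq⟩ hNS H hres
    (fun N'' _ h'' hside'' =>
      Fermat.Agent.GS.Top.FrameNodeAll.frameNode_all p N'' h'' hp2 hside'')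

end Fermat.Agent.GB.B10.L.StrictQ
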