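/-
GATE-B / GB-PNEW, consumer plug (helper39): **the GalPkg over `T_Q`, STRICT-ORDINARY case, at a
level `N = N' p` with `p ∥ N`** — the SO twin of helper32 `PushTloc.exists_galRep_flat` and helper12
`TQGal.exists_galRep_flat_of_rhobar`, with NO strictness binder on `H.ρ` (it is false at the twisted
Taylor–Wiles level): the strictness of the PUSHED representation comes from `StrictQ` (ROUTE L).

Binders beyond the flat case:
* `hordbar` / `hres` : residual ordinarity at `p` (helper69 `GB/ResOrd`);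
* `Λ' ≤ Lam N` (application: `LamNew`), `hann` : a Hecke operator killing `𝒪 ⊗ Λ'` dies under the
  `𝒪`-linear extension `twO tw : 𝒪 ⊗ 𝕋 →ₐ[𝒪] T_Q` of `tw` (helper44 (ANN)),
  `hY : Θ_n Λ' ⊆ newSub n` (helper63 (L3a)).

* `twO`, `twO_tmul`, `map_piT_eq_twO`        : the extension and `φ ∘ piT H = twO tw`;
* `strictCond_push_of_strictQ`               : `strictCond_push` with the binder on the pushed rep;
* `exists_galRep_strict_of_ann`              : SO twin of `PushTloc.exists_galRep_flat`;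
* `exists_galRep_strict_of_rhobar`           : SO twin of `TQGal.exists_galRep_flat_of_rhobar`.
-/
import Fermat.Agent.GB.B10.L.StrictQ
import Fermat.Agent.GB.B4.Datum.PushTloc
import Fermat.Agent.GB.Glue.DatumOfRhobar
import Fermat.Agent.GB.ResOrd.Plug

set_option autoImplicit false
set_option linter.unusedSectionVars false
set_option linter.style.haveILetI false

noncomputable section

namespace Fermat.Agent.GB.B10.L.GalPkgSO

open TensorProduct CuspForm IsLocalRing Polynomial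
open Fermat.Agent.GK.AL
open Fermat.Agent.GB.B4.Datum.Carrier Fermat.Agent.GB.B4.Datum.Push
open Fermat.Agent.GB.B10.KumLevelHecke Fermat.Agent.GB.B10.L.NewInst

local notation "GQ" => (AlgebraicClosure ℚ ≃ₐ[ℚ] AlgebraicClosure ℚ)
local notation "Qb" => AlgebraicClosure ℚ

/-! ### the `𝒪`-linear extension of a Hecke hom -/

section TwO

variable {𝒪 : Type} [CommRing 𝒪] {A : Type} [CommRing A] {TQ : Type} [CommRing TQ] [Algebra 𝒪 TQ]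

/-- the `𝒪`-linear extension `𝒪 ⊗ A →ₐ[𝒪] T_Q` of a ring hom `tw : A →+* T_Q`. -/
def twO (tw : A →+* TQ) : 𝒪 ⊗[ℤ] A →ₐ[𝒪] TQ :=
  Algebra.TensorProduct.lift (Algebra.ofId 𝒪 TQ) tw.toIntAlgHom (fun _ _ => Commute.all _ _)

theorem twO_tmul (tw : A →+* TQ) (r : 𝒪) (t : A) :
    twO (𝒪 := 𝒪) tw (r ⊗ₜ[ℤ] t) = algebraMap 𝒪 TQ r * tw t := by
  rw [twO, Algebra.TensorProduct.lift_tmul]
  rfl

end TwO

section Datum

variable {p : ℕ} {N : ℕ} [NeZero N] {S : Finset ℕ}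
  {𝒪 : Type} [CommRing 𝒪] [IsDomain 𝒪] [IsDiscreteValuationRing 𝒪]
  [IsAdicComplete (IsLocalRing.maximalIdeal 𝒪) 𝒪]
  {θ : CuspForm.heckeAlgebra N 2 (↑S : Set ℕ) →+* IsLocalRing.ResidueField 𝒪}
  {T : Type} [CommRing T] [IsLocalRing T] [IsNoetherianRing T]
  [IsAdicComplete (IsLocalRing.maximalIdeal T) T] [Algebra 𝒪 T] [IsLocalHom (algebraMap 𝒪 T)]
  [Module.Finite 𝒪 T] [Module.Free 𝒪 T]
  {TQ : Type} [CommRing TQ] [IsLocalRing TQ] [Algebra 𝒪 TQ]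

/-- `φ ∘ piT H = twO tw` for an `𝒪`-algebra hom `φ` with `φ ∘ H.π = tw`. -/
theorem map_piT_eq_twO (H : HeckeGaloisRepDatum N (↑S : Set ℕ) 𝒪 θ T)
    (tw : heckeAlgebra N 2 (↑S : Set ℕ) →+* TQ) (φ : T →ₐ[𝒪] TQ) (hφt : ∀ t, φ (H.π t) = tw t)
    (t₀ : 𝒪 ⊗[ℤ] heckeAlgebra N 2 (↑S : Set ℕ)) :
    φ (Fermat.Agent.GH.S32.Inst.piT H t₀) = twO (𝒪 := 𝒪) tw t₀ := by
  induction t₀ using TensorProduct.induction_on with
  | zero => rw [map_zero, map_zero, map_zero]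
  | tmul r t =>
    rw [Fermat.Agent.GH.S32.Inst.piT_tmul, map_mul, AlgHom.commutes, hφt, twO_tmul]
  | add x y hx hy => rw [map_add, map_add, map_add, hx, hy]

/-- **`strictCond_push` with the strictness binder on the PUSHED representation** (STRICTQ). -/
theorem strictCond_push_of_strictQ [Finite (ResidueField 𝒪)] [CharZero 𝒪] (hp : p.Prime)
    (hp𝒪 : (p : 𝒪) ∈ IsLocalRing.maximalIdeal 𝒪) (hpS : p ∈ S)
    (hNS : ∀ q : ℕ, q.Prime → q ∣ N → q ∈ S)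
    (H : HeckeGaloisRepDatum N (↑S : Set ℕ) 𝒪 θ T) (φ : T →+* TQ) (hφ : IsLocalHom φ)
    (hstrict : (pushRep H φ hφ).IsStrictOrdinaryAt p) (Tram Smin : Finset ℕ) (hST : S ⊆ Tram)
    (hSmin : ∀ q ∈ Smin, q.Prime → q ≠ p → q ∣ N ∧ ¬ q ^ 2 ∣ N) :
    GaloisRep.strictOrdinaryCondition 𝒪 p Tram (pushRep H φ hφ) ∧
      ∀ q ∈ Smin, q.Prime → q ≠ p → (pushRep H φ hφ).IsUnipotentOnInertiaAt q :=
  ⟨⟨detIsCyclotomic_push hp hp𝒪 hpS H φ hφ, hstrict,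
      fun q hq hqT => isUnramifiedAt_push hp hp𝒪 hpS hNS H φ hφ q hq (fun h => hqT (hST h))⟩,
    fun q hqm hq hqp => isUnipotentOnInertiaAt_push hp hp𝒪 hpS hNS H φ hφ q hq hqp
      (hSmin q hqm hq hqp).1 (hSmin q hqm hq hqp).2⟩

end Datum

/-! ### the GalPkg, strict-ordinary case -/

section Gal

variable {N' p : ℕ} [NeZero N'] [Fact p.Prime] {S : Finset ℕ}
  {𝒪 : Type} [CommRing 𝒪] [IsDomain 𝒪] [IsDiscreteValuationRing 𝒪]
  [IsAdicComplete (IsLocalRing.maximalIdeal 𝒪) 𝒪] [Finite (ResidueField 𝒪)] [CharZero 𝒪]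
  {θ : CuspForm.heckeAlgebra (N' * p) 2 (↑S : Set ℕ) →+* IsLocalRing.ResidueField 𝒪}
  {TQ : Type} [CommRing TQ] [IsLocalRing TQ] [Algebra 𝒪 TQ] [IsLocalHom (algebraMap 𝒪 TQ)]

/-- **GalPkg, strict-ordinary case, from the lattice binders** (SO twin of
`PushTloc.exists_galRep_flat`): `H` a datum on the carrier `Tloc 𝒪 θ` at the level `N' p`, `p ∥ N' p`,
with `H.π = piT`; `tw` residually `θ` generating `T_Q`; residual ordinarity `hres`; `(hann)`, `(hY)`. -/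
theorem exists_galRep_strict_of_ann
    (hp2 : p ≠ 2) (hp𝒪 : (p : 𝒪) ∈ maximalIdeal 𝒪)
    (h : ExactDvd p (N' * p)) (hside : p = 3 → 2 ∣ N' * p)
    (hpS : p ∈ S) (hNS : ∀ r : ℕ, r.Prime → r ∣ N' * p → r ∈ S)
    (H : HeckeGaloisRepDatum (N' * p) (↑S : Set ℕ) 𝒪 θ (Tloc 𝒪 θ)) (hπ : H.π = piT 𝒪 θ)
    (hres : (GaloisRepAdic.ofResidualGaloisRep H.ρ.residual).IsOrdinaryAt p)
    (tw : heckeAlgebra (N' * p) 2 (↑S : Set ℕ) →+* TQ)
    (htw : ∀ t, residue TQ (tw t) = ResidueField.map (algebraMap 𝒪 TQ) (θ t))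
    (hgen : Algebra.adjoin 𝒪 (Set.range tw) = ⊤)
    (Tram Smin : Finset ℕ) (hST : S ⊆ Tram)
    (hSmin : ∀ q ∈ Smin, q.Prime → q ≠ p → q ∣ N' * p ∧ ¬ q ^ 2 ∣ N' * p)
    (Λ' : AddSubgroup (levelData p (N' * p) hpS hNS).Λ)
    (hann : ∀ t₀ : 𝒪 ⊗[ℤ] heckeAlgebra (N' * p) 2 (↑S : Set ℕ),
      (∀ (a : 𝒪), ∀ x ∈ Λ',
        (levelData p (N' * p) hpS hNS).heckeTensor 𝒪 t₀ (a ⊗ₜ[ℤ] x) = 0) →
          twO (𝒪 := 𝒪) tw t₀ = 0)
    (hY : ∀ n : ℕ, ∀ x ∈ Λ', (levelData p (N' * p) hpS hNS).Θ n x ∈ newSub h hpS hNS n) :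
    ∃ (φ : Tloc 𝒪 θ →ₐ[𝒪] TQ) (hφ : IsLocalHom φ.toRingHom), Function.Surjective φ ∧
      (∀ t, φ (piT 𝒪 θ t) = tw t) ∧
      (∀ (ℓ : ℕ) (hℓ : ℓ.Prime) (hℓN : ¬ ℓ ∣ N' * p) (hℓS : ℓ ∉ (↑S : Set ℕ))
        (A : ValuationSubring Qb), A.LiesOverPrime ℓ → ∀ σ : GQ, A.IsFrobeniusAt σ ℓ →
          LinearMap.charpoly ((pushRep H φ.toRingHom hφ).ρ σ) =
            X ^ 2 - C (tw (heckeAlgebra.T hℓ hℓN hℓS)) * X + C ((ℓ : TQ))) ∧
      (GaloisRep.strictOrdinaryCondition 𝒪 p Tram (pushRep H φ.toRingHom hφ) ∧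
        ∀ q ∈ Smin, q.Prime → q ≠ p → (pushRep H φ.toRingHom hφ).IsUnipotentOnInertiaAt q) := by
  have hp : p.Prime := Fact.out
  obtain ⟨φ, hφt, hloc, hsurj⟩ :=
    Fermat.Agent.GB.B4.Datum.PushTloc.exists_phi 𝒪 θ tw htw hgen
  haveI : IsNoetherianRing TQ := isNoetherianRing_of_surjective _ _ φ.toRingHom hsurj
  have hφH : ∀ t, φ (H.π t) = tw t := fun t => by rw [hπ]; exact hφt t
  refine ⟨φ, hloc, hsurj, hφt, ?_, ?_⟩
  · intro ℓ hℓ hℓN hℓS A hA σ hσ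
    have h1 := charpoly_frob_push H φ.toRingHom hloc ℓ hℓ hℓN hℓS A hA σ hσ
    rw [h1]
    congr 3
    exact congrArg _ (hφH _)
  · have hstrict : (pushRep H φ.toRingHom hloc).IsStrictOrdinaryAt p :=
      Fermat.Agent.GB.B10.L.StrictQ.isStrictOrdinaryAt_pushRep_of_ann_res hp2 hp𝒪 h hside hpS hNS H
        hres φ.toRingHom hloc hsurj Λ'
        (fun t₀ ht₀ => by
          have h2 := map_piT_eq_twO H tw φ hφH t₀
          rw [hann t₀ ht₀] at h2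
          exact h2)
        hY
    exact strictCond_push_of_strictQ hp hp𝒪 hpS hNS H φ.toRingHom hloc hstrict Tram Smin hST hSmin

/-- **GalPkg over ANY local `𝒪`-algebra `T_Q` generated by a residually-`θ` Hecke hom,
strict-ordinary case, from `ρbar`** (SO twin of `TQGal.exists_galRep_flat_of_rhobar`; the datum is
`GB/Glue/DatumOfRhobar.exists_datum`, the S33 binder `hres` comes from `hordbar` by helper69's
`ResOrd.Plug`). -/
theorem exists_galRep_strict_of_rhobar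
    (hp2 : p ≠ 2) (hp𝒪 : (p : 𝒪) ∈ maximalIdeal 𝒪)
    (h : ExactDvd p (N' * p)) (hside : p = 3 → 2 ∣ N' * p)
    (hpS : p ∈ S) (hNS : ∀ r : ℕ, r.Prime → r ∣ N' * p → r ∈ S)
    (ρbar : ResidualGaloisRep (ResidueField 𝒪)) (habs : ρbar.IsAbsolutelyIrreducible)
    (hfrob : ∀ (ℓ : ℕ) (hℓ : ℓ.Prime) (hℓN : ¬ ℓ ∣ N' * p) (hℓS : ℓ ∉ (↑S : Set ℕ)),
      ∀ P : ValuationSubring Qb, P.LiesOverPrime ℓ → ∀ σ : GQ, P.IsFrobeniusAt σ ℓ →
        ∃ d₀ : ResidueField 𝒪, LinearMap.charpoly (ρbar.ρ σ) =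
          X ^ 2 - C (θ (heckeAlgebra.T hℓ hℓN hℓS)) * X + C d₀)
    (hordbar : (GaloisRepAdic.ofResidualGaloisRep ρbar).IsOrdinaryAt p)
    (tw : heckeAlgebra (N' * p) 2 (↑S : Set ℕ) →+* TQ)
    (htw : ∀ t, residue TQ (tw t) = ResidueField.map (algebraMap 𝒪 TQ) (θ t))
    (hgen : Algebra.adjoin 𝒪 (Set.range tw) = ⊤)
    (Tram Smin : Finset ℕ) (hST : S ⊆ Tram)
    (hSmin : ∀ q ∈ Smin, q.Prime → q ≠ p → q ∣ N' * p ∧ ¬ q ^ 2 ∣ N' * p)
    (Λ' : AddSubgroup (levelData p (N' * p) hpS hNS).Λ)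
    (hann : ∀ t₀ : 𝒪 ⊗[ℤ] heckeAlgebra (N' * p) 2 (↑S : Set ℕ),
      (∀ (a : 𝒪), ∀ x ∈ Λ',
        (levelData p (N' * p) hpS hNS).heckeTensor 𝒪 t₀ (a ⊗ₜ[ℤ] x) = 0) →
          twO (𝒪 := 𝒪) tw t₀ = 0)
    (hY : ∀ n : ℕ, ∀ x ∈ Λ', (levelData p (N' * p) hpS hNS).Θ n x ∈ newSub h hpS hNS n) :
    ∃ ρQ : GaloisRepAdic TQ,
      (∀ (ℓ : ℕ) (hℓ : ℓ.Prime) (hℓN : ¬ ℓ ∣ N' * p) (hℓS : ℓ ∉ (↑S : Set ℕ))
        (A : ValuationSubring Qb), A.LiesOverPrime ℓ → ∀ σ : GQ, A.IsFrobeniusAt σ ℓ →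
          LinearMap.charpoly (ρQ.ρ σ) =
            X ^ 2 - C (tw (heckeAlgebra.T hℓ hℓN hℓS)) * X + C ((ℓ : TQ))) ∧
      ρQ.DetIsCyclotomic p ∧
      (∀ q : ℕ, q.Prime → q ∉ S → ρQ.IsUnramifiedAt q) ∧
      GaloisRep.strictOrdinaryCondition 𝒪 p Tram ρQ ∧
      (∀ q ∈ Smin, q.Prime → q ≠ p → ρQ.IsUnipotentOnInertiaAt q) ∧
      ρQ.residual.IsEquiv (ρbar.baseChangeAlong (ResidueField.map (algebraMap 𝒪 TQ))) := by
  have hp : p.Prime := Fact.out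
  obtain ⟨H, hπ, -, -, hres'⟩ :=
    Fermat.Agent.GB.Glue.DatumOfRhobar.exists_datum p (N' * p) S 𝒪 θ hp2 hpS hNS hp𝒪 ρbar habs
      hfrob
  have hres : (GaloisRepAdic.ofResidualGaloisRep H.ρ.residual).IsOrdinaryAt p := by
    obtain ⟨e⟩ := hres'
    exact Fermat.Agent.GB.ResOrd.Plug.isOrdinaryAt_of_isEquiv ⟨e.symm⟩
      (Fermat.Agent.GB.ResOrd.Plug.isOrdinaryAt_baseChangeAlong ρbar _ hordbar)
  obtain ⟨φ, hφ, -, -, hchar, hstrict, hunip⟩ :=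
    exists_galRep_strict_of_ann (TQ := TQ) hp2 hp𝒪 h hside hpS hNS H hπ hres tw htw hgen Tram Smin
      hST hSmin Λ' hann hY
  refine ⟨pushRep H φ.toRingHom hφ, hchar, detIsCyclotomic_push hp hp𝒪 hpS H φ.toRingHom hφ,
    fun q hq hqS => isUnramifiedAt_push hp hp𝒪 hpS hNS H φ.toRingHom hφ q hq hqS,
    hstrict, hunip, ?_⟩
  have h1 := Fermat.Agent.GB.B4.Datum.PushTloc.residual_push H.ρ φ.toRingHom hφ ρbar
    (ResidueField.map (algebraMap 𝒪 (Tloc 𝒪 θ))) hres'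
  haveI := hφ
  have e : (ResidueField.map φ.toRingHom).comp (ResidueField.map (algebraMap 𝒪 (Tloc 𝒪 θ))) =
      ResidueField.map (algebraMap 𝒪 TQ) := by
    ext x
    obtain ⟨a, rfl⟩ := residue_surjective x
    rw [RingHom.comp_apply, ResidueField.map_residue, ResidueField.map_residue,
      ResidueField.map_residue]
    congr 1
    exact φ.commutes a
  rw [e] at h1
  exact h1

end Gal

end Fermat.Agent.GB.B10.L.GalPkgSO
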