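/-
GATE-B / GB-PNEW, consumer plug (helper39): **the strict-ordinary GalPkg over the IMAGE RING
`T_Q = ImageRing.TQ 𝒪 θ tw`** of an `End`-valued (twisted) Hecke action, at a level `N = N' p` with
`p ∥ N` — the SO twin of helper12 `TQGal.exists_galRep_TQ_flat`, with the MODULE-LEVEL statement
(ANN) (helper44, `GB/B10/L/Ann`) as binder:

  `(hAnn)` a Hecke operator `t₀ ∈ 𝒪 ⊗ 𝕋` killing `𝒪 ⊗ Λ'` acts as zero on the module `M`.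

* `twO_chi_eq_mkQ`            : the ring-valued extension `GalPkgSO.twO (chi tw)` is `mkQ`;
* `hann_of_module`            : (ANN) at module level ⟹ the binder `hann` of `GalPkgSO`;
* `hAnn_prodTw`               : (ANN) for `M₁` and `M₂` ⟹ (ANN) for `M₁ × M₂` (`TQFields.prodTw`);
* `exists_galRep_TQ_strict`   : SO twin of `TQGal.exists_galRep_TQ_flat`.
-/
import Fermat.Agent.GB.B10.L.GalPkgSO
import Fermat.Agent.GB.B4.Datum.TQFields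

set_option autoImplicit false
set_option linter.unusedSectionVars false
set_option linter.style.haveILetI false

noncomputable section

namespace Fermat.Agent.GB.B10.L.GalPkgSOImg

open TensorProduct CuspForm IsLocalRing Polynomial
open Fermat.Agent.GK.AL
open Fermat.Agent.GB.B4.Datum.Carrier Fermat.Agent.GB.B4.Datum.Push
open Fermat.Agent.GB.B4.Datum.ImageRing
open Fermat.Agent.GB.B10.KumLevelHecke Fermat.Agent.GB.B10.L.NewInst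

local notation "GQ" => (AlgebraicClosure ℚ ≃ₐ[ℚ] AlgebraicClosure ℚ)
local notation "Qb" => AlgebraicClosure ℚ

section Ring

variable {𝒪 : Type} [CommRing 𝒪] [IsLocalRing 𝒪] {A : Type} [CommRing A]
  {M : Type} [AddCommGroup M] [Module 𝒪 M] {θ : A →+* ResidueField 𝒪}

/-- the ring-valued `𝒪`-linear extension of `chi` is the quotient map `mkQ`. -/
theorem twO_chi_eq_mkQ (tw : A →+* Module.End 𝒪 M) (t₀ : 𝒪 ⊗[ℤ] A) :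
    Fermat.Agent.GB.B10.L.GalPkgSO.twO (𝒪 := 𝒪) (chi 𝒪 θ tw) t₀ = mkQ 𝒪 θ tw t₀ := by
  induction t₀ using TensorProduct.induction_on with
  | zero => rw [map_zero, map_zero]
  | tmul r t =>
    rw [Fermat.Agent.GB.B10.L.GalPkgSO.twO_tmul, mkQ_tmul, Algebra.smul_def]
  | add x y hx hy => rw [map_add, map_add, hx, hy]

/-- **(ANN) at module level ⟹ the binder `hann` of `GalPkgSO`**, for any predicate `Kills` on
`𝒪 ⊗ A` ("kills `𝒪 ⊗ Λ'`"). -/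
theorem hann_of_module (tw : A →+* Module.End 𝒪 M) (Kills : 𝒪 ⊗[ℤ] A → Prop)
    (hAnn : ∀ t₀ : 𝒪 ⊗[ℤ] A, Kills t₀ → ∀ m : M, twO 𝒪 tw t₀ m = 0) :
    ∀ t₀ : 𝒪 ⊗[ℤ] A, Kills t₀ →
      Fermat.Agent.GB.B10.L.GalPkgSO.twO (𝒪 := 𝒪) (chi 𝒪 θ tw) t₀ = 0 := fun t₀ h => by
  rw [twO_chi_eq_mkQ]
  exact (mkQ_eq_zero_iff 𝒪 θ tw t₀).mpr (LinearMap.ext fun m => hAnn t₀ h m)

/-- (ANN) for the two factors ⟹ (ANN) for the product action `TQFields.prodTw`. -/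
theorem hAnn_prodTw {M₂ : Type} [AddCommGroup M₂] [Module 𝒪 M₂]
    (tw₁ : A →+* Module.End 𝒪 M) (tw₂ : A →+* Module.End 𝒪 M₂) (Kills : 𝒪 ⊗[ℤ] A → Prop)
    (hAnn₁ : ∀ t₀ : 𝒪 ⊗[ℤ] A, Kills t₀ → ∀ m : M, twO 𝒪 tw₁ t₀ m = 0)
    (hAnn₂ : ∀ t₀ : 𝒪 ⊗[ℤ] A, Kills t₀ → ∀ m : M₂, twO 𝒪 tw₂ t₀ m = 0) :
    ∀ t₀ : 𝒪 ⊗[ℤ] A, Kills t₀ → ∀ m : M × M₂,
      twO 𝒪 (Fermat.Agent.GB.B4.Datum.TQFields.prodTw 𝒪 tw₁ tw₂) t₀ m = 0 := fun t₀ h m => by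
  rw [Fermat.Agent.GB.B4.Datum.TQFields.twO_prodTw_apply, hAnn₁ t₀ h, hAnn₂ t₀ h]
  rfl

end Ring

section Gal

variable {N' p : ℕ} [NeZero N'] [Fact p.Prime] {S : Finset ℕ}
  {𝒪 : Type} [CommRing 𝒪] [IsDomain 𝒪] [IsDiscreteValuationRing 𝒪]
  [IsAdicComplete (IsLocalRing.maximalIdeal 𝒪) 𝒪] [Finite (ResidueField 𝒪)] [CharZero 𝒪]
  {θ : CuspForm.heckeAlgebra (N' * p) 2 (↑S : Set ℕ) →+* IsLocalRing.ResidueField 𝒪}
  {M : Type} [AddCommGroup M] [Module 𝒪 M] [Module.Finite 𝒪 M] [Module.Free 𝒪 M]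
  [Nontrivial M] {tw : heckeAlgebra (N' * p) 2 (↑S : Set ℕ) →+* Module.End 𝒪 M}

/-- **GalPkg over the image ring `TQ 𝒪 θ tw` of an `End`-valued Hecke action, strict-ordinary case**
(SO twin of `TQGal.exists_galRep_TQ_flat`): binders `hordbar` (residual ordinarity), the
module-level `(hAnn)` and `(hY)`. -/
theorem exists_galRep_TQ_strict [hloc : Fact (LocHyp 𝒪 θ tw)]
    (hp2 : p ≠ 2) (hp𝒪 : (p : 𝒪) ∈ maximalIdeal 𝒪)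
    (h : ExactDvd p (N' * p)) (hside : p = 3 → 2 ∣ N' * p)
    (hpS : p ∈ S) (hNS : ∀ r : ℕ, r.Prime → r ∣ N' * p → r ∈ S)
    (ρbar : ResidualGaloisRep (ResidueField 𝒪)) (habs : ρbar.IsAbsolutelyIrreducible)
    (hfrob : ∀ (ℓ : ℕ) (hℓ : ℓ.Prime) (hℓN : ¬ ℓ ∣ N' * p) (hℓS : ℓ ∉ (↑S : Set ℕ)),
      ∀ P : ValuationSubring Qb, P.LiesOverPrime ℓ → ∀ σ : GQ, P.IsFrobeniusAt σ ℓ →
        ∃ d₀ : ResidueField 𝒪, LinearMap.charpoly (ρbar.ρ σ) =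
          X ^ 2 - C (θ (heckeAlgebra.T hℓ hℓN hℓS)) * X + C d₀)
    (hordbar : (GaloisRepAdic.ofResidualGaloisRep ρbar).IsOrdinaryAt p)
    (Tram Smin : Finset ℕ) (hST : S ⊆ Tram)
    (hSmin : ∀ q ∈ Smin, q.Prime → q ≠ p → q ∣ N' * p ∧ ¬ q ^ 2 ∣ N' * p)
    (Λ' : AddSubgroup (levelData p (N' * p) hpS hNS).Λ)
    (hAnn : ∀ t₀ : 𝒪 ⊗[ℤ] heckeAlgebra (N' * p) 2 (↑S : Set ℕ),
      (∀ (a : 𝒪), ∀ x ∈ Λ',
        (levelData p (N' * p) hpS hNS).heckeTensor 𝒪 t₀ (a ⊗ₜ[ℤ] x) = 0) →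
          ∀ m : M, twO 𝒪 tw t₀ m = 0)
    (hY : ∀ n : ℕ, ∀ x ∈ Λ', (levelData p (N' * p) hpS hNS).Θ n x ∈ newSub h hpS hNS n) :
    ∃ ρQ : GaloisRepAdic (TQ 𝒪 θ tw),
      (∀ (ℓ : ℕ) (hℓ : ℓ.Prime) (hℓN : ¬ ℓ ∣ N' * p) (hℓS : ℓ ∉ (↑S : Set ℕ))
        (A : ValuationSubring Qb), A.LiesOverPrime ℓ → ∀ σ : GQ, A.IsFrobeniusAt σ ℓ →
          LinearMap.charpoly (ρQ.ρ σ) =
            X ^ 2 - C (chi 𝒪 θ tw (heckeAlgebra.T hℓ hℓN hℓS)) * X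
              + C ((ℓ : TQ 𝒪 θ tw))) ∧
      ρQ.DetIsCyclotomic p ∧
      (∀ q : ℕ, q.Prime → q ∉ S → ρQ.IsUnramifiedAt q) ∧
      GaloisRep.strictOrdinaryCondition 𝒪 p Tram ρQ ∧
      (∀ q ∈ Smin, q.Prime → q ≠ p → ρQ.IsUnipotentOnInertiaAt q) ∧
      ρQ.residual.IsEquiv
        (ρbar.baseChangeAlong (ResidueField.map (algebraMap 𝒪 (TQ 𝒪 θ tw)))) :=
  Fermat.Agent.GB.B10.L.GalPkgSO.exists_galRep_strict_of_rhobar hp2 hp𝒪 h hside hpS hNS ρbar habs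
    hfrob hordbar (chi 𝒪 θ tw) (fun t => residue_chi (θ := θ) (tw := tw) t)
    (adjoin_range_chi 𝒪 θ tw) Tram Smin hST hSmin Λ'
    (hann_of_module (θ := θ) tw _ hAnn) hY

end Gal

end Fermat.Agent.GB.B10.L.GalPkgSOImg
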