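/-
GATE-B / GB-PNEW / (ANN) step (ii) FLATNESS, hom-level export (helper81; signature = helper32
board 6158 §2 VERBATIM).

A parabolic homomorphism `f : Γ₀(N) → A` into a torsion-free abelian group `A`, killed by every
operator of a family of coset systems `Sy k : CosetSys emb Γ₀(N) (Γ₂ k)` (e.g. `cores`, `cores_δ`),
is a finite sum `f = ∑ j, (n ↦ n • e j) ∘ Ψ j` with `Ψ j ∈ Λ = Lam N = Hom_par(Γ₀(N), ℤ)` and
EVERY `Ψ j` killed by every `(Sy k).op ℤ` (i.e. `Ψ j ∈ Λnew`).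

No tensor products: `ℤ`-basis of the (finitely generated, torsion-free, hence free) span of the
coefficients `f (β_i)` (the `exists_int_decomp` trick of `GB/Setup/DPos`), then linear independence.

* `exists_new_expansion_hom_gen` : generic f.g. group `Γ₁`, set `Ps` of "parabolic" elements;
* `exists_new_expansion_hom` : `Γ₁ = Γ₀(N)`, `IsParabolicHom`, `Lam N`.
-/
import Mathlib
import Fermat.Agent.GJ.J2.ZStructGen
import Fermat.Agent.GJ.J2.ZStruct
import Fermat.Agent.GJ.J2.Lattice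
import Fermat.Agent.GM.B.System

set_option autoImplicit false

noncomputable section

namespace Fermat.Agent.GB.B10.L.NewExpansion

open Finset

section Gen

open Fermat.Agent.GJ.J2.ZStruct Fermat.Agent.GM.B

variable {H G : Type*} [Group H] [Group G] {emb : H →* G} {Γ₁ : Subgroup H}
  (Ps : Set Γ₁) [Group.FG Γ₁] {κ : Type*} {Γ₂ : κ → Subgroup H}
  (Sy : ∀ k, CosetSys emb Γ₁ (Γ₂ k))
  {A : Type*} [AddCommGroup A]

/-- **(ii) FLATNESS, generic hom-level form**: `f : Γ₁ → A` (`A` torsion-free) killing `Ps` and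
killed by every `(Sy k).op` is `∑ j, (n ↦ n • e j) ∘ Ψ j` with integral `Ψ j` killing `Ps` and
killed by every `(Sy k).op ℤ`; the `e j` are `ℤ`-linearly independent. -/
theorem exists_new_expansion_hom_gen (hA : ∀ (n : ℤ) (a : A), n ≠ 0 → n • a = 0 → a = 0)
    (f : Additive Γ₁ →+ A) (hf : KillsOn Ps f) (h0 : ∀ k, (Sy k).op A f = 0) :
    ∃ (r : ℕ) (e : Fin r → A) (Ψ : Fin r → Additive Γ₁ →+ ℤ),
      LinearIndependent ℤ e ∧ (∀ j, KillsOn Ps (Ψ j)) ∧ (∀ j k, (Sy k).op ℤ (Ψ j) = 0) ∧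
        f = ∑ j, (zmultiplesHom A (e j)).comp (Ψ j) := by
  classical
  haveI : Module.IsTorsionFree ℤ A := Module.IsTorsionFree.of_smul_eq_zero fun n a h => by
    by_cases hn : n = 0
    · exact Or.inl hn
    · exact Or.inr (hA n a hn h)
  set Cs : Submodule ℤ A := Submodule.span ℤ (Set.range fun i : Idx Ps => f (betaB Ps i)) with hCs
  haveI : Module.Finite ℤ Cs := Module.Finite.span_of_finite ℤ (Set.finite_range _)
  haveI : Module.IsTorsionFree ℤ Cs :=
    Function.Injective.moduleIsTorsionFree Cs.subtype Cs.injective_subtype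
      (fun r m => map_smul Cs.subtype r m)
  haveI : Module.Free ℤ Cs := Module.free_of_finite_type_torsion_free'
  let b := Module.finBasis ℤ Cs
  have hmem : ∀ i, f (betaB Ps i) ∈ Cs := fun i => Submodule.subset_span ⟨i, rfl⟩
  have hli : LinearIndependent ℤ fun j => (b j : A) :=
    b.linearIndependent.map' Cs.subtype (Submodule.ker_subtype _)
  -- the coefficients of `f (β_i)` in the basis
  have hcoef : ∀ i, f (betaB Ps i) = ∑ j, b.repr ⟨f (betaB Ps i), hmem i⟩ j • (b j : A) := by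
    intro i
    have h1 := congrArg (Submodule.subtype Cs) (b.sum_repr ⟨f (betaB Ps i), hmem i⟩)
    rw [map_sum] at h1
    simp only [map_smul, Submodule.subtype_apply] at h1
    exact h1.symm
  set Ψ : Fin (Module.finrank ℤ Cs) → Additive Γ₁ →+ ℤ :=
    fun j => ∑ i, b.repr ⟨f (betaB Ps i), hmem i⟩ j • PhiB Ps i with hΨ
  have hΨapp : ∀ j γ, Ψ j γ = ∑ i, b.repr ⟨f (betaB Ps i), hmem i⟩ j * PhiB Ps i γ := by
    intro j γ
    rw [hΨ]
    simp only [AddMonoidHom.finsetSum_apply, AddMonoidHom.smul_apply, smul_eq_mul]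
  have hsum : f = ∑ j, (zmultiplesHom A (b j : A)).comp (Ψ j) := by
    refine AddMonoidHom.ext fun γ => ?_
    rw [AddMonoidHom.finsetSum_apply, expansion Ps hA f hf γ]
    simp only [AddMonoidHom.comp_apply, zmultiplesHom_apply, hΨapp, Finset.sum_smul]
    rw [Finset.sum_comm]
    refine Finset.sum_congr rfl fun i _ => ?_
    conv_lhs => rw [hcoef i]
    rw [Finset.smul_sum]
    refine Finset.sum_congr rfl fun j _ => ?_
    rw [smul_smul, mul_comm]
  refine ⟨_, fun j => (b j : A), Ψ, hli, fun j γ hγ => ?_, fun j k => ?_, hsum⟩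
  · rw [hΨapp]
    refine Finset.sum_eq_zero fun i _ => ?_
    rw [PhiB_kills Ps i γ hγ, mul_zero]
  · refine AddMonoidHom.ext fun g => ?_
    have h1 : (Sy k).op A f = ∑ j', (zmultiplesHom A (b j' : A)).comp ((Sy k).op ℤ (Ψ j')) := by
      conv_lhs => rw [hsum]
      rw [map_sum]
      refine Finset.sum_congr rfl fun j' _ => ?_
      exact CosetSys.op_comp_hom (Sy k) _ _
    have h2 : ∑ j', ((Sy k).op ℤ (Ψ j') g) • (b j' : A) = 0 := by
      have h3 := DFunLike.congr_fun h1 g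
      rw [h0 k, AddMonoidHom.zero_apply, AddMonoidHom.finsetSum_apply] at h3
      simpa only [AddMonoidHom.comp_apply, zmultiplesHom_apply] using h3.symm
    exact Fintype.linearIndependent_iff.mp hli _ h2 j

end Gen

/-! ### `Γ₀(N)` -/

section Gamma0

open CongruenceSubgroup ModularCurve ModularCurve.Period
open Fermat.Agent.GJ.J2.ZStruct Fermat.Agent.GJ.J2.Lat Fermat.Agent.GM.B
open scoped MatrixGroups

/-- **(ii) FLATNESS at `Γ₀(N)`, hom-level form** (helper32 6158 §2 VERBATIM): a parabolic hom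
`f : Γ₀(N) → A` (`A` torsion-free) with `(Sy k).op A f = 0` for all `k` (e.g. `cores f = 0 =
cores_δ f`) is `∑ j, (n ↦ n • e j) ∘ Ψ j` with `Ψ j ∈ Λ = Lam N` killed by every `(Sy k).op ℤ`
(elements of `Λnew`). -/
theorem exists_new_expansion_hom {N : ℕ} [NeZero N] {G : Type*} [Group G] {emb : SL(2, ℤ) →* G}
    {κ : Type*} {Γ₂ : κ → Subgroup SL(2, ℤ)} (Sy : ∀ k, CosetSys emb (Gamma0 N) (Γ₂ k))
    {A : Type*} [AddCommGroup A] (hA : ∀ (n : ℤ) (a : A), n ≠ 0 → n • a = 0 → a = 0)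
    (f : Additive (Gamma0 N) →+ A) (hf : IsParabolicHom (Gamma0 N) f)
    (h0 : ∀ k, (Sy k).op A f = 0) :
    ∃ (r : ℕ) (e : Fin r → A) (Ψ : Fin r → Lam N),
      (∀ j k, (Sy k).op ℤ (Ψ j : Additive (Gamma0 N) →+ ℤ) = 0) ∧
        f = ∑ j, (zmultiplesHom A (e j)).comp (Ψ j : Additive (Gamma0 N) →+ ℤ) := by
  obtain ⟨r, e, Ψ, -, hΨ, hS, hexp⟩ :=
    exists_new_expansion_hom_gen (parSet N) Sy hA f ((killsOn_iff N f).2 hf) h0
  exact ⟨r, e, fun j => ⟨Ψ j, (killsOn_iff N (Ψ j)).1 (hΨ j)⟩, hS, hexp⟩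

/-- the same with the `ℤ`-linear independence of the coefficients `e j` recorded -/
theorem exists_new_expansion_hom_li {N : ℕ} [NeZero N] {G : Type*} [Group G]
    {emb : SL(2, ℤ) →* G}
    {κ : Type*} {Γ₂ : κ → Subgroup SL(2, ℤ)} (Sy : ∀ k, CosetSys emb (Gamma0 N) (Γ₂ k))
    {A : Type*} [AddCommGroup A] (hA : ∀ (n : ℤ) (a : A), n ≠ 0 → n • a = 0 → a = 0)
    (f : Additive (Gamma0 N) →+ A) (hf : IsParabolicHom (Gamma0 N) f)
    (h0 : ∀ k, (Sy k).op A f = 0) :
    ∃ (r : ℕ) (e : Fin r → A) (Ψ : Fin r → Lam N), LinearIndependent ℤ e ∧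
      (∀ j k, (Sy k).op ℤ (Ψ j : Additive (Gamma0 N) →+ ℤ) = 0) ∧
        f = ∑ j, (zmultiplesHom A (e j)).comp (Ψ j : Additive (Gamma0 N) →+ ℤ) := by
  obtain ⟨r, e, Ψ, hli, hΨ, hS, hexp⟩ :=
    exists_new_expansion_hom_gen (parSet N) Sy hA f ((killsOn_iff N f).2 hf) h0
  exact ⟨r, e, fun j => ⟨Ψ j, (killsOn_iff N (Ψ j)).1 (hΨ j)⟩, hli, hS, hexp⟩

end Gamma0

end Fermat.Agent.GB.B10.L.NewExpansion
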