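/-
GATE-B / GB-PNEW (helper32): **the `_new` corollaries** — `(ASM)` (`StrictQ`) and the strict GalPkg over
the image ring (`GalPkgSOImg`) with `Λ' := ThetaNew.LamNew` and the `(hY)` binder DISCHARGED
(`ThetaNew.hY_lamNew`).  The only open binder left is the annihilator statement `(ANN)`:

  a Hecke operator `t₀ ∈ 𝒪 ⊗ 𝕋` killing `𝒪 ⊗ LamNew` dies in `T_Q`   (ring level, `hann`), resp.
  acts as zero on the module `M` whose image ring is `T_Q`          (module level, `hAnn`).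

* `not_dvd_of_exactDvd`                     : `p ∥ N' p ⟹ p ∤ N'`;
* `isStrictOrdinaryAt_pushRep_of_ann_new`   : `(hann)` + S33's `hres` ⟹ `(pushRep H φ).IsStrictOrdinaryAt p`;
* `exists_galRep_TQ_strict_new`             : `(hAnn)` + `hordbar` ⟹ the strict GalPkg over `TQ 𝒪 θ tw`.
-/
import Fermat.Agent.GB.B10.L.StrictQ
import Fermat.Agent.GB.B10.L.GalPkgSOImg
import Fermat.Agent.GB.B10.L.ThetaNew

set_option autoImplicit false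
set_option linter.unusedSectionVars false
set_option linter.style.haveILetI false

noncomputable section

namespace Fermat.Agent.GB.B10.L.StrictQNew

open TensorProduct CuspForm IsLocalRing Polynomial
open Fermat.Agent.GK.AL
open Fermat.Agent.GB.B4.Datum.Carrier Fermat.Agent.GB.B4.Datum.Push
open Fermat.Agent.GB.B4.Datum.ImageRing
open Fermat.Agent.GB.B10.KumLevelHecke Fermat.Agent.GB.B10.L.NewInst
open Fermat.Agent.GB.B10.L.ThetaNew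

local notation "GQ" => (AlgebraicClosure ℚ ≃ₐ[ℚ] AlgebraicClosure ℚ)
local notation "Qb" => AlgebraicClosure ℚ

/-- `p ∥ N' p ⟹ p ∤ N'`. -/
theorem not_dvd_of_exactDvd {N' p : ℕ} (h : ExactDvd p (N' * p)) : ¬ p ∣ N' := by
  rintro ⟨c, rfl⟩
  exact h.not_sq ⟨c, by ring⟩

section Push

variable {N' p : ℕ} [NeZero N'] [Fact p.Prime] {S : Finset ℕ}
  {𝒪 : Type} [CommRing 𝒪] [IsDomain 𝒪] [IsDiscreteValuationRing 𝒪]
  [IsAdicComplete (IsLocalRing.maximalIdeal 𝒪) 𝒪]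
  {θ : CuspForm.heckeAlgebra (N' * p) 2 (↑S : Set ℕ) →+* IsLocalRing.ResidueField 𝒪}
  {T : Type} [CommRing T] [IsLocalRing T] [IsNoetherianRing T]
  [IsAdicComplete (IsLocalRing.maximalIdeal T) T] [Algebra 𝒪 T] [IsLocalHom (algebraMap 𝒪 T)]
  [Module.Finite 𝒪 T] [Module.Free 𝒪 T]
  {TQ : Type} [CommRing TQ] [IsLocalRing TQ] [IsNoetherianRing TQ]

/-- **(ASM) on the `p`-new lattice**: `(hann)` for `LamNew` + the frozen S33 hypothesis `hres`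
⟹ `(STRICTQ)`. -/
theorem isStrictOrdinaryAt_pushRep_of_ann_new [Finite (IsLocalRing.ResidueField 𝒪)] [CharZero 𝒪]
    (hp2 : p ≠ 2) (hp𝒪 : (p : 𝒪) ∈ maximalIdeal 𝒪)
    (h : ExactDvd p (N' * p)) (hside : p = 3 → 2 ∣ N' * p)
    (hpS : p ∈ S) (hNS : ∀ r : ℕ, r.Prime → r ∣ N' * p → r ∈ S)
    (H : CuspForm.HeckeGaloisRepDatum (N' * p) (↑S : Set ℕ) 𝒪 θ T)
    (hres : (GaloisRepAdic.ofResidualGaloisRep H.ρ.residual).IsOrdinaryAt p)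
    (φ : T →+* TQ) (hφ : IsLocalHom φ) (hsurj : Function.Surjective φ)
    (hann : ∀ t₀ : 𝒪 ⊗[ℤ] heckeAlgebra (N' * p) 2 (↑S : Set ℕ),
      (∀ (a : 𝒪), ∀ x ∈ (LamNew (not_dvd_of_exactDvd h) :
          AddSubgroup (levelData p (N' * p) hpS hNS).Λ),
        (levelData p (N' * p) hpS hNS).heckeTensor 𝒪 t₀ (a ⊗ₜ[ℤ] x) = 0) → φ (Fermat.Agent.GH.S32.Inst.piT H t₀) = 0) :
    (pushRep H φ hφ).IsStrictOrdinaryAt p :=
  Fermat.Agent.GB.B10.L.StrictQ.isStrictOrdinaryAt_pushRep_of_ann_res hp2 hp𝒪 h hside hpS hNS H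
    hres φ hφ hsurj (LamNew (not_dvd_of_exactDvd h)) hann
    (hY_lamNew h hpS hNS (not_dvd_of_exactDvd h))

end Push

section Gal

variable {N' p : ℕ} [NeZero N'] [Fact p.Prime] {S : Finset ℕ}
  {𝒪 : Type} [CommRing 𝒪] [IsDomain 𝒪] [IsDiscreteValuationRing 𝒪]
  [IsAdicComplete (IsLocalRing.maximalIdeal 𝒪) 𝒪] [Finite (ResidueField 𝒪)] [CharZero 𝒪]
  {θ : CuspForm.heckeAlgebra (N' * p) 2 (↑S : Set ℕ) →+* IsLocalRing.ResidueField 𝒪}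
  {M : Type} [AddCommGroup M] [Module 𝒪 M] [Module.Finite 𝒪 M] [Module.Free 𝒪 M]
  [Nontrivial M] {tw : heckeAlgebra (N' * p) 2 (↑S : Set ℕ) →+* Module.End 𝒪 M}

/-- **the strict GalPkg over the image ring, on the `p`-new lattice**: binders `hordbar` and the
module-level `(hAnn)` for `LamNew` only. -/
theorem exists_galRep_TQ_strict_new [hloc : Fact (LocHyp 𝒪 θ tw)]
    (hp2 : p ≠ 2) (hp𝒪 : (p : 𝒪) ∈ maximalIdeal 𝒪)
    (h : ExactDvd p (N' * p)) (hside : p = 3 → 2 ∣ N' * p)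
    (hpS : p ∈ S) (hNS : ∀ r : ℕ, r.Prime → r ∣ N' * p → r ∈ S)
    (ρbar : ResidualGaloisRep (ResidueField 𝒪)) (habs : ρbar.IsAbsolutelyIrreducible)
    (hfrob : ∀ (ℓ : ℕ) (hℓ : ℓ.Prime) (hℓN : ¬ ℓ ∣ N' * p) (hℓS : ℓ ∉ (↑S : Set ℕ)),
      ∀ P : ValuationSubring Qb, P.LiesOverPrime ℓ → ∀ σ : GQ, P.IsFrobeniusAt σ ℓ →
        ∃ d₀ : ResidueField 𝒪, LinearMap.charpoly (ρbar.ρ σ) =
          X ^ 2 - C (θ (heckeAlgebra.T hℓ hℓN hℓS)) * X + C d₀)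
    (hordbar : (GaloisRepAdic.ofResidualGaloisRep ρbar).IsOrdinaryAt p)
    (Tram Smin : Finset ℕ) (hST : S ⊆ Tram)
    (hSmin : ∀ q ∈ Smin, q.Prime → q ≠ p → q ∣ N' * p ∧ ¬ q ^ 2 ∣ N' * p)
    (hAnn : ∀ t₀ : 𝒪 ⊗[ℤ] heckeAlgebra (N' * p) 2 (↑S : Set ℕ),
      (∀ (a : 𝒪), ∀ x ∈ (LamNew (not_dvd_of_exactDvd h) :
          AddSubgroup (levelData p (N' * p) hpS hNS).Λ),
        (levelData p (N' * p) hpS hNS).heckeTensor 𝒪 t₀ (a ⊗ₜ[ℤ] x) = 0) →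
          ∀ m : M, twO 𝒪 tw t₀ m = 0) :
    ∃ ρQ : GaloisRepAdic (TQ 𝒪 θ tw),
      (∀ (ℓ : ℕ) (hℓ : ℓ.Prime) (hℓN : ¬ ℓ ∣ N' * p) (hℓS : ℓ ∉ (↑S : Set ℕ))
        (A : ValuationSubring Qb), A.LiesOverPrime ℓ → ∀ σ : GQ, A.IsFrobeniusAt σ ℓ →
          LinearMap.charpoly (ρQ.ρ σ) =
            X ^ 2 - C (chi 𝒪 θ tw (heckeAlgebra.T hℓ hℓN hℓS)) * X
              + C ((ℓ : TQ 𝒪 θ tw))) ∧
      ρQ.DetIsCyclotomic p ∧
      (∀ q : ℕ, q.Prime → q ∉ S → ρQ.IsUnramifiedAt q) ∧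
      GaloisRep.strictOrdinaryCondition 𝒪 p Tram ρQ ∧
      (∀ q ∈ Smin, q.Prime → q ≠ p → ρQ.IsUnipotentOnInertiaAt q) ∧
      ρQ.residual.IsEquiv
        (ρbar.baseChangeAlong (ResidueField.map (algebraMap 𝒪 (TQ 𝒪 θ tw)))) :=
  Fermat.Agent.GB.B10.L.GalPkgSOImg.exists_galRep_TQ_strict hp2 hp𝒪 h hside hpS hNS ρbar habs
    hfrob hordbar Tram Smin hST hSmin (LamNew (not_dvd_of_exactDvd h)) hAnn
    (hY_lamNew h hpS hNS (not_dvd_of_exactDvd h))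

end Gal

end Fermat.Agent.GB.B10.L.StrictQNew
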